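import Mathlib
import Fermat.Agent.Cosets.Index

set_option autoImplicit false
set_option linter.style.haveILetI false

open ModularCurve

namespace Fermat.Agent.ModPoly

theorem dedekindPsi_mul_coprime {m : ℕ} (hm : m ≠ 0) (n : ℕ) (hn : n ≠ 0) (h : m.Coprime n) :
    dedekindPsi (m * n) = dedekindPsi m * dedekindPsi n := by
  induction n using induction_on_primes with
  | zero => exact absurd rfl hn
  | one => simp
  | prime_mul p a hp ih =>
    have ha : a ≠ 0 := by rintro rfl; simp at hn
    have hma : m.Coprime a := Nat.Coprime.coprime_mul_left_right h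
    have hmp : m.Coprime p := Nat.Coprime.coprime_mul_right_right h
    have hpm : ¬ p ∣ m := fun hd => hp.one_lt.ne' (Nat.dvd_one.mp (hmp ▸ Nat.dvd_gcd hd dvd_rfl))
    haveI : NeZero a := ⟨ha⟩
    haveI : NeZero (m * a) := ⟨mul_ne_zero hm ha⟩
    rw [mul_comm p a, ← mul_assoc]
    by_cases hpa : p ∣ a
    · rw [Cosets.dedekindPsi_mul_of_dvd hp (hpa.mul_left m), Cosets.dedekindPsi_mul_of_dvd hp hpa,
        ih ha hma]
      ring
    · have : ¬ p ∣ m * a := by
        rw [hp.dvd_mul]
        tauto
      rw [Cosets.dedekindPsi_mul_of_not_dvd hp this, Cosets.dedekindPsi_mul_of_not_dvd hp hpa,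
        ih ha hma]
      ring

theorem dedekindPsi_prime_pow {p : ℕ} (hp : p.Prime) (k : ℕ) :
    dedekindPsi (p ^ (k + 1)) = p ^ k * (p + 1) := by
  haveI := Fact.mk hp
  haveI : NeZero p := ⟨hp.ne_zero⟩
  induction k with
  | zero =>
    have := Cosets.dedekindPsi_mul_of_not_dvd (N := 1) hp (fun h => hp.one_lt.ne' (Nat.dvd_one.mp h))
    simpa using this
  | succ k ih =>
    rw [pow_succ, Cosets.dedekindPsi_mul_of_dvd hp (dvd_pow_self p (Nat.succ_ne_zero k)), ih]
    ring

/-- `φ ψ` as an arithmetic function. -/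
def J2 : ArithmeticFunction ℕ := ⟨fun n => n.totient * dedekindPsi n, by simp⟩

theorem J2_apply (n : ℕ) : J2 n = n.totient * dedekindPsi n := rfl

theorem J2_mult : J2.IsMultiplicative := by
  rw [ArithmeticFunction.IsMultiplicative.iff_ne_zero]
  refine ⟨by simp [J2_apply], fun {m n} hm hn h => ?_⟩
  rw [J2_apply, J2_apply, J2_apply, Nat.totient_mul h, dedekindPsi_mul_coprime hm n hn h]
  ring

theorem sum_J2 (m : ℕ) : ∑ d ∈ m.divisors, J2 d = m ^ 2 := by
  have h1 : J2 * (ArithmeticFunction.zeta : ArithmeticFunction ℕ) = ArithmeticFunction.pow 2 := by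
    rw [(J2_mult.mul ArithmeticFunction.isMultiplicative_zeta).eq_iff_eq_on_prime_powers _ _
      ArithmeticFunction.isMultiplicative_pow]
    intro p k hp
    rw [ArithmeticFunction.mul_zeta_apply, Nat.sum_divisors_prime_pow hp,
      ArithmeticFunction.pow_apply, if_neg (by simp)]
    induction k with
    | zero => simp [J2_apply]
    | succ k ih =>
      rw [Finset.sum_range_succ, ih, J2_apply, dedekindPsi_prime_pow hp,
        Nat.totient_prime_pow_succ hp]
      have hp1 := hp.one_lt
      obtain ⟨q, rfl⟩ : ∃ q, p = q + 1 := ⟨p - 1, by omega⟩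
      simp only [Nat.add_sub_cancel]
      ring
  have h2 := congrArg (fun f : ArithmeticFunction ℕ => f m) h1
  simp only [ArithmeticFunction.mul_zeta_apply, ArithmeticFunction.pow_apply] at h2
  rw [h2, if_neg (by simp)]

/-- structure of the step function -/
theorem gcd_structure (N : ℕ) (hN : 0 < N) (s : ℕ → ℕ) (hdvd : ∀ m, m ∣ N → s m ∣ m)
    (h1 : ∀ p m, p.Prime → p * m ∣ N → s (p * m) = s m ∨ s (p * m) = p * s m)
    (h2 : ∀ p m, p.Prime → p * (p * m) ∣ N → s (p * m) = s m → s (p * (p * m)) = s m) :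
    ∀ m, m ∣ N → s m = Nat.gcd m (s N) := by
  have hpos : ∀ m, m ∣ N → 0 < s m := fun m hm =>
    Nat.pos_of_dvd_of_pos (hdvd m hm) (Nat.pos_of_dvd_of_pos hm hN)
  have claimA : ∀ m p, p.Prime → p * m ∣ N → p ∣ m / s m → s (p * m) = s m := by
    intro m
    induction m using Nat.strong_induction_on with
    | _ m ih =>
    intro p hp hpm hd
    have hmN : m ∣ N := (Dvd.intro_left p rfl).trans hpm
    have hm : 0 < m := Nat.pos_of_dvd_of_pos hmN hN
    obtain ⟨t, ht⟩ := hdvd m hmN
    have hdiv : m / s m = t := Nat.div_eq_of_eq_mul_right (hpos m hmN) ht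
    rw [hdiv] at hd
    obtain ⟨m', hm'⟩ : p ∣ m := by rw [ht]; exact hd.mul_left _
    subst hm'
    have hm'pos : 0 < m' := Nat.pos_of_ne_zero (by rintro rfl; simp at hm)
    have hm'N : m' ∣ N := (Dvd.intro_left p rfl).trans hmN
    rcases h1 p m' hp hmN with h | h
    · rw [h]
      exact h2 p m' hp hpm h
    · exfalso
      rw [h] at ht
      have h3 : m' = s m' * t := by
        apply Nat.eq_of_mul_eq_mul_left hp.pos
        rw [ht]; ring
      have h4 : m' / s m' = t := Nat.div_eq_of_eq_mul_right (hpos m' hm'N) h3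
      have h5 := ih m' (by have := hp.one_lt; nlinarith) p hp hmN (by rw [h4]; exact hd)
      rw [h] at h5
      have h6 := hpos m' hm'N
      have h7 := hp.one_lt
      have h8 : 2 * s m' ≤ p * s m' := Nat.mul_le_mul_right _ h7
      omega
  have claimB : ∀ m p, p.Prime → p * m ∣ N → Nat.gcd m (s (p * m)) = s m := by
    intro m p hp hpm
    have hmN : m ∣ N := (Dvd.intro_left p rfl).trans hpm
    rcases h1 p m hp hpm with h | h
    · rw [h]
      exact Nat.gcd_eq_right (hdvd m hmN)
    · obtain ⟨t, ht⟩ := hdvd m hmN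
      have hdiv : m / s m = t := Nat.div_eq_of_eq_mul_right (hpos m hmN) ht
      have hpt : ¬ p ∣ t := by
        intro hd
        have h5 := claimA m p hp hpm (by rw [hdiv]; exact hd)
        rw [h] at h5
        have h6 := hpos m hmN
        have h7 := hp.one_lt
        have h8 : 2 * s m ≤ p * s m := Nat.mul_le_mul_right _ h7
        omega
      have h9 : Nat.gcd t p = 1 := (Nat.coprime_comm.mp ((Nat.Prime.coprime_iff_not_dvd hp).mpr hpt))
      rw [h]
      calc m.gcd (p * s m) = (s m * t).gcd (s m * p) := by rw [← ht, mul_comm p]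
        _ = s m := by rw [Nat.gcd_mul_left, h9, mul_one]
  intro m hm
  obtain ⟨t, ht⟩ := hm
  induction t using induction_on_primes generalizing m with
  | zero => simp at ht; omega
  | one =>
    rw [mul_one] at ht
    subst ht
    exact (Nat.gcd_eq_right (hdvd N dvd_rfl)).symm
  | prime_mul p a hp ih =>
    have h3 : p * m ∣ N := ⟨a, by rw [ht]; ring⟩
    have h4 := ih (p * m) (by rw [ht]; ring)
    rw [← claimB m p hp h3, h4, ← Nat.gcd_assoc, Nat.gcd_mul_left_right]

/-- the counting argument -/
theorem count {ι : Type*} [Fintype ι] (N : ℕ) (hN : 0 < N) (S : ι → ℕ) (hS : ∀ i, S i ∣ N)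
    (h : ∀ m, m ∣ N → ∑ i, (Nat.gcd m (S i)) ^ 2 = m * Fintype.card ι)
    (h1 : Fintype.card {i // S i = N} = 1) : Fintype.card ι = dedekindPsi N := by
  classical
  set y : ℕ → ℕ := fun d => (Finset.univ.filter fun i => d ∣ S i).card with hy
  have key : ∀ m, m ∣ N → ∑ d ∈ m.divisors, J2 d * y d =
      ∑ d ∈ m.divisors, d.totient * Fintype.card ι := by
    intro m hm
    have hm0 : m ≠ 0 := (Nat.pos_of_dvd_of_pos hm hN).ne'
    rw [← Finset.sum_mul, Nat.sum_totient, ← h m hm]
    have h3 : ∀ i, (Nat.gcd m (S i)) ^ 2 = ∑ d ∈ m.divisors, if d ∣ S i then J2 d else 0 := by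
      intro i
      rw [← sum_J2, ← Finset.sum_filter]
      congr 1
      ext d
      simp only [Nat.mem_divisors, Finset.mem_filter, Nat.dvd_gcd_iff]
      have : m.gcd (S i) ≠ 0 := Nat.gcd_ne_zero_left hm0
      tauto
    simp_rw [h3]
    rw [Finset.sum_comm]
    refine Finset.sum_congr rfl fun d _ => ?_
    rw [← Finset.sum_filter, Finset.sum_const, smul_eq_mul, mul_comm]
  have key2 : ∀ m, m ∣ N → J2 m * y m = m.totient * Fintype.card ι := by
    intro m
    induction m using Nat.strong_induction_on with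
    | _ m ih =>
    intro hm
    have hm0 : m ≠ 0 := (Nat.pos_of_dvd_of_pos hm hN).ne'
    have h3 := key m hm
    rw [← Nat.insert_self_properDivisors hm0, Finset.sum_insert Nat.self_notMem_properDivisors,
      Finset.sum_insert Nat.self_notMem_properDivisors] at h3
    have h4 : ∑ d ∈ m.properDivisors, J2 d * y d =
        ∑ d ∈ m.properDivisors, d.totient * Fintype.card ι := by
      refine Finset.sum_congr rfl fun d hd => ?_
      rw [Nat.mem_properDivisors] at hd
      exact ih d hd.2 (hd.1.trans hm)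
    omega
  have h5 : y N = 1 := by
    rw [← h1, Fintype.card_subtype, hy]
    simp only
    congr 1
    ext i
    simp only [Finset.mem_filter, Finset.mem_univ, true_and]
    exact ⟨fun hd => Nat.dvd_antisymm (hS i) hd, fun hd => by rw [hd]⟩
  have h6 := key2 N dvd_rfl
  rw [h5, mul_one, J2_apply] at h6
  exact (Nat.eq_of_mul_eq_mul_left (Nat.totient_pos.mpr hN) h6).symm

end Fermat.Agent.ModPoly
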