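import Mathlib
import Fermat.Prelude.Def_ModularCurve_X0ModL

set_option autoImplicit false

noncomputable section

open UpperHalfPlane Complex ModularCurve

namespace Fermat.Agent.ModPoly

/-! ### Convergent Laurent series on the punctured unit disc and their evaluation -/

/-- A Laurent series converges absolutely on the punctured open unit disc. -/
def Conv (F : LaurentSeries ℂ) : Prop :=
  ∀ z : ℂ, z ≠ 0 → ‖z‖ < 1 → Summable (fun n : ℤ => ‖F.coeff n * z ^ n‖)

/-- evaluation of a Laurent series at a complex number -/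
def evz (F : LaurentSeries ℂ) (z : ℂ) : ℂ := ∑' n : ℤ, F.coeff n * z ^ n

theorem Conv.hasSum {F : LaurentSeries ℂ} (hF : Conv F) {z : ℂ} (hz : z ≠ 0) (hz1 : ‖z‖ < 1) :
    HasSum (fun n : ℤ => F.coeff n * z ^ n) (evz F z) :=
  (hF z hz hz1).of_norm.hasSum

theorem hasSum_coeff_mul (F G : LaurentSeries ℂ) (n : ℤ) :
    HasSum (fun i : ℤ => F.coeff i * G.coeff (n - i)) ((F * G).coeff n) := by
  classical
  rw [HahnSeries.coeff_mul]
  have hinj : Set.InjOn (Prod.fst : ℤ × ℤ → ℤ)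
      (Finset.antidiagonal F.isPWO_support G.isPWO_support n) := by
    rintro ⟨a, b⟩ ha ⟨c, d⟩ hc h
    rw [Finset.mem_coe, Finset.mem_antidiagonal] at ha hc
    simp only at h
    subst h
    have : b = d := by linarith [ha.2.2, hc.2.2]
    rw [this]
  have h1 : ∑ ij ∈ Finset.antidiagonal F.isPWO_support G.isPWO_support n,
      F.coeff ij.1 * G.coeff ij.2 =
      ∑ i ∈ (Finset.antidiagonal F.isPWO_support G.isPWO_support n).image Prod.fst,
        F.coeff i * G.coeff (n - i) := by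
    rw [Finset.sum_image hinj]
    refine Finset.sum_congr rfl fun ij hij => ?_
    rw [Finset.mem_antidiagonal] at hij
    rw [show n - ij.1 = ij.2 by linarith [hij.2.2]]
  rw [h1]
  refine hasSum_sum_of_ne_finset_zero fun i hi => ?_
  by_contra hne
  apply hi
  rw [Finset.mem_image]
  refine ⟨(i, n - i), ?_, rfl⟩
  rw [Finset.mem_antidiagonal]
  refine ⟨?_, ?_, by simp⟩
  · rw [HahnSeries.mem_support]
    exact left_ne_zero_of_mul hne
  · rw [HahnSeries.mem_support]
    exact right_ne_zero_of_mul hne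

/-- reindexing equivalence -/
def antiEquiv : ℤ × ℤ ≃ ℤ × ℤ where
  toFun p := (p.2, p.1 - p.2)
  invFun p := (p.1 + p.2, p.1)
  left_inv p := by ext <;> simp
  right_inv p := by ext <;> simp

theorem antiEquiv_term (f g : ℤ → ℂ) {z : ℂ} (hz : z ≠ 0) (p : ℤ × ℤ) :
    f (antiEquiv p).1 * z ^ (antiEquiv p).1 * (g (antiEquiv p).2 * z ^ (antiEquiv p).2)
      = (f p.2 * g (p.1 - p.2)) * z ^ p.1 := by
  have : z ^ p.1 = z ^ p.2 * z ^ (p.1 - p.2) := by
    rw [← zpow_add₀ hz]; congr 1; ring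
  show f p.2 * z ^ p.2 * (g (p.1 - p.2) * z ^ (p.1 - p.2)) = _
  rw [this]
  ring

theorem summable_double (f g : ℤ → ℂ) {z : ℂ} (hz : z ≠ 0)
    (hf : Summable (fun n : ℤ => ‖f n * z ^ n‖)) (hg : Summable (fun n : ℤ => ‖g n * z ^ n‖)) :
    Summable (fun p : ℤ × ℤ => ‖(f p.2 * g (p.1 - p.2)) * z ^ p.1‖) := by
  have hs : Summable (fun p : ℤ × ℤ => ‖(f p.1 * z ^ p.1) * (g p.2 * z ^ p.2)‖) :=
    Summable.mul_norm (f := fun n : ℤ => f n * z ^ n) (g := fun n : ℤ => g n * z ^ n) hf hg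
  have h2 := antiEquiv.summable_iff.mpr hs
  have h3 : (fun p : ℤ × ℤ => ‖(f p.2 * g (p.1 - p.2)) * z ^ p.1‖) =
      (fun p : ℤ × ℤ => ‖(f p.1 * z ^ p.1) * (g p.2 * z ^ p.2)‖) ∘ antiEquiv := by
    funext p
    rw [← antiEquiv_term f g hz]
    rfl
  rw [h3]
  exact h2

theorem hasSum_cauchy (f g c : ℤ → ℂ) {z : ℂ} (hz : z ≠ 0)
    (hf : Summable (fun n : ℤ => ‖f n * z ^ n‖)) (hg : Summable (fun n : ℤ => ‖g n * z ^ n‖))
    (hc : ∀ n, HasSum (fun i : ℤ => f i * g (n - i)) (c n)) {a b : ℂ}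
    (ha : HasSum (fun n : ℤ => f n * z ^ n) a) (hb : HasSum (fun n : ℤ => g n * z ^ n) b) :
    HasSum (fun n : ℤ => c n * z ^ n) (a * b) := by
  have hs : Summable (fun p : ℤ × ℤ => (f p.1 * z ^ p.1) * (g p.2 * z ^ p.2)) :=
    (Summable.mul_norm (f := fun n : ℤ => f n * z ^ n) (g := fun n : ℤ => g n * z ^ n)
      hf hg).of_norm
  have h1 : HasSum (fun p : ℤ × ℤ => (f p.1 * z ^ p.1) * (g p.2 * z ^ p.2)) (a * b) :=
    HasSum.mul (f := fun n : ℤ => f n * z ^ n) (g := fun n : ℤ => g n * z ^ n) ha hb hs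
  have h3 := antiEquiv.hasSum_iff.mpr h1
  have h4 : (fun p : ℤ × ℤ => (f p.1 * z ^ p.1) * (g p.2 * z ^ p.2)) ∘ antiEquiv
      = (fun p : ℤ × ℤ => (f p.2 * g (p.1 - p.2)) * z ^ p.1) := by
    funext p
    rw [← antiEquiv_term f g hz]
    rfl
  rw [h4] at h3
  refine HasSum.prod_fiberwise (f := fun p : ℤ × ℤ => (f p.2 * g (p.1 - p.2)) * z ^ p.1)
    (g := fun n : ℤ => c n * z ^ n) h3 (fun n => ?_)
  exact HasSum.mul_right (f := fun i : ℤ => f i * g (n - i)) (z ^ n) (hc n)

theorem summable_cauchy (f g c : ℤ → ℂ) {z : ℂ} (hz : z ≠ 0)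
    (hf : Summable (fun n : ℤ => ‖f n * z ^ n‖)) (hg : Summable (fun n : ℤ => ‖g n * z ^ n‖))
    (hc : ∀ n, HasSum (fun i : ℤ => f i * g (n - i)) (c n)) :
    Summable (fun n : ℤ => ‖c n * z ^ n‖) := by
  have hd := summable_double f g hz hf hg
  have h2 := hd.prod
  refine Summable.of_nonneg_of_le (fun _ => norm_nonneg _) (fun n => ?_) h2
  rw [← (hc n).tsum_eq, ← tsum_mul_right]
  exact norm_tsum_le_tsum_norm (hd.prod_factor n)

theorem hasSum_mul {F G : LaurentSeries ℂ} (hF : Conv F) (hG : Conv G) {z : ℂ} (hz : z ≠ 0)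
    (hz1 : ‖z‖ < 1) :
    HasSum (fun n : ℤ => (F * G).coeff n * z ^ n) (evz F z * evz G z) :=
  hasSum_cauchy F.coeff G.coeff (F * G).coeff hz (hF z hz hz1) (hG z hz hz1)
    (hasSum_coeff_mul F G) (hF.hasSum hz hz1) (hG.hasSum hz hz1)

theorem Conv.mul {F G : LaurentSeries ℂ} (hF : Conv F) (hG : Conv G) : Conv (F * G) :=
  fun z hz hz1 => summable_cauchy F.coeff G.coeff (F * G).coeff hz (hF z hz hz1) (hG z hz hz1)
    (hasSum_coeff_mul F G)

theorem evz_mul {F G : LaurentSeries ℂ} (hF : Conv F) (hG : Conv G) {z : ℂ} (hz : z ≠ 0)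
    (hz1 : ‖z‖ < 1) : evz (F * G) z = evz F z * evz G z :=
  ((hF.mul hG).hasSum hz hz1).unique (hasSum_mul hF hG hz hz1)

theorem Conv.add {F G : LaurentSeries ℂ} (hF : Conv F) (hG : Conv G) : Conv (F + G) := by
  intro z hz hz1
  refine Summable.of_nonneg_of_le (fun _ => norm_nonneg _) (fun n => ?_)
    ((hF z hz hz1).add (hG z hz hz1))
  rw [HahnSeries.coeff_add, add_mul]
  exact norm_add_le _ _

theorem evz_add {F G : LaurentSeries ℂ} (hF : Conv F) (hG : Conv G) {z : ℂ} (hz : z ≠ 0)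
    (hz1 : ‖z‖ < 1) : evz (F + G) z = evz F z + evz G z := by
  refine ((hF.add hG).hasSum hz hz1).unique ?_
  refine ((hF.hasSum hz hz1).add (hG.hasSum hz hz1)).congr_fun fun n => ?_
  rw [HahnSeries.coeff_add, add_mul]

theorem Conv.neg {F : LaurentSeries ℂ} (hF : Conv F) : Conv (-F) := by
  intro z hz hz1
  refine (hF z hz hz1).congr fun n => ?_
  rw [HahnSeries.coeff_neg, neg_mul, norm_neg]

theorem hasSum_evz_single (k : ℤ) (a z : ℂ) :
    HasSum (fun n : ℤ => (HahnSeries.single k a : LaurentSeries ℂ).coeff n * z ^ n) (a * z ^ k) := by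
  have := _root_.hasSum_single (f := fun n : ℤ => (HahnSeries.single k a : LaurentSeries ℂ).coeff n * z ^ n)
    k (fun b hb => by rw [HahnSeries.coeff_single_of_ne hb, zero_mul])
  simpa [HahnSeries.coeff_single_same] using this

theorem conv_single (k : ℤ) (a : ℂ) : Conv (HahnSeries.single k a) := by
  intro z hz hz1
  refine summable_of_ne_finset_zero (s := {k}) fun n hn => ?_
  rw [Finset.mem_singleton] at hn
  rw [HahnSeries.coeff_single_of_ne hn, zero_mul, norm_zero]

theorem evz_single (k : ℤ) (a z : ℂ) : evz (HahnSeries.single k a) z = a * z ^ k :=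
  (hasSum_evz_single k a z).tsum_eq

theorem conv_one : Conv (1 : LaurentSeries ℂ) := conv_single 0 1

theorem conv_zero : Conv (0 : LaurentSeries ℂ) := by
  intro z _ _
  simp

theorem evz_one (z : ℂ) : evz (1 : LaurentSeries ℂ) z = 1 := by
  have := evz_single 0 1 z
  simpa using this

theorem evz_zero (z : ℂ) : evz (0 : LaurentSeries ℂ) z = 0 := by
  simp [evz]

/-- The subring of convergent Laurent series. -/
def ConvL : Subring (LaurentSeries ℂ) where
  carrier := {F | Conv F}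
  mul_mem' := Conv.mul
  one_mem' := conv_one
  add_mem' := Conv.add
  zero_mem' := conv_zero
  neg_mem' := Conv.neg

theorem mem_ConvL {F : LaurentSeries ℂ} : F ∈ ConvL ↔ Conv F := Iff.rfl

/-- the parameter `q = exp (2 π i τ)` -/
def qp (τ : ℍ) : ℂ := Function.Periodic.qParam 1 τ

theorem qp_ne_zero (τ : ℍ) : qp τ ≠ 0 := Function.Periodic.qParam_ne_zero _

theorem norm_qp_lt_one (τ : ℍ) : ‖qp τ‖ < 1 := Function.Periodic.norm_qParam_lt_one one_pos τ.im_pos

/-- evaluation ring homomorphism on functions on the upper half plane -/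
def evH : ConvL →+* (ℍ → ℂ) where
  toFun F τ := evz F.1 (qp τ)
  map_one' := funext fun _ => evz_one _
  map_zero' := funext fun _ => evz_zero _
  map_mul' F G := funext fun τ => evz_mul F.2 G.2 (qp_ne_zero τ) (norm_qp_lt_one τ)
  map_add' F G := funext fun τ => evz_add F.2 G.2 (qp_ne_zero τ) (norm_qp_lt_one τ)

theorem evH_apply (F : ConvL) (τ : ℍ) : evH F τ = evz F.1 (qp τ) := rfl

/-! ### Behaviour at zero and injectivity -/

theorem tendsto_evz_zero {G : LaurentSeries ℂ} (hG : Conv G) (h0 : ∀ n < 0, G.coeff n = 0) :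
    Filter.Tendsto (evz G) (nhdsWithin 0 {0}ᶜ) (nhds (G.coeff 0)) := by
  have hlim : G.coeff 0 = ∑' n : ℤ, (if n = 0 then G.coeff 0 else 0) := by
    rw [tsum_ite_eq]
  rw [hlim]
  refine tendsto_tsum_of_dominated_convergence
    (bound := fun n : ℤ => ‖G.coeff n * ((1 / 2 : ℝ) : ℂ) ^ n‖) ?_ ?_ ?_
  · refine hG _ (by norm_num) ?_
    rw [Complex.norm_real]
    norm_num
  · intro n
    rcases lt_trichotomy n 0 with hn | hn | hn
    · rw [h0 n hn, if_neg hn.ne]
      simp
    · subst hn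
      simp
    · rw [if_neg hn.ne']
      lift n to ℕ using hn.le
      have hn' : n ≠ 0 := by
        rintro rfl
        simp at hn
      have : Filter.Tendsto (fun z : ℂ => G.coeff n * z ^ n) (nhds 0) (nhds 0) := by
        have hc : Continuous fun z : ℂ => G.coeff n * z ^ n := by fun_prop
        have h := hc.tendsto 0
        simpa [zero_pow hn'] using h
      simpa using this.mono_left nhdsWithin_le_nhds
  · have hb : Metric.ball (0 : ℂ) (1 / 2) ∈ nhdsWithin (0 : ℂ) {0}ᶜ :=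
      mem_nhdsWithin_of_mem_nhds (Metric.ball_mem_nhds _ (by norm_num))
    filter_upwards [hb] with z hz n
    rw [mem_ball_zero_iff] at hz
    rcases lt_or_ge n 0 with hn | hn
    · rw [h0 n hn]
      simp
    · lift n to ℕ using hn
      rw [norm_mul, norm_mul, zpow_natCast, zpow_natCast, norm_pow, norm_pow, Complex.norm_real]
      refine mul_le_mul_of_nonneg_left ?_ (norm_nonneg _)
      refine pow_le_pow_left₀ (norm_nonneg _) ?_ _
      rw [Real.norm_of_nonneg (by norm_num)]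
      exact hz.le

theorem exists_qp_eq {z : ℂ} (hz : z ≠ 0) (hz1 : ‖z‖ < 1) : ∃ τ : ℍ, qp τ = z :=
  ⟨⟨Function.Periodic.invQParam 1 z,
    Function.Periodic.im_invQParam_pos_of_norm_lt_one one_pos hz1 hz⟩,
    Function.Periodic.qParam_right_inv one_ne_zero hz⟩

theorem eq_zero_of_evz_eq_zero {F : LaurentSeries ℂ} (hF : Conv F)
    (h : ∀ z : ℂ, z ≠ 0 → ‖z‖ < 1 → evz F z = 0) : F = 0 := by
  by_contra hne
  set k := F.order with hk
  set G : LaurentSeries ℂ := HahnSeries.single (-k) 1 * F with hG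
  have hcoeff : ∀ n, G.coeff n = F.coeff (n + k) := by
    intro n
    rw [hG, HahnSeries.coeff_single_mul, one_mul, sub_neg_eq_add]
  have hGc : Conv G := (conv_single _ _).mul hF
  have h0 : ∀ n < 0, G.coeff n = 0 := by
    intro n hn
    rw [hcoeff]
    apply HahnSeries.coeff_eq_zero_of_lt_order
    rw [← hk]
    linarith
  have hev : ∀ z : ℂ, z ≠ 0 → ‖z‖ < 1 → evz G z = 0 := by
    intro z hz hz1
    rw [hG, evz_mul (conv_single _ _) hF hz hz1, h z hz hz1, mul_zero]
  have ht := tendsto_evz_zero hGc h0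
  have hb : Metric.ball (0 : ℂ) 1 ∈ nhdsWithin (0 : ℂ) {0}ᶜ :=
    mem_nhdsWithin_of_mem_nhds (Metric.ball_mem_nhds _ (by norm_num))
  have ht2 : Filter.Tendsto (evz G) (nhdsWithin 0 {0}ᶜ) (nhds 0) := by
    refine tendsto_const_nhds.congr' ?_
    filter_upwards [hb, self_mem_nhdsWithin] with z hz hz0
    exact (hev z hz0 (mem_ball_zero_iff.mp hz)).symm
  have h1 : G.coeff 0 = 0 := tendsto_nhds_unique ht ht2
  rw [hcoeff, zero_add, hk] at h1
  exact hne (HahnSeries.coeff_order_eq_zero.mp h1)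

theorem evH_injective : Function.Injective evH := by
  rw [injective_iff_map_eq_zero]
  intro F hF
  apply Subtype.ext
  refine eq_zero_of_evz_eq_zero F.2 fun z hz hz1 => ?_
  obtain ⟨τ, rfl⟩ := exists_qp_eq hz hz1
  exact congrFun hF τ

/-! ### Substitutions `q ↦ q ^ m` and `q ↦ c q` -/

/-- The substitution `q ↦ c q` on Laurent series. -/
def twist {R : Type*} [CommRing R] (c : Rˣ) : LaurentSeries R →+* LaurentSeries R where
  toFun F := ⟨fun n => (((c ^ n : Rˣ) : R)) * F.coeff n, by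
    refine F.isPWO_support.mono fun n hn => ?_
    rw [Function.mem_support] at hn
    exact right_ne_zero_of_mul hn⟩
  map_one' := by
    ext n
    by_cases hn : n = 0
    · subst hn
      simp
    · simp [HahnSeries.coeff_one, hn]
  map_zero' := by
    ext n
    simp
  map_add' F G := by
    ext n
    simp [mul_add]
  map_mul' F G := by
    ext n
    have hsupp : ∀ H : LaurentSeries R, ∀ m : ℤ,
        (((c ^ m : Rˣ) : R)) * H.coeff m ≠ 0 ↔ H.coeff m ≠ 0 := by
      intro H m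
      rw [ne_eq, Units.mul_right_eq_zero]
    rw [HahnSeries.coeff_mul]
    show (((c ^ n : Rˣ) : R)) * (F * G).coeff n = _
    rw [HahnSeries.coeff_mul, Finset.mul_sum]
    refine Finset.sum_congr ?_ ?_
    · ext ij
      simp only [Finset.mem_antidiagonal, HahnSeries.mem_support, hsupp]
    · intro ij hij
      rw [Finset.mem_antidiagonal] at hij
      show _ = (((c ^ ij.1 : Rˣ) : R)) * F.coeff ij.1 * ((((c ^ ij.2 : Rˣ) : R)) * G.coeff ij.2)
      rw [← hij.2.2, zpow_add, Units.val_mul]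
      ring

@[simp] theorem twist_coeff {R : Type*} [CommRing R] (c : Rˣ) (F : LaurentSeries R) (n : ℤ) :
    (twist c F).coeff n = (((c ^ n : Rˣ) : R)) * F.coeff n := rfl

theorem conv_of_comp_mul {m : ℕ} [NeZero m] (F : LaurentSeries ℂ) (z : ℂ) :
    (fun n : ℤ => (qExpand ℂ m F).coeff n * z ^ n) ∘ (fun k : ℤ => (m : ℤ) * k)
      = fun k : ℤ => F.coeff k * (z ^ m) ^ k := by
  funext k
  simp only [Function.comp]
  rw [qExpand_coeff_mul, zpow_mul, zpow_natCast]

theorem mul_left_inj_int (m : ℕ) [NeZero m] : Function.Injective (fun k : ℤ => (m : ℤ) * k) :=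
  fun _ _ h => mul_left_cancel₀ (by exact_mod_cast NeZero.ne m) h

theorem Conv.qExpand {F : LaurentSeries ℂ} (hF : Conv F) (m : ℕ) [NeZero m] :
    Conv (qExpand ℂ m F) := by
  intro z hz hz1
  have hm : z ^ m ≠ 0 := pow_ne_zero _ hz
  have hm1 : ‖z ^ m‖ < 1 := by
    rw [norm_pow]
    exact pow_lt_one₀ (norm_nonneg _) hz1 (NeZero.ne m)
  rw [← (mul_left_inj_int m).summable_iff]
  · refine (hF _ hm hm1).congr fun k => ?_
    have := congrFun (conv_of_comp_mul F z (m := m)) k
    simp only [Function.comp] at this ⊢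
    rw [this]
  · intro n hn
    rw [qExpand_coeff_of_not_dvd m F, zero_mul, norm_zero]
    rintro ⟨k, rfl⟩
    exact hn ⟨k, rfl⟩

theorem evz_qExpand {F : LaurentSeries ℂ} (m : ℕ) [NeZero m] (z : ℂ) :
    evz (ModularCurve.qExpand ℂ m F) z = evz F (z ^ m) := by
  unfold evz
  rw [← conv_of_comp_mul]
  exact ((mul_left_inj_int m).tsum_eq (fun n hn => by
    rw [Function.mem_support] at hn
    by_contra hne
    apply hn
    rw [qExpand_coeff_of_not_dvd m F, zero_mul]
    rintro ⟨k, rfl⟩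
    exact hne ⟨k, rfl⟩)).symm

theorem Conv.twist {F : LaurentSeries ℂ} (hF : Conv F) {c : ℂˣ} (hc : ‖(c : ℂ)‖ = 1) :
    Conv (twist c F) := by
  intro z hz hz1
  have h1 : (c : ℂ) * z ≠ 0 := mul_ne_zero c.ne_zero hz
  have h2 : ‖(c : ℂ) * z‖ < 1 := by rwa [norm_mul, hc, one_mul]
  refine (hF _ h1 h2).congr fun n => ?_
  rw [twist_coeff, mul_zpow, Units.val_zpow_eq_zpow_val]
  ring_nf

theorem evz_twist {F : LaurentSeries ℂ} (c : ℂˣ) (z : ℂ) :
    evz (Fermat.Agent.ModPoly.twist c F) z = evz F (c * z) := by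
  unfold evz
  refine tsum_congr fun n => ?_
  rw [twist_coeff, mul_zpow, Units.val_zpow_eq_zpow_val]
  ring

theorem twist_single {R : Type*} [CommRing R] (c : Rˣ) (k : ℤ) (a : R) :
    twist c (HahnSeries.single k a) = HahnSeries.single k (((c ^ k : Rˣ) : R) * a) := by
  ext n
  by_cases hn : n = k
  · subst hn
    rw [twist_coeff, HahnSeries.coeff_single_same, HahnSeries.coeff_single_same]
  · rw [twist_coeff, HahnSeries.coeff_single_of_ne hn, HahnSeries.coeff_single_of_ne hn, mul_zero]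

end Fermat.Agent.ModPoly
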