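import Mathlib
import Fermat.Agent.ModPoly.QEval
import Fermat.Agent.JFun.LevelOne

set_option autoImplicit false

noncomputable section

open UpperHalfPlane Complex ModularCurve Filter
open scoped Topology Manifold MatrixGroups

local notation "𝕢" => Function.Periodic.qParam

namespace Fermat.Agent.ModPoly

theorem differentiableAt_evz {F : LaurentSeries ℂ} (hF : Conv F) {z : ℂ} (hz : z ≠ 0)
    (hz1 : ‖z‖ < 1) : DifferentiableAt ℂ (evz F) z := by
  have hzp : 0 < ‖z‖ := norm_pos_iff.mpr hz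
  set r₁ : ℝ := ‖z‖ / 2 with hr₁
  set r₂ : ℝ := (‖z‖ + 1) / 2 with hr₂
  have h1 : 0 < r₁ := by positivity
  have h2 : r₂ < 1 := by rw [hr₂]; linarith
  have h3 : 0 < r₂ := by positivity
  set U : Set ℂ := {w | r₁ < ‖w‖} ∩ {w | ‖w‖ < r₂} with hU
  have hUo : IsOpen U := (isOpen_lt continuous_const continuous_norm).inter
    (isOpen_lt continuous_norm continuous_const)
  have hzU : z ∈ U := ⟨by show r₁ < ‖z‖; rw [hr₁]; linarith, by show ‖z‖ < r₂; rw [hr₂]; linarith⟩
  have hn : ∀ r : ℝ, 0 < r → ‖(r : ℂ)‖ = r := fun r hr => by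
    rw [Complex.norm_real, Real.norm_of_nonneg hr.le]
  have hs1 := hF (r₁ : ℂ) (by exact_mod_cast h1.ne') (by rw [hn _ h1, hr₁]; linarith)
  have hs2 := hF (r₂ : ℂ) (by exact_mod_cast h3.ne') (by rw [hn _ h3]; exact h2)
  have hd : DifferentiableOn ℂ (fun w : ℂ => ∑' n : ℤ, F.coeff n * w ^ n) U := by
    refine differentiableOn_tsum_of_summable_norm (hs1.add hs2) (fun n => ?_) hUo ?_
    · intro w hw
      have hw0 : w ≠ 0 := by
        rintro rfl
        have : r₁ < ‖(0 : ℂ)‖ := hw.1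
        rw [norm_zero] at this
        linarith
      exact ((differentiableAt_zpow.mpr (Or.inl hw0)).const_mul _).differentiableWithinAt
    · intro n w hw
      have hw1 : r₁ < ‖w‖ := hw.1
      have hw2 : ‖w‖ < r₂ := hw.2
      have hwp : 0 < ‖w‖ := h1.trans hw1
      rw [norm_mul, norm_mul, norm_mul, norm_zpow, norm_zpow, norm_zpow, hn _ h1, hn _ h3]
      rcases le_or_gt 0 n with h | h
      · have : ‖w‖ ^ n ≤ r₂ ^ n := zpow_le_zpow_left₀ h hwp.le hw2.le
        have h5 : 0 ≤ ‖F.coeff n‖ * r₁ ^ n := by positivity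
        have h6 : ‖F.coeff n‖ * ‖w‖ ^ n ≤ ‖F.coeff n‖ * r₂ ^ n :=
          mul_le_mul_of_nonneg_left this (norm_nonneg _)
        linarith
      · have : ‖w‖ ^ n ≤ r₁ ^ n := by
          have := zpow_le_zpow_left₀ (n := -n) (by omega) h1.le hw1.le
          rw [zpow_neg, zpow_neg] at this
          exact (inv_le_inv₀ (zpow_pos h1 n) (zpow_pos hwp n)).mp this
        have h5 : 0 ≤ ‖F.coeff n‖ * r₂ ^ n := by positivity
        have h6 : ‖F.coeff n‖ * ‖w‖ ^ n ≤ ‖F.coeff n‖ * r₁ ^ n :=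
          mul_le_mul_of_nonneg_left this (norm_nonneg _)
        linarith
  exact (hd z hzU).differentiableAt (hUo.mem_nhds hzU)

variable (p : ℕ) [NeZero p]

/-- the parameter `q^{1/p}` -/
def qpp (τ : ℍ) : ℂ := 𝕢 (p : ℝ) τ

theorem cast_pos' : (0 : ℝ) < (p : ℝ) := by exact_mod_cast NeZero.pos p

theorem qpp_ne_zero (τ : ℍ) : qpp p τ ≠ 0 := Function.Periodic.qParam_ne_zero _

theorem norm_qpp_lt_one (τ : ℍ) : ‖qpp p τ‖ < 1 :=
  Function.Periodic.norm_qParam_lt_one (cast_pos' p) τ.im_pos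

theorem exists_qpp_eq {z : ℂ} (hz : z ≠ 0) (hz1 : ‖z‖ < 1) : ∃ τ : ℍ, qpp p τ = z :=
  ⟨⟨Function.Periodic.invQParam p z,
    Function.Periodic.im_invQParam_pos_of_norm_lt_one (cast_pos' p) hz1 hz⟩,
    Function.Periodic.qParam_right_inv (cast_pos' p).ne' hz⟩

/-- evaluation ring homomorphism at `q^{1/p}` -/
def evP : ConvL →+* (ℍ → ℂ) where
  toFun F τ := evz F.1 (qpp p τ)
  map_one' := funext fun _ => evz_one _
  map_zero' := funext fun _ => evz_zero _
  map_mul' F G := funext fun τ => evz_mul F.2 G.2 (qpp_ne_zero p τ) (norm_qpp_lt_one p τ)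
  map_add' F G := funext fun τ => evz_add F.2 G.2 (qpp_ne_zero p τ) (norm_qpp_lt_one p τ)

theorem evP_apply (F : ConvL) (τ : ℍ) : evP p F τ = evz F.1 (qpp p τ) := rfl

theorem evP_injective : Function.Injective (evP p) := by
  rw [injective_iff_map_eq_zero]
  intro F hF
  apply Subtype.ext
  refine eq_zero_of_evz_eq_zero F.2 fun z hz hz1 => ?_
  obtain ⟨τ, rfl⟩ := exists_qpp_eq p hz hz1
  exact congrFun hF τ

theorem mdiff_evP (F : ConvL) : MDiff (evP p F) := by
  rw [UpperHalfPlane.mdifferentiable_iff]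
  intro z hz
  have hz' : 0 < z.im := hz
  have h1 : DifferentiableAt ℂ (fun z : ℂ => evz F.1 (𝕢 (p : ℝ) z)) z := by
    refine DifferentiableAt.comp (g := evz F.1) (f := fun z => 𝕢 (p : ℝ) z) z ?_ ?_
    · exact differentiableAt_evz F.2 (Function.Periodic.qParam_ne_zero _)
        (Function.Periodic.norm_qParam_lt_one (cast_pos' p) hz')
    · exact Function.Periodic.differentiable_qParam z
  refine (h1.congr_of_eventuallyEq ?_).differentiableWithinAt
  have hopen : {z : ℂ | 0 < z.im} ∈ 𝓝 z := (isOpen_lt continuous_const Complex.continuous_im).mem_nhds hz'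
  filter_upwards [hopen] with w hw
  simp only [Function.comp, evP_apply, qpp]
  rw [UpperHalfPlane.ofComplex_apply_of_im_pos hw]

theorem bounded_evP_of_coeff {G : ConvL} (h0 : ∀ n < 0, G.1.coeff n = 0) :
    IsBoundedAtImInfty (evP p G) := by
  have ht := tendsto_evz_zero G.2 h0
  have hq : Tendsto (fun τ : ℍ => qpp p τ) atImInfty (𝓝[{0}ᶜ] 0) := by
    refine tendsto_nhdsWithin_iff.mpr ⟨UpperHalfPlane.qParam_tendsto_atImInfty (cast_pos' p), ?_⟩
    exact Eventually.of_forall fun τ => qpp_ne_zero p τ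
  exact (ht.comp hq).isBigO_one ℝ

end Fermat.Agent.ModPoly
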