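import Mathlib
import Fermat.Agent.ModPoly.QEvalP

set_option autoImplicit false

noncomputable section

open UpperHalfPlane Complex ModularCurve Filter ModularForm
open scoped Topology Manifold MatrixGroups

local notation "𝕢" => Function.Periodic.qParam

namespace Fermat.Agent.ModPoly

open Fermat.Agent.JFun

/-- The Laurent series of `Δ` over any ring. -/
def deltaC (R : Type*) [CommRing R] : LaurentSeries R :=
  HahnSeries.single (1 : ℤ) 1 *
    HahnSeries.ofPowerSeries ℤ R (dedekindEtaUnit.map (Int.castRingHom R))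

/-- The Laurent series of `1 / Δ` over any ring. -/
def deltaInvC (R : Type*) [CommRing R] : LaurentSeries R :=
  HahnSeries.single (-1 : ℤ) 1 *
    HahnSeries.ofPowerSeries ℤ R (dedekindEtaUnitInv.map (Int.castRingHom R))

/-- The Laurent series of `E₄` over any ring. -/
def eisC (R : Type*) [CommRing R] : LaurentSeries R :=
  HahnSeries.ofPowerSeries ℤ R (eisenstein4.map (Int.castRingHom R))

theorem deltaC_mul_inv (R : Type*) [CommRing R] : deltaC R * deltaInvC R = 1 := by
  have h1 : (HahnSeries.ofPowerSeries ℤ R (dedekindEtaUnit.map (Int.castRingHom R))) *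
      (HahnSeries.ofPowerSeries ℤ R (dedekindEtaUnitInv.map (Int.castRingHom R))) = 1 := by
    rw [← map_mul, ← map_mul, dedekindEtaUnit_mul_inv, map_one, map_one]
  have h2 : (HahnSeries.single (1 : ℤ) (1 : R)) * HahnSeries.single (-1 : ℤ) (1 : R) = 1 := by
    rw [HahnSeries.single_mul_single]
    simp
  calc deltaC R * deltaInvC R = (HahnSeries.single (1 : ℤ) (1 : R) * HahnSeries.single (-1 : ℤ) 1) *
      (HahnSeries.ofPowerSeries ℤ R (dedekindEtaUnit.map (Int.castRingHom R)) *
      HahnSeries.ofPowerSeries ℤ R (dedekindEtaUnitInv.map (Int.castRingHom R))) := by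
        unfold deltaC deltaInvC; ring
    _ = 1 := by rw [h1, h2, mul_one]

theorem jqModC_eq (R : Type*) [CommRing R] : jqModC R = eisC R ^ 3 * deltaInvC R := by
  unfold jqModC eisC deltaInvC jNum
  rw [map_mul, map_mul, map_pow, map_pow]
  ring

theorem jqModC_mul_delta (R : Type*) [CommRing R] : jqModC R * deltaC R = eisC R ^ 3 := by
  rw [jqModC_eq, mul_assoc, mul_comm (deltaInvC R), deltaC_mul_inv, mul_one]

section maps

variable {R S : Type*} [CommRing R] [CommRing S] (f : R →+* S)

theorem coeffMap_deltaC : coeffMap f (deltaC R) = deltaC S := by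
  rw [deltaC, map_mul, coeffMap_single, map_one, coeffMap_ofPowerSeries,
    ← RingHom.comp_apply (PowerSeries.map f) (PowerSeries.map (Int.castRingHom R)),
    ← PowerSeries.map_comp, RingHom.ext_int (f.comp (Int.castRingHom R)) (Int.castRingHom S)]
  rfl

theorem coeffMap_deltaInvC : coeffMap f (deltaInvC R) = deltaInvC S := by
  rw [deltaInvC, map_mul, coeffMap_single, map_one, coeffMap_ofPowerSeries,
    ← RingHom.comp_apply (PowerSeries.map f) (PowerSeries.map (Int.castRingHom R)),
    ← PowerSeries.map_comp, RingHom.ext_int (f.comp (Int.castRingHom R)) (Int.castRingHom S)]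
  rfl

theorem coeffMap_twist (c : Rˣ) (F : LaurentSeries R) :
    coeffMap f (twist c F) = twist (Units.map (f : R →* S) c) (coeffMap f F) := by
  ext n
  rw [coeffMap_coeff, twist_coeff, twist_coeff, coeffMap_coeff, map_mul, ← map_zpow]
  rfl

end maps

/-! ### convergence over `ℂ` -/

theorem natCast_injective_int : Function.Injective (fun n : ℕ => (n : ℤ)) := fun _ _ h =>
  Int.natCast_inj.mp h

theorem hasSum_ofPowerSeries {f : PowerSeries ℂ} {z a : ℂ}
    (h : HasSum (fun n : ℕ => f.coeff n * z ^ n) a) :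
    HasSum (fun n : ℤ => (HahnSeries.ofPowerSeries ℤ ℂ f).coeff n * z ^ n) a := by
  rw [← natCast_injective_int.hasSum_iff]
  · refine h.congr_fun ?_ |> fun h => h
    intro n
    simp only [Function.comp]
    rw [HahnSeries.ofPowerSeries_apply_coeff, zpow_natCast]
  · intro n hn
    have : n < 0 := by
      by_contra hlt
      push Not at hlt
      exact hn ⟨n.toNat, Int.toNat_of_nonneg hlt⟩
    rw [ofPowerSeries_coeff_of_neg f this, zero_mul]

theorem conv_ofPowerSeries {f : PowerSeries ℂ}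
    (h : ∀ z : ℂ, z ≠ 0 → ‖z‖ < 1 → Summable (fun n : ℕ => f.coeff n * z ^ n)) :
    Conv (HahnSeries.ofPowerSeries ℤ ℂ f) := fun z hz hz1 =>
  (hasSum_ofPowerSeries (h z hz hz1).hasSum).summable.norm

/-- the Laurent series of a periodic, holomorphic, bounded function. -/
theorem conv_qExpansion {f : ℍ → ℂ} (hfper : Function.Periodic (f ∘ ofComplex) (1 : ℝ))
    (hfhol : MDiff f) (hfbdd : IsBoundedAtImInfty f) :
    Conv (HahnSeries.ofPowerSeries ℤ ℂ (qExpansion 1 f)) :=
  conv_ofPowerSeries fun z _ hz1 => by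
    have := UpperHalfPlane.hasSum_qExpansion_of_norm_lt one_pos hfper hfhol hfbdd hz1
    simpa only [smul_eq_mul] using this.summable

theorem evz_qExpansion {f : ℍ → ℂ} (hfper : Function.Periodic (f ∘ ofComplex) (1 : ℝ))
    (hfhol : MDiff f) (hfbdd : IsBoundedAtImInfty f) (τ : ℍ) :
    evz (HahnSeries.ofPowerSeries ℤ ℂ (qExpansion 1 f)) (𝕢 1 τ) = f τ := by
  have := UpperHalfPlane.hasSum_qExpansion one_pos hfper hfhol hfbdd τ
  simp only [smul_eq_mul] at this
  exact (hasSum_ofPowerSeries this).tsum_eq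

theorem periodic_E4 : Function.Periodic ((E₄ : ℍ → ℂ) ∘ ofComplex) (1 : ℝ) :=
  SlashInvariantFormClass.periodic_comp_ofComplex E₄ one_mem_strictPeriods_SL

theorem periodic_disc : Function.Periodic (discriminant ∘ ofComplex) (1 : ℝ) :=
  SlashInvariantFormClass.periodic_comp_ofComplex CuspForm.discriminant one_mem_strictPeriods_SL

theorem bounded_E4 : IsBoundedAtImInfty (E₄ : ℍ → ℂ) := ModularFormClass.bdd_at_infty E₄

theorem bounded_disc : IsBoundedAtImInfty discriminant :=
  ModularFormClass.bdd_at_infty CuspForm.discriminant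

theorem conv_eisC : Conv (eisC ℂ) := by
  rw [eisC, ← qExpansion_E4]
  exact conv_qExpansion periodic_E4 mdiff_E4 bounded_E4

theorem evz_eisC (τ : ℍ) : evz (eisC ℂ) (𝕢 1 τ) = E₄ τ := by
  rw [eisC, ← qExpansion_E4]
  exact evz_qExpansion periodic_E4 mdiff_E4 bounded_E4 τ

theorem deltaC_eq_qExpansion : deltaC ℂ = HahnSeries.ofPowerSeries ℤ ℂ (qExpansion 1 discriminant) := by
  rw [qExpansion_discriminant, map_mul, HahnSeries.ofPowerSeries_X, deltaC]

theorem conv_deltaC : Conv (deltaC ℂ) := by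
  rw [deltaC_eq_qExpansion]
  exact conv_qExpansion periodic_disc mdiff_disc bounded_disc

theorem evz_deltaC (τ : ℍ) : evz (deltaC ℂ) (𝕢 1 τ) = discriminant τ := by
  rw [deltaC_eq_qExpansion]
  exact evz_qExpansion periodic_disc mdiff_disc bounded_disc τ

/-- `q / Δ` -/
def qOverDelta (τ : ℍ) : ℂ := 𝕢 1 τ / discriminant τ

theorem mdiff_q : MDiff (fun τ : ℍ => 𝕢 1 τ) := by
  rw [UpperHalfPlane.mdifferentiable_iff]
  intro z hz
  have hz' : 0 < z.im := hz
  refine (((Function.Periodic.differentiable_qParam (h := 1) z)).congr_of_eventuallyEq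
    ?_).differentiableWithinAt
  have hopen : {z : ℂ | 0 < z.im} ∈ 𝓝 z := (isOpen_lt continuous_const Complex.continuous_im).mem_nhds hz'
  filter_upwards [hopen] with w hw
  simp only [Function.comp]
  rw [UpperHalfPlane.ofComplex_apply_of_im_pos hw]

theorem mdiff_qOverDelta : MDiff qOverDelta := mdiff_q.div mdiff_disc discriminant_ne_zero

theorem periodic_q : Function.Periodic ((fun τ : ℍ => 𝕢 1 τ) ∘ ofComplex) (1 : ℝ) := by
  intro w
  by_cases! hw : 0 < im w
  · have : 0 < im (w + (1 : ℝ)) := by simp [hw]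
    simp only [Function.comp, ofComplex_apply_of_im_pos this, ofComplex_apply_of_im_pos hw]
    show 𝕢 1 (w + (1 : ℝ)) = 𝕢 1 w
    simp only [Function.Periodic.qParam, Complex.ofReal_one, div_one, mul_add, mul_one,
      Complex.exp_add, Complex.exp_two_pi_mul_I]
  · have : im (w + (1 : ℝ)) ≤ 0 := by simpa using hw
    simp only [Function.comp, ofComplex_apply_of_im_nonpos this, ofComplex_apply_of_im_nonpos hw]

theorem periodic_qOverDelta : Function.Periodic (qOverDelta ∘ ofComplex) (1 : ℝ) := by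
  intro w
  have h1 := periodic_q w
  have h2 := periodic_disc w
  simp only [Function.comp] at h1 h2 ⊢
  simp only [qOverDelta, h1, h2]

theorem bounded_qOverDelta : IsBoundedAtImInfty qOverDelta := by
  have h := exp_isBigO_discriminant
  have h1 : (fun τ : ℍ => 𝕢 1 τ) =O[atImInfty] discriminant := by
    refine Asymptotics.IsBigO.trans ?_ h
    refine Asymptotics.isBigO_of_le _ fun τ => ?_
    rw [Function.Periodic.norm_qParam, Real.norm_of_nonneg (Real.exp_pos _).le]
    simp
  have h2 := h1.mul (Asymptotics.isBigO_refl (fun τ : ℍ => (discriminant τ)⁻¹) atImInfty)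
  have h3 : (fun τ : ℍ => discriminant τ * (discriminant τ)⁻¹) = fun _ => (1 : ℂ) :=
    funext fun τ => mul_inv_cancel₀ (discriminant_ne_zero τ)
  rw [h3] at h2
  exact h2.trans (Asymptotics.isBigO_of_le _ fun τ => by simp)

theorem evz_eq_iff_aux {F G : LaurentSeries ℂ} (hF : Conv F) (hG : Conv G)
    (h : ∀ τ : ℍ, evz F (𝕢 1 τ) = evz G (𝕢 1 τ)) : F = G := by
  have : (⟨F, hF⟩ : ConvL) = ⟨G, hG⟩ := evH_injective (funext fun τ => by
    rw [evH_apply, evH_apply]
    exact h τ)
  exact congrArg Subtype.val this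

theorem qParam_one_ne_zero (τ : ℍ) : 𝕢 1 τ ≠ 0 := Function.Periodic.qParam_ne_zero _

theorem norm_qParam_one_lt (τ : ℍ) : ‖𝕢 1 τ‖ < 1 :=
  Function.Periodic.norm_qParam_lt_one one_pos τ.im_pos

theorem deltaInvC_eq : deltaInvC ℂ = HahnSeries.single (-1 : ℤ) 1 *
    HahnSeries.ofPowerSeries ℤ ℂ (qExpansion 1 qOverDelta) := by
  set K := HahnSeries.ofPowerSeries ℤ ℂ (qExpansion 1 qOverDelta) with hK
  have hKc : Conv K := conv_qExpansion periodic_qOverDelta mdiff_qOverDelta bounded_qOverDelta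
  have h1 : K * deltaC ℂ = HahnSeries.single (1 : ℤ) 1 := by
    refine evz_eq_iff_aux (hKc.mul conv_deltaC) (conv_single _ _) fun τ => ?_
    rw [evz_mul hKc conv_deltaC (qParam_one_ne_zero τ) (norm_qParam_one_lt τ), evz_deltaC,
      evz_single, hK, evz_qExpansion periodic_qOverDelta mdiff_qOverDelta bounded_qOverDelta,
      qOverDelta, div_mul_cancel₀ _ (discriminant_ne_zero τ)]
    simp
  have h2 : (HahnSeries.single (-1 : ℤ) (1 : ℂ)) * HahnSeries.single (1 : ℤ) (1 : ℂ) = 1 := by
    rw [HahnSeries.single_mul_single]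
    simp
  calc deltaInvC ℂ = (HahnSeries.single (-1 : ℤ) (1 : ℂ) * HahnSeries.single (1 : ℤ) (1 : ℂ)) *
        deltaInvC ℂ := by rw [h2, one_mul]
    _ = HahnSeries.single (-1 : ℤ) 1 * K * (deltaC ℂ * deltaInvC ℂ) := by rw [← h1]; ring
    _ = _ := by rw [deltaC_mul_inv, mul_one]

theorem conv_deltaInvC : Conv (deltaInvC ℂ) := by
  rw [deltaInvC_eq]
  exact (conv_single _ _).mul
    (conv_qExpansion periodic_qOverDelta mdiff_qOverDelta bounded_qOverDelta)

theorem conv_jqModC : Conv (jqModC ℂ) := by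
  rw [jqModC_eq, pow_succ, pow_succ, pow_one]
  exact ((conv_eisC.mul conv_eisC).mul conv_eisC).mul conv_deltaInvC

theorem evz_jqModC (τ : ℍ) : evz (jqModC ℂ) (𝕢 1 τ) = jfun τ := by
  have h1 := congrArg (fun F => evz F (𝕢 1 τ)) (jqModC_mul_delta ℂ)
  simp only [pow_succ, pow_zero, one_mul] at h1
  have a := qParam_one_ne_zero τ
  have b := norm_qParam_one_lt τ
  rw [evz_mul conv_jqModC conv_deltaC a b, evz_mul (conv_eisC.mul conv_eisC) conv_eisC a b,
    evz_mul conv_eisC conv_eisC a b, evz_deltaC, evz_eisC] at h1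
  rw [jfun, eq_div_iff (discriminant_ne_zero τ), h1]
  ring

theorem evz_deltaInvC (τ : ℍ) : evz (deltaInvC ℂ) (𝕢 1 τ) = (discriminant τ)⁻¹ := by
  have h1 : evz (deltaC ℂ * deltaInvC ℂ) (𝕢 1 τ) = evz 1 (𝕢 1 τ) := by rw [deltaC_mul_inv]
  rw [evz_mul conv_deltaC conv_deltaInvC (qParam_one_ne_zero τ) (norm_qParam_one_lt τ),
    evz_deltaC, evz_one] at h1
  exact eq_inv_of_mul_eq_one_right h1

end Fermat.Agent.ModPoly
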