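import Mathlib
import Fermat.Agent.ModPoly.JDelta

set_option autoImplicit false

noncomputable section

open UpperHalfPlane Complex ModularCurve Filter ModularForm
open scoped Topology Manifold MatrixGroups

local notation "𝕢" => Function.Periodic.qParam

namespace Fermat.Agent.ModPoly

open Fermat.Agent.JFun

/-! ### The points `p τ` and `(τ + b) / p` -/

/-- the point `p τ` -/
def mulP (p : ℕ) [NeZero p] (τ : ℍ) : ℍ :=
  ⟨(p : ℂ) * τ, by
    have := cast_pos' p
    have h2 : ((p : ℂ) * τ).im = (p : ℝ) * τ.im := by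
      simp
    rw [h2]
    exact mul_pos this τ.im_pos⟩

/-- the point `(τ + b) / p` -/
def divP (p : ℕ) [NeZero p] (b : ℤ) (τ : ℍ) : ℍ :=
  ⟨((τ : ℂ) + b) / p, by
    have := cast_pos' p
    have h2 : (((τ : ℂ) + b) / p).im = τ.im / (p : ℝ) := by
      rw [Complex.div_natCast_im]
      simp
    rw [h2]
    exact div_pos τ.im_pos this⟩

theorem coe_mulP (p : ℕ) [NeZero p] (τ : ℍ) : (mulP p τ : ℂ) = (p : ℂ) * τ := rfl

theorem coe_divP (p : ℕ) [NeZero p] (b : ℤ) (τ : ℍ) : (divP p b τ : ℂ) = ((τ : ℂ) + b) / p := rfl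

theorem coe_S_smul (τ : ℍ) : ((ModularGroup.S • τ : ℍ) : ℂ) = -1 / (τ : ℂ) := by
  rw [UpperHalfPlane.modular_S_smul]
  show (-(τ : ℂ))⁻¹ = _
  rw [neg_div, one_div, inv_neg]

theorem coe_T_smul (τ : ℍ) : ((ModularGroup.T • τ : ℍ) : ℂ) = (τ : ℂ) + 1 := by
  rw [UpperHalfPlane.modular_T_smul, UpperHalfPlane.coe_vadd]
  simp [add_comm]

theorem disc_smul (γ : SL(2, ℤ)) (z : ℍ) :
    discriminant (γ • z) = denom γ z ^ (12 : ℕ) * discriminant z := by
  have h := levelOne_smul CuspForm.discriminant γ z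
  rw [CuspForm.coe_discriminant] at h
  exact_mod_cast h

theorem denom_S (z : ℍ) : denom (ModularGroup.S : SL(2, ℤ)) z = z := ModularGroup.denom_S z

theorem disc_S (z : ℍ) : discriminant (ModularGroup.S • z) = (z : ℂ) ^ 12 * discriminant z := by
  rw [disc_smul, denom_S]

variable (p : ℕ) [NeZero p]

theorem mulP_S (τ : ℍ) : mulP p (ModularGroup.S • τ) = ModularGroup.S • divP p 0 τ := by
  apply UpperHalfPlane.ext
  rw [coe_mulP, coe_S_smul, coe_S_smul, coe_divP]
  have h0 := UpperHalfPlane.ne_zero τ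
  have h1 : (p : ℂ) ≠ 0 := NeZero.ne _
  rw [Int.cast_zero, add_zero]
  field_simp

theorem divP_zero_S (τ : ℍ) : divP p 0 (ModularGroup.S • τ) = ModularGroup.S • mulP p τ := by
  apply UpperHalfPlane.ext
  rw [coe_divP, coe_S_smul, coe_S_smul, coe_mulP]
  have h0 := UpperHalfPlane.ne_zero τ
  have h1 : (p : ℂ) ≠ 0 := NeZero.ne _
  rw [Int.cast_zero, add_zero]
  field_simp

/-- the matrix intertwining `b` and `b'`. -/
def matB (b b' m : ℤ) (h : m * p = b * b' + 1) : SL(2, ℤ) :=
  ⟨!![b, -m; (p : ℤ), -b'], by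
    rw [Matrix.det_fin_two_of]
    linear_combination h⟩

theorem divP_S (b b' m : ℤ) (h : m * p = b * b' + 1) (τ : ℍ) :
    divP p b (ModularGroup.S • τ) = matB p b b' m h • divP p b' τ := by
  apply UpperHalfPlane.ext
  rw [coe_divP, coe_S_smul, UpperHalfPlane.coe_specialLinearGroup_apply, coe_divP]
  have h0 := UpperHalfPlane.ne_zero τ
  have h1 : (p : ℂ) ≠ 0 := NeZero.ne _
  have hm : (m : ℂ) * p = b * b' + 1 := by exact_mod_cast h
  have hm' : (m : ℂ) = (b * b' + 1) / p := by field_simp; exact hm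
  simp only [matB, Matrix.of_apply, Matrix.cons_val', Matrix.cons_val_zero, Matrix.cons_val_one,
    Matrix.cons_val_fin_one, algebraMap_int_eq, eq_intCast, Int.cast_neg, Int.cast_natCast,
    Complex.ofReal_intCast, Complex.ofReal_neg, Complex.ofReal_natCast]
  have hd : (p : ℂ) * (((τ : ℂ) + b') / p) + -(b' : ℂ) = τ := by
    field_simp
    ring
  rw [hd, hm']
  field_simp
  ring

theorem denom_matB (b b' m : ℤ) (h : m * p = b * b' + 1) (τ : ℍ) :
    denom (matB p b b' m h) (divP p b' τ) = τ := by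
  have h1 : (p : ℂ) ≠ 0 := NeZero.ne _
  rw [ModularGroup.denom_apply, coe_divP]
  simp only [matB, Matrix.of_apply, Matrix.cons_val', Matrix.cons_val_zero, Matrix.cons_val_one,
    Matrix.cons_val_fin_one, Int.cast_neg, Int.cast_natCast]
  field_simp
  ring

theorem mulP_T (τ : ℍ) : mulP p (ModularGroup.T • τ) = ModularGroup.T ^ (p : ℤ) • mulP p τ := by
  apply UpperHalfPlane.ext
  rw [coe_mulP, coe_T_smul, UpperHalfPlane.modular_T_zpow_smul, UpperHalfPlane.coe_vadd, coe_mulP]
  push_cast
  ring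

theorem divP_T (b : ℤ) (τ : ℍ) : divP p b (ModularGroup.T • τ) = divP p (b + 1) τ := by
  apply UpperHalfPlane.ext
  rw [coe_divP, coe_T_smul, coe_divP]
  push_cast
  ring

theorem divP_add (b k : ℤ) (τ : ℍ) : divP p (b + p * k) τ = ModularGroup.T ^ k • divP p b τ := by
  apply UpperHalfPlane.ext
  have h1 : (p : ℂ) ≠ 0 := NeZero.ne _
  rw [coe_divP, UpperHalfPlane.modular_T_zpow_smul, UpperHalfPlane.coe_vadd, coe_divP]
  push_cast
  field_simp
  ring

theorem disc_T_zpow (k : ℤ) (τ : ℍ) : discriminant (ModularGroup.T ^ k • τ) = discriminant τ := by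
  rw [disc_smul]
  have : denom ((ModularGroup.T ^ k : SL(2, ℤ))) τ = 1 := by
    rw [ModularGroup.denom_apply]
    simp [ModularGroup.coe_T_zpow]
  rw [this]
  simp

/-! ### The functions of level `p` -/

/-- the index set: `none` is the cusp `∞` -/
abbrev Idx (p : ℕ) := Option (ZMod p)

/-- conjugates of `j (p τ)` -/
def jA : Idx p → ℍ → ℂ
  | none => fun τ => jfun (mulP p τ)
  | some b => fun τ => jfun (divP p (b.val : ℤ) τ)

/-- conjugates of `p ^ 12 Δ (p τ) / Δ (τ)` -/
def uA : Idx p → ℍ → ℂ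
  | none => fun τ => (p : ℂ) ^ 12 * discriminant (mulP p τ) * (discriminant τ)⁻¹
  | some b => fun τ => discriminant (divP p (b.val : ℤ) τ) * (discriminant τ)⁻¹

theorem jfun_divP_congr {b b' : ℤ} (h : (b : ZMod p) = (b' : ZMod p)) (τ : ℍ) :
    jfun (divP p b τ) = jfun (divP p b' τ) := by
  rw [ZMod.intCast_eq_intCast_iff_dvd_sub] at h
  obtain ⟨k, hk⟩ := h
  rw [show b' = b + p * k by linarith, divP_add, jfun_smul]

theorem disc_divP_congr {b b' : ℤ} (h : (b : ZMod p) = (b' : ZMod p)) (τ : ℍ) :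
    discriminant (divP p b τ) = discriminant (divP p b' τ) := by
  rw [ZMod.intCast_eq_intCast_iff_dvd_sub] at h
  obtain ⟨k, hk⟩ := h
  rw [show b' = b + p * k by linarith, divP_add, disc_T_zpow]

/-- permutation induced by `T` -/
def permT : Equiv.Perm (Idx p) := Equiv.optionCongr (Equiv.addRight (1 : ZMod p))

theorem permT_none : permT p none = none := rfl

theorem permT_some (b : ZMod p) : permT p (some b) = some (b + 1) := rfl

theorem jA_T (α : Idx p) (τ : ℍ) : jA p α (ModularGroup.T • τ) = jA p (permT p α) τ := by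
  rcases α with _ | b
  · show jfun (mulP p _) = jfun (mulP p _)
    rw [mulP_T, jfun_smul]
  · show jfun (divP p (b.val : ℤ) _) = jfun (divP p ((b + 1).val : ℤ) τ)
    rw [divP_T]
    apply jfun_divP_congr
    push_cast
    simp

theorem uA_T (α : Idx p) (τ : ℍ) : uA p α (ModularGroup.T • τ) = uA p (permT p α) τ := by
  have hT : discriminant (ModularGroup.T • τ) = discriminant τ := by
    simpa using disc_T_zpow 1 τ
  rcases α with _ | b
  · rw [permT_none]
    simp only [uA]
    rw [mulP_T, disc_T_zpow, hT]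
  · rw [permT_some]
    simp only [uA]
    rw [divP_T, hT, disc_divP_congr p (b := (b.val : ℤ) + 1) (b' := ((b + 1).val : ℤ))
      (by push_cast; simp)]

section prime

variable [Fact p.Prime]

/-- permutation induced by `S` -/
def sFun : Idx p → Idx p
  | none => some 0
  | some b => if b = 0 then none else some (-b⁻¹)

theorem sFun_invol : Function.Involutive (sFun p) := by
  intro α
  rcases α with _ | b
  · simp [sFun]
  · by_cases hb : b = 0
    · subst hb
      simp [sFun]
    · simp [sFun, hb, neg_eq_zero, inv_neg]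

def permS : Equiv.Perm (Idx p) := (sFun_invol p).toPerm

theorem exists_m (b : ZMod p) (hb : b ≠ 0) :
    ∃ m : ℤ, m * p = (b.val : ℤ) * ((-b⁻¹).val : ℤ) + 1 := by
  have : ((((b.val : ℤ) * ((-b⁻¹).val : ℤ) + 1 : ℤ)) : ZMod p) = 0 := by
    push_cast
    simp [hb]
  rw [ZMod.intCast_zmod_eq_zero_iff_dvd] at this
  obtain ⟨m, hm⟩ := this
  exact ⟨m, by rw [hm]; ring⟩

theorem jA_S (α : Idx p) (τ : ℍ) : jA p α (ModularGroup.S • τ) = jA p (permS p α) τ := by
  rcases α with _ | b
  · show jfun _ = jfun (divP p (((0 : ZMod p).val : ℕ) : ℤ) τ)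
    rw [mulP_S, jfun_smul, ZMod.val_zero]
    simp
  · by_cases hb : b = 0
    · subst hb
      have h1 : permS p (some 0) = none := by
        show sFun p (some 0) = none
        simp [sFun]
      rw [h1]
      show jfun (divP p (((0 : ZMod p).val : ℕ) : ℤ) _) = jfun (mulP p τ)
      rw [ZMod.val_zero]
      simp only [Nat.cast_zero]
      rw [divP_zero_S, jfun_smul]
    · have h1 : permS p (some b) = some (-b⁻¹) := by
        show sFun p (some b) = _
        simp [sFun, hb]
      rw [h1]
      obtain ⟨m, hm⟩ := exists_m p b hb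
      show jfun (divP p (b.val : ℤ) _) = jfun (divP p ((-b⁻¹).val : ℤ) τ)
      rw [divP_S p _ _ m hm, jfun_smul]

theorem uA_S (α : Idx p) (τ : ℍ) : uA p α (ModularGroup.S • τ) = uA p (permS p α) τ := by
  have hp : (p : ℂ) ≠ 0 := NeZero.ne _
  have hτ := UpperHalfPlane.ne_zero τ
  have hD := discriminant_ne_zero τ
  rcases α with _ | b
  · show (p : ℂ) ^ 12 * discriminant (mulP p (ModularGroup.S • τ)) *
      (discriminant (ModularGroup.S • τ))⁻¹ =
      discriminant (divP p (((0 : ZMod p).val : ℕ) : ℤ) τ) * (discriminant τ)⁻¹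
    rw [mulP_S, disc_S, disc_S, ZMod.val_zero, coe_divP]
    simp only [Nat.cast_zero, Int.cast_zero, add_zero]
    field_simp
  · by_cases hb : b = 0
    · subst hb
      have h1 : permS p (some 0) = none := by
        show sFun p (some 0) = none
        simp [sFun]
      rw [h1]
      show discriminant (divP p (((0 : ZMod p).val : ℕ) : ℤ) (ModularGroup.S • τ)) *
        (discriminant (ModularGroup.S • τ))⁻¹ =
        (p : ℂ) ^ 12 * discriminant (mulP p τ) * (discriminant τ)⁻¹
      rw [ZMod.val_zero]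
      simp only [Nat.cast_zero]
      rw [divP_zero_S, disc_S, disc_S, coe_mulP]
      field_simp
    · have h1 : permS p (some b) = some (-b⁻¹) := by
        show sFun p (some b) = _
        simp [sFun, hb]
      rw [h1]
      obtain ⟨m, hm⟩ := exists_m p b hb
      show discriminant (divP p (b.val : ℤ) (ModularGroup.S • τ)) *
        (discriminant (ModularGroup.S • τ))⁻¹ =
        discriminant (divP p ((-b⁻¹).val : ℤ) τ) * (discriminant τ)⁻¹
      rw [divP_S p _ _ m hm, disc_smul, denom_matB, disc_S]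
      field_simp

end prime

end Fermat.Agent.ModPoly
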