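import Mathlib

set_option autoImplicit false

noncomputable section

open Polynomial

namespace Fermat.Agent.ModPoly

variable {A B : Type*} [CommRing A] [CommRing B] {I : Type*} [Fintype I] [DecidableEq I]

/-- `∏ (Y - f α)` -/
def phiP (f : I → A) : A[X] := ∏ α, (X - C (f α))

/-- Lagrange-type polynomial `∑ g α ∏_{β ≠ α} (Y - f β)` -/
def lagP (f g : I → A) : A[X] := ∑ α, C (g α) * ∏ β ∈ Finset.univ.erase α, (X - C (f β))

omit [DecidableEq I] in
theorem phiP_map (φ : A →+* B) (f : I → A) : (phiP f).map φ = phiP (fun α => φ (f α)) := by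
  simp [phiP, Polynomial.map_prod]

theorem lagP_map (φ : A →+* B) (f g : I → A) :
    (lagP f g).map φ = lagP (fun α => φ (f α)) (fun α => φ (g α)) := by
  simp [lagP, Polynomial.map_sum, Polynomial.map_prod]

omit [DecidableEq I] in
theorem phiP_perm (π : Equiv.Perm I) (f : I → A) : phiP (fun α => f (π α)) = phiP f := by
  unfold phiP
  exact Equiv.prod_comp π (fun α => X - C (f α))

theorem lagP_perm (π : Equiv.Perm I) (f g : I → A) :
    lagP (fun α => f (π α)) (fun α => g (π α)) = lagP f g := by
  unfold lagP
  rw [← Equiv.sum_comp π (fun α => C (g α) * ∏ β ∈ Finset.univ.erase α, (X - C (f β)))]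
  refine Finset.sum_congr rfl fun α _ => ?_
  congr 1
  refine Finset.prod_equiv π (fun β => ?_) (fun β _ => rfl)
  simp

omit [DecidableEq I] in
theorem phiP_monic (f : I → A) : (phiP f).Monic := monic_prod_of_monic _ _ fun _ _ => monic_X_sub_C _

omit [DecidableEq I] in
theorem phiP_natDegree [Nontrivial A] (f : I → A) : (phiP f).natDegree = Fintype.card I := by
  unfold phiP
  rw [natDegree_prod_of_monic _ _ fun α _ => monic_X_sub_C (f α)]
  simp

omit [DecidableEq I] in
theorem eval_phiP (f : I → A) (a : A) : (phiP f).eval a = ∏ α, (a - f α) := by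
  simp [phiP, eval_prod]

theorem derivative_phiP (f : I → A) :
    derivative (phiP f) = ∑ α, ∏ β ∈ Finset.univ.erase α, (X - C (f β)) := by
  unfold phiP
  rw [derivative_prod_finset]
  simp

theorem eval_derivative_phiP (f : I → A) (α : I) :
    (derivative (phiP f)).eval (f α) = ∏ β ∈ Finset.univ.erase α, (f α - f β) := by
  rw [derivative_phiP, eval_finsetSum, Finset.sum_eq_single α]
  · simp [eval_prod]
  · intro b _ hb
    rw [eval_prod]
    refine Finset.prod_eq_zero (i := α) ?_ (by simp)
    simp [Finset.mem_erase, hb.symm]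
  · simp

theorem eval_lagP (f g : I → A) (α : I) :
    (lagP f g).eval (f α) = g α * (derivative (phiP f)).eval (f α) := by
  rw [eval_derivative_phiP, lagP, eval_finsetSum, Finset.sum_eq_single α]
  · simp [eval_prod]
  · intro b _ hb
    rw [eval_mul, eval_prod]
    rw [Finset.prod_eq_zero (i := α) (by simp [Finset.mem_erase, hb.symm]) (by simp), mul_zero]
  · simp

end Fermat.Agent.ModPoly
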