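import Mathlib
import Fermat.Agent.ModPoly.Family
import Fermat.Agent.ModPoly.SymPoly

set_option autoImplicit false

noncomputable section

open UpperHalfPlane Complex ModularCurve Filter ModularForm
open scoped Topology Manifold MatrixGroups

local notation "𝕢" => Function.Periodic.qParam

namespace Fermat.Agent.ModPoly

open Fermat.Agent.JFun

variable (p : ℕ) [NeZero p]

instance neZero_mul_self : NeZero (p * p) := ⟨Nat.mul_ne_zero (NeZero.ne p) (NeZero.ne p)⟩

/-- formal conjugates of `j (q ^ (p ^ 2))` over `j (q ^ p)`. -/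
def jF {R : Type*} [CommRing R] (ζ : Rˣ) : Idx p → LaurentSeries R
  | none => qExpand R (p * p) (jqModC R)
  | some b => twist (ζ ^ b.val) (jqModC R)

/-- formal conjugates of `p ^ 12 Δ (q ^ (p ^ 2)) / Δ (q ^ p)`. -/
def uF {R : Type*} [CommRing R] (ζ : Rˣ) : Idx p → LaurentSeries R
  | none => HahnSeries.C ((p : R) ^ 12) * qExpand R (p * p) (deltaC R) *
      qExpand R p (deltaInvC R)
  | some b => twist (ζ ^ b.val) (deltaC R) * qExpand R p (deltaInvC R)

/-- `exp (2 π i / p)` as a unit -/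
def zetaC : ℂˣ := Units.mk0 (Complex.exp (2 * Real.pi * Complex.I / p)) (Complex.exp_ne_zero _)

theorem norm_zetaC : ‖((zetaC p : ℂˣ) : ℂ)‖ = 1 := by
  show ‖Complex.exp (2 * Real.pi * Complex.I / p)‖ = 1
  rw [Complex.norm_exp]
  simp

theorem norm_zetaC_pow (n : ℕ) : ‖(((zetaC p) ^ n : ℂˣ) : ℂ)‖ = 1 := by
  rw [Units.val_pow_eq_pow_val, norm_pow, norm_zetaC, one_pow]

theorem qpp_pow (τ : ℍ) : qpp p τ ^ p = 𝕢 1 τ := by
  have h1 : (p : ℂ) ≠ 0 := NeZero.ne _
  simp only [qpp, Function.Periodic.qParam, ← Complex.exp_nat_mul]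
  congr 1
  push_cast
  field_simp

theorem qpp_pow_mul (τ : ℍ) : qpp p τ ^ (p * p) = 𝕢 1 (mulP p τ) := by
  rw [pow_mul, qpp_pow, coe_mulP]
  simp only [Function.Periodic.qParam, ← Complex.exp_nat_mul]
  congr 1
  push_cast
  ring

theorem zeta_mul_qpp (b : ℕ) (τ : ℍ) :
    (((zetaC p) ^ b : ℂˣ) : ℂ) * qpp p τ = 𝕢 1 (divP p (b : ℤ) τ) := by
  have h1 : (p : ℂ) ≠ 0 := NeZero.ne _
  rw [Units.val_pow_eq_pow_val, coe_divP]
  show (Complex.exp (2 * Real.pi * Complex.I / p)) ^ b * _ = _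
  simp only [qpp, Function.Periodic.qParam, ← Complex.exp_nat_mul, ← Complex.exp_add]
  congr 1
  push_cast
  field_simp
  ring

theorem conv_C (a : ℂ) : Conv (HahnSeries.C a) := conv_single 0 a

theorem evz_C (a z : ℂ) : evz (HahnSeries.C a) z = a := by
  have := evz_single 0 a z
  rw [zpow_zero, mul_one] at this
  exact this

theorem conv_jF (α : Idx p) : Conv (jF p (zetaC p) α) := by
  rcases α with _ | b
  · exact Conv.qExpand conv_jqModC _
  · exact Conv.twist conv_jqModC (norm_zetaC_pow p _)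

theorem conv_uF (α : Idx p) : Conv (uF p (zetaC p) α) := by
  rcases α with _ | b
  · exact (Conv.mul (conv_C _) (Conv.qExpand conv_deltaC _)).mul
      (Conv.qExpand conv_deltaInvC _)
  · exact (Conv.twist conv_deltaC (norm_zetaC_pow p _)).mul (Conv.qExpand conv_deltaInvC _)

def jL (α : Idx p) : ConvL := ⟨jF p (zetaC p) α, conv_jF p α⟩

def uL (α : Idx p) : ConvL := ⟨uF p (zetaC p) α, conv_uF p α⟩

/-- `j (q ^ p)` as convergent series -/
def jpL : ConvL := ⟨qExpand ℂ p (jqModC ℂ), Conv.qExpand conv_jqModC _⟩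

/-- `Δ (q ^ p)` as convergent series -/
def dpL : ConvL := ⟨qExpand ℂ p (deltaC ℂ), Conv.qExpand conv_deltaC _⟩

theorem evP_jpL (τ : ℍ) : evP p (jpL p) τ = jfun τ := by
  rw [evP_apply]
  show evz (qExpand ℂ p (jqModC ℂ)) _ = _
  rw [evz_qExpand, qpp_pow, evz_jqModC]

theorem evP_dpL (τ : ℍ) : evP p (dpL p) τ = discriminant τ := by
  rw [evP_apply]
  show evz (qExpand ℂ p (deltaC ℂ)) _ = _
  rw [evz_qExpand, qpp_pow, evz_deltaC]

theorem evP_jL (α : Idx p) (τ : ℍ) : evP p (jL p α) τ = jA p α τ := by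
  rcases α with _ | b
  · rw [evP_apply]
    show evz (qExpand ℂ (p * p) (jqModC ℂ)) _ = jfun (mulP p τ)
    rw [evz_qExpand, qpp_pow_mul, evz_jqModC]
  · rw [evP_apply]
    show evz (twist ((zetaC p) ^ b.val) (jqModC ℂ)) _ = jfun (divP p (b.val : ℤ) τ)
    rw [evz_twist, zeta_mul_qpp, evz_jqModC]

theorem evP_uL (α : Idx p) (τ : ℍ) : evP p (uL p α) τ = uA p α τ := by
  rcases α with _ | b
  · rw [evP_apply]
    show evz (HahnSeries.C ((p : ℂ) ^ 12) * qExpand ℂ (p * p) (deltaC ℂ) *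
      qExpand ℂ p (deltaInvC ℂ)) _ = (p : ℂ) ^ 12 * discriminant (mulP p τ) * (discriminant τ)⁻¹
    rw [evz_mul ((conv_C _).mul (Conv.qExpand conv_deltaC _))
      (Conv.qExpand conv_deltaInvC _) (qpp_ne_zero p τ) (norm_qpp_lt_one p τ),
      evz_mul (conv_C _) (Conv.qExpand conv_deltaC _) (qpp_ne_zero p τ)
      (norm_qpp_lt_one p τ), evz_qExpand, evz_qExpand, qpp_pow, qpp_pow_mul, evz_deltaC,
      evz_deltaInvC, evz_C]
  · rw [evP_apply]
    show evz (twist ((zetaC p) ^ b.val) (deltaC ℂ) * qExpand ℂ p (deltaInvC ℂ)) _ =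
      discriminant (divP p (b.val : ℤ) τ) * (discriminant τ)⁻¹
    rw [evz_mul (Conv.twist conv_deltaC (norm_zetaC_pow p _)) (Conv.qExpand conv_deltaInvC _)
      (qpp_ne_zero p τ) (norm_qpp_lt_one p τ), evz_twist, evz_qExpand, zeta_mul_qpp, qpp_pow,
      evz_deltaC, evz_deltaInvC]

/-! ### Invariant functions -/

/-- `SL(2,ℤ)`-invariance follows from invariance under `S` and `T`. -/
theorem invariant_of_S_T {g : ℍ → ℂ} (hS : ∀ z, g (ModularGroup.S • z) = g z)
    (hT : ∀ z, g (ModularGroup.T • z) = g z) (γ : SL(2, ℤ)) (z : ℍ) : g (γ • z) = g z := by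
  let H : Subgroup SL(2, ℤ) :=
    { carrier := {γ | ∀ z, g (γ • z) = g z}
      mul_mem' := fun {a b} ha hb z => by rw [mul_smul, ha, hb]
      one_mem' := fun z => by rw [one_smul]
      inv_mem' := fun {a} ha z => by
        have := ha (a⁻¹ • z)
        rw [smul_inv_smul] at this
        exact this.symm }
  have hle : Subgroup.closure {ModularGroup.S, ModularGroup.T} ≤ H := by
    rw [Subgroup.closure_le]
    rintro x (rfl | rfl)
    · exact hS
    · exact hT
  have : γ ∈ H := hle (by rw [SpecialLinearGroup.SL2Z_generators]; trivial)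
  exact this z

theorem order_delta_pos : ∀ m < (1 : ℤ), (deltaC ℂ).coeff m = 0 := by
  intro m hm
  rw [deltaC, HahnSeries.coeff_single_mul, one_mul]
  exact ofPowerSeries_coeff_of_neg _ (by linarith)

theorem coeff_dpL : ∀ m < (1 : ℤ), (dpL p).1.coeff m = 0 := by
  intro m hm
  show (qExpand ℂ p (deltaC ℂ)).coeff m = 0
  by_cases hd : (p : ℤ) ∣ m
  · obtain ⟨k, rfl⟩ := hd
    rw [qExpand_coeff_mul]
    apply order_delta_pos
    have hp : (0 : ℤ) < p := by exact_mod_cast NeZero.pos p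
    by_contra hk
    push Not at hk
    have : (p : ℤ) * 1 ≤ p * k := by nlinarith
    linarith
  · exact qExpand_coeff_of_not_dvd p _ hd

/-- A Laurent series times a high power of `Δ(q^p)` is a power series. -/
theorem exists_pow_nonneg (F : LaurentSeries ℂ) {D : LaurentSeries ℂ}
    (hD : ∀ m < (1 : ℤ), D.coeff m = 0) :
    ∃ n : ℕ, ∀ m < (0 : ℤ), (F * D ^ n).coeff m = 0 := by
  by_cases hF : F = 0
  · exact ⟨0, fun m _ => by simp [hF]⟩
  by_cases hD0 : D = 0
  · exact ⟨1, fun m _ => by simp [hD0]⟩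
  have h1 : 1 ≤ D.order := (HahnSeries.le_order_iff_forall hD0).mpr hD
  refine ⟨F.order.natAbs, fun m hm => HahnSeries.coeff_eq_zero_of_lt_order ?_⟩
  rw [HahnSeries.order_mul hF (pow_ne_zero _ hD0), HahnSeries.order_pow]
  have h2 : (F.order.natAbs : ℤ) ≤ F.order.natAbs • D.order := by
    rw [nsmul_eq_mul]
    nlinarith [Int.natCast_nonneg F.order.natAbs]
  have h3 : -(F.order.natAbs : ℤ) ≤ F.order := by
    rw [Int.natCast_natAbs]
    exact neg_abs_le _
  linarith

theorem exists_poly_of_invariant (F : ConvL)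
    (hS : ∀ z, evP p F (ModularGroup.S • z) = evP p F z)
    (hT : ∀ z, evP p F (ModularGroup.T • z) = evP p F z) :
    ∃ P : Polynomial ℂ, F.1 = P.eval₂ HahnSeries.C (qExpand ℂ p (jqModC ℂ)) := by
  obtain ⟨n, hn⟩ := exists_pow_nonneg F.1 (coeff_dpL p)
  have hb : IsBoundedAtImInfty (fun z => evP p F z * discriminant z ^ n) := by
    have h1 := bounded_evP_of_coeff p (G := F * (dpL p) ^ n) hn
    have h2 : evP p (F * dpL p ^ n) = fun z => evP p F z * discriminant z ^ n := by
      rw [map_mul, map_pow]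
      funext z
      rw [Pi.mul_apply, Pi.pow_apply, evP_dpL]
    rwa [h2] at h1
  obtain ⟨P, -, -, hP⟩ := exists_poly_jfun ⊤ n (evP p F) (mdiff_evP p F)
    (invariant_of_S_T hS hT) hb (by rw [mem_psIn]; intro _; trivial)
  refine ⟨P, ?_⟩
  let cL : ℂ →+* ConvL := (HahnSeries.C : ℂ →+* LaurentSeries ℂ).codRestrict ConvL
    fun a => conv_single 0 a
  have h3 : F = P.eval₂ cL (jpL p) := by
    apply evP_injective p
    rw [Polynomial.hom_eval₂]
    funext z
    rw [hP z]
    have h4 : (Pi.evalRingHom (fun _ : ℍ => ℂ) z) (P.eval₂ ((evP p).comp cL) (evP p (jpL p)))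
        = P.eval (jfun z) := by
      rw [Polynomial.hom_eval₂]
      have h5 : (Pi.evalRingHom (fun _ : ℍ => ℂ) z).comp ((evP p).comp cL) = RingHom.id ℂ := by
        ext a
        show evz (HahnSeries.single 0 a) (qpp p z) = a
        rw [evz_single, zpow_zero, mul_one]
      rw [h5, Polynomial.eval₂_id]
      congr 1
      exact evP_jpL p z
    exact h4.symm
  have h6 := congrArg (ConvL.subtype) h3
  rw [Polynomial.hom_eval₂] at h6
  exact h6

end Fermat.Agent.ModPoly
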