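import Mathlib
import Fermat.Agent.ModPoly.Formal

set_option autoImplicit false

noncomputable section

open ModularCurve Polynomial

namespace Fermat.Agent.ModPoly

/-- evaluation of polynomials at `j (q ^ p)` -/
def evJ (R : Type*) [CommRing R] (p : ℕ) [NeZero p] : R[X] →+* LaurentSeries R :=
  Polynomial.eval₂RingHom HahnSeries.C (qExpand R p (jqModC R))

theorem evJ_X (R : Type*) [CommRing R] (p : ℕ) [NeZero p] :
    evJ R p X = qExpand R p (jqModC R) := by
  simp [evJ]

theorem evJ_C (R : Type*) [CommRing R] (p : ℕ) [NeZero p] (a : R) :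
    evJ R p (C a) = HahnSeries.C a := by
  simp [evJ]

theorem coeffMap_C {R S : Type*} [CommRing R] [CommRing S] (f : R →+* S) (a : R) :
    coeffMap f (HahnSeries.C a) = HahnSeries.C (f a) := coeffMap_single f 0 a

theorem coeffMap_evJ {R S : Type*} [CommRing R] [CommRing S] (f : R →+* S) (p : ℕ) [NeZero p]
    (P : R[X]) : coeffMap f (evJ R p P) = evJ S p (P.map f) := by
  unfold evJ
  simp only [coe_eval₂RingHom]
  rw [Polynomial.hom_eval₂, Polynomial.eval₂_map, coeffMap_qExpand, coeffMap_jqModC]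
  congr 1
  ext a : 1
  exact coeffMap_C f a

theorem coeffMap_injective {R S : Type*} [CommRing R] [CommRing S] {f : R →+* S}
    (hf : Function.Injective f) : Function.Injective (coeffMap f) := by
  intro x y h
  ext n
  have := congrArg (fun z : LaurentSeries S => z.coeff n) h
  exact hf this

section

variable (R : Type*) [CommRing R] (p : ℕ) [NeZero p]

theorem coeff_evJ_pow_self (n : ℕ) :
    ((qExpand R p (jqModC R)) ^ n).coeff (-((p * n : ℕ) : ℤ)) = 1 := by
  rw [← map_pow, show -((p * n : ℕ) : ℤ) = (p : ℤ) * (-(n : ℤ)) by push_cast; ring,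
    qExpand_coeff_mul, coeff_jqModC_pow_self]

theorem coeff_evJ_pow_of_lt {n : ℕ} {m : ℤ} (hm : m < -((p * n : ℕ) : ℤ)) :
    ((qExpand R p (jqModC R)) ^ n).coeff m = 0 := by
  rw [← map_pow]
  by_cases hd : (p : ℤ) ∣ m
  · obtain ⟨k, rfl⟩ := hd
    rw [qExpand_coeff_mul]
    apply coeff_jqModC_pow_of_lt
    have hp : (0 : ℤ) < p := by exact_mod_cast NeZero.pos p
    push_cast at hm
    by_contra hk
    push Not at hk
    nlinarith
  · exact qExpand_coeff_of_not_dvd p _ hd

/-- coefficients of a polynomial in `j(q^p)` -/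
theorem coeff_evJ (P : R[X]) (m : ℤ) :
    (evJ R p P).coeff m = ∑ i ∈ Finset.range (P.natDegree + 1),
      P.coeff i * ((qExpand R p (jqModC R)) ^ i).coeff m := by
  have : evJ R p P = ∑ i ∈ Finset.range (P.natDegree + 1),
      HahnSeries.C (P.coeff i) * (qExpand R p (jqModC R)) ^ i := by
    unfold evJ
    rw [coe_eval₂RingHom, Polynomial.eval₂_eq_sum_range]
  rw [this, HahnSeries.coeff_sum]
  refine Finset.sum_congr rfl fun i _ => ?_
  rw [HahnSeries.C_apply, HahnSeries.coeff_single_zero_mul]

theorem coeff_evJ_of_lt {P : R[X]} {m : ℤ} (hm : m < -((p * P.natDegree : ℕ) : ℤ)) :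
    (evJ R p P).coeff m = 0 := by
  rw [coeff_evJ]
  refine Finset.sum_eq_zero fun i hi => ?_
  rw [coeff_evJ_pow_of_lt, mul_zero]
  refine hm.trans_le ?_
  rw [Finset.mem_range] at hi
  have : p * i ≤ p * P.natDegree := Nat.mul_le_mul_left _ (by omega)
  have : ((p * i : ℕ) : ℤ) ≤ ((p * P.natDegree : ℕ) : ℤ) := by exact_mod_cast this
  linarith

theorem coeff_evJ_natDegree (P : R[X]) :
    (evJ R p P).coeff (-((p * P.natDegree : ℕ) : ℤ)) = P.leadingCoeff := by
  rw [coeff_evJ, Finset.sum_range_succ, coeff_evJ_pow_self, mul_one, Finset.sum_eq_zero, zero_add]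
  · rfl
  · intro i hi
    rw [coeff_evJ_pow_of_lt, mul_zero]
    rw [Finset.mem_range] at hi
    have : p * i < p * P.natDegree := Nat.mul_lt_mul_of_pos_left hi (NeZero.pos p)
    have : ((p * i : ℕ) : ℤ) < ((p * P.natDegree : ℕ) : ℤ) := by exact_mod_cast this
    linarith

theorem evJ_injective : Function.Injective (evJ R p) := by
  rw [injective_iff_map_eq_zero]
  intro P hP
  have := coeff_evJ_natDegree R p P
  rw [hP] at this
  exact Polynomial.leadingCoeff_eq_zero.mp this.symm

end

/-- Descent of coefficients. -/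
theorem descent {R S : Type*} [CommRing R] [CommRing S] {f : R →+* S}
    (hf : Function.Injective f) (p : ℕ) [NeZero p] (n : ℕ) :
    ∀ (P : S[X]) (_ : P.natDegree ≤ n) (F : LaurentSeries R) (_ : coeffMap f F = evJ S p P),
    ∃ Q : R[X], F = evJ R p Q := by
  induction n using Nat.strong_induction_on with
  | _ n ih =>
  intro P hPn F hF
  set d := P.natDegree with hd
  have hlc : f (F.coeff (-((p * d : ℕ) : ℤ))) = P.leadingCoeff := by
    rw [← coeff_evJ_natDegree S p P, ← hF]
    rfl
  set a := F.coeff (-((p * d : ℕ) : ℤ)) with ha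
  by_cases hd0 : d = 0
  · refine ⟨C a, ?_⟩
    apply coeffMap_injective hf
    rw [hF, coeffMap_evJ, map_C, hlc]
    congr 1
    conv_lhs => rw [eq_C_of_natDegree_eq_zero hd0]
    rw [Polynomial.leadingCoeff, ← hd, hd0]
  · have hlt : (P.eraseLead).natDegree < d := by
      have := Polynomial.eraseLead_natDegree_le P
      omega
    obtain ⟨Q, hQ⟩ := ih (P.eraseLead).natDegree (hlt.trans_le hPn) P.eraseLead le_rfl
      (F - evJ R p (C a * X ^ d)) (by
        rw [map_sub, hF, coeffMap_evJ, Polynomial.map_mul, Polynomial.map_pow, map_C, map_X, hlc,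
          ← map_sub]
        congr 1
        rw [hd, ← Polynomial.eraseLead_add_C_mul_X_pow P]
        simp [hd])
    exact ⟨Q + C a * X ^ d, by rw [map_add, ← hQ]; ring⟩

end Fermat.Agent.ModPoly
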