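import Mathlib
import Fermat.Agent.ModPoly.Descent

set_option autoImplicit false

noncomputable section

open ModularCurve Polynomial UpperHalfPlane
open scoped MatrixGroups

namespace Fermat.Agent.ModPoly

variable (p : ℕ) [NeZero p]

/-- precomposition ring homomorphism -/
def precomp (γ : SL(2, ℤ)) : (ℍ → ℂ) →+* (ℍ → ℂ) where
  toFun f τ := f (γ • τ)
  map_one' := rfl
  map_zero' := rfl
  map_mul' _ _ := rfl
  map_add' _ _ := rfl

/-- algebraic integers -/
abbrev ZZ : Subalgebra ℤ ℂ := integralClosure ℤ ℂ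

/-- inclusion of algebraic integers in `ℂ` -/
def incZ : ZZ →+* ℂ := algebraMap ZZ ℂ

theorem incZ_injective : Function.Injective incZ := Subtype.val_injective

theorem zetaC_pow : (zetaC p) ^ p = 1 := by
  apply Units.ext
  rw [Units.val_pow_eq_pow_val, Units.val_one]
  show (Complex.exp (2 * Real.pi * Complex.I / p)) ^ p = 1
  rw [← Complex.exp_nat_mul, mul_div_cancel₀ _ (NeZero.ne (p : ℂ)), Complex.exp_two_pi_mul_I]

theorem zetaC_primitive : IsPrimitiveRoot ((zetaC p : ℂˣ) : ℂ) p :=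
  Complex.isPrimitiveRoot_exp p (NeZero.ne p)

theorem zetaC_mem : ((zetaC p : ℂˣ) : ℂ) ∈ ZZ := by
  rw [mem_integralClosure_iff]
  refine IsIntegral.of_pow (NeZero.pos p) ?_
  rw [← Units.val_pow_eq_pow_val, zetaC_pow]
  exact isIntegral_one

/-- the root of unity as an algebraic integer -/
def zetaZ' : ZZ := ⟨((zetaC p : ℂˣ) : ℂ), zetaC_mem p⟩

theorem zetaZ'_pow : (zetaZ' p) ^ p = 1 := by
  apply Subtype.ext
  have := zetaC_pow p
  have h2 := congrArg (fun u : ℂˣ => (u : ℂ)) this
  simpa [zetaZ'] using h2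

/-- the root of unity as a unit of the ring of algebraic integers -/
def zetaZ : ZZˣ := Units.ofPowEqOne (zetaZ' p) p (zetaZ'_pow p) (NeZero.ne p)

theorem coe_zetaZ : ((zetaZ p : ZZˣ) : ZZ) = zetaZ' p := Units.val_ofPowEqOne _ _ _ _

theorem map_zetaZ : Units.map (incZ : ZZ →* ℂ) (zetaZ p) = zetaC p := by
  apply Units.ext
  show incZ ((zetaZ p : ZZˣ) : ZZ) = _
  rw [coe_zetaZ]
  rfl

theorem coeffMap_jF {R S : Type*} [CommRing R] [CommRing S] (f : R →+* S) (ζ : Rˣ) (α : Idx p) :
    coeffMap f (jF p ζ α) = jF p (Units.map (f : R →* S) ζ) α := by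
  rcases α with _ | b
  · show coeffMap f (qExpand R (p * p) (jqModC R)) = qExpand S (p * p) (jqModC S)
    rw [coeffMap_qExpand, coeffMap_jqModC]
  · show coeffMap f (twist (ζ ^ b.val) (jqModC R)) = twist _ (jqModC S)
    rw [coeffMap_twist, coeffMap_jqModC, map_pow]

theorem coeffMap_uF {R S : Type*} [CommRing R] [CommRing S] (f : R →+* S) (ζ : Rˣ) (α : Idx p) :
    coeffMap f (uF p ζ α) = uF p (Units.map (f : R →* S) ζ) α := by
  rcases α with _ | b
  · show coeffMap f (HahnSeries.C ((p : R) ^ 12) * qExpand R (p * p) (deltaC R) *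
      qExpand R p (deltaInvC R)) = HahnSeries.C ((p : S) ^ 12) * qExpand S (p * p) (deltaC S) *
      qExpand S p (deltaInvC S)
    rw [map_mul, map_mul, coeffMap_qExpand, coeffMap_qExpand, coeffMap_C, coeffMap_deltaC,
      coeffMap_deltaInvC, map_pow, map_natCast]
  · show coeffMap f (twist (ζ ^ b.val) (deltaC R) * qExpand R p (deltaInvC R)) =
      twist _ (deltaC S) * qExpand S p (deltaInvC S)
    rw [map_mul, coeffMap_twist, coeffMap_qExpand, coeffMap_deltaC, coeffMap_deltaInvC, map_pow]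

theorem evP_jL' (α : Idx p) : evP p (jL p α) = jA p α := funext (evP_jL p α)

theorem evP_uL' (α : Idx p) : evP p (uL p α) = uA p α := funext (evP_uL p α)

variable [Fact p.Prime]

theorem precomp_jA_S (α : Idx p) : precomp ModularGroup.S (jA p α) = jA p (permS p α) :=
  funext (jA_S p α)

theorem precomp_jA_T (α : Idx p) : precomp ModularGroup.T (jA p α) = jA p (permT p α) :=
  funext (jA_T p α)

theorem precomp_uA_S (α : Idx p) : precomp ModularGroup.S (uA p α) = uA p (permS p α) :=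
  funext (uA_S p α)

theorem precomp_uA_T (α : Idx p) : precomp ModularGroup.T (uA p α) = uA p (permT p α) :=
  funext (uA_T p α)

omit [Fact p.Prime] in
/-- coefficients of a symmetric polynomial. -/
theorem exists_of_sym (HZ : (LaurentSeries ZZ)[X]) (HL : ConvL[X])
    (h1 : HZ.map (coeffMap incZ) = HL.map ConvL.subtype)
    (hS : (HL.map (evP p)).map (precomp ModularGroup.S) = HL.map (evP p))
    (hT : (HL.map (evP p)).map (precomp ModularGroup.T) = HL.map (evP p)) (n : ℕ) :
    ∃ Q : ZZ[X], evJ ZZ p Q = HZ.coeff n := by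
  have hS' : ∀ z, evP p (HL.coeff n) (ModularGroup.S • z) = evP p (HL.coeff n) z := by
    intro z
    have := congrArg (fun P : (ℍ → ℂ)[X] => P.coeff n z) hS
    simp only [Polynomial.coeff_map] at this
    exact this
  have hT' : ∀ z, evP p (HL.coeff n) (ModularGroup.T • z) = evP p (HL.coeff n) z := by
    intro z
    have := congrArg (fun P : (ℍ → ℂ)[X] => P.coeff n z) hT
    simp only [Polynomial.coeff_map] at this
    exact this
  obtain ⟨P, hP⟩ := exists_poly_of_invariant p (HL.coeff n) hS' hT'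
  have h2 : coeffMap incZ (HZ.coeff n) = evJ ℂ p P := by
    have := congrArg (fun P : (LaurentSeries ℂ)[X] => P.coeff n) h1
    simp only [Polynomial.coeff_map] at this
    rw [this]
    exact hP
  obtain ⟨Q, hQ⟩ := descent incZ_injective p P.natDegree P le_rfl (HZ.coeff n) h2
  exact ⟨Q, hQ.symm⟩

theorem mem_lifts_of_sym (HZ : (LaurentSeries ZZ)[X]) (HL : ConvL[X])
    (h1 : HZ.map (coeffMap incZ) = HL.map ConvL.subtype)
    (hS : (HL.map (evP p)).map (precomp ModularGroup.S) = HL.map (evP p))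
    (hT : (HL.map (evP p)).map (precomp ModularGroup.T) = HL.map (evP p)) :
    HZ ∈ Polynomial.lifts (evJ ZZ p) := by
  rw [Polynomial.lifts_iff_coeff_lifts]
  exact exists_of_sym p HZ HL h1 hS hT

theorem lifts_phi_j : phiP (jF p (zetaZ p)) ∈ Polynomial.lifts (evJ ZZ p) := by
  refine mem_lifts_of_sym p _ (phiP (jL p)) ?_ ?_ ?_
  · rw [phiP_map, phiP_map]
    congr 1
    funext α
    rw [coeffMap_jF, map_zetaZ]
    rfl
  · rw [phiP_map, phiP_map]
    simp only [evP_jL', precomp_jA_S]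
    exact phiP_perm (permS p) (jA p)
  · rw [phiP_map, phiP_map]
    simp only [evP_jL', precomp_jA_T]
    exact phiP_perm (permT p) (jA p)

theorem lifts_phi_u : phiP (uF p (zetaZ p)) ∈ Polynomial.lifts (evJ ZZ p) := by
  refine mem_lifts_of_sym p _ (phiP (uL p)) ?_ ?_ ?_
  · rw [phiP_map, phiP_map]
    congr 1
    funext α
    rw [coeffMap_uF, map_zetaZ]
    rfl
  · rw [phiP_map, phiP_map]
    simp only [evP_uL', precomp_uA_S]
    exact phiP_perm (permS p) (uA p)
  · rw [phiP_map, phiP_map]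
    simp only [evP_uL', precomp_uA_T]
    exact phiP_perm (permT p) (uA p)

theorem lifts_lag : lagP (jF p (zetaZ p)) (uF p (zetaZ p)) ∈ Polynomial.lifts (evJ ZZ p) := by
  refine mem_lifts_of_sym p _ (lagP (jL p) (uL p)) ?_ ?_ ?_
  · rw [lagP_map, lagP_map]
    congr 1
    · funext α
      rw [coeffMap_jF, map_zetaZ]
      rfl
    · funext α
      rw [coeffMap_uF, map_zetaZ]
      rfl
  · rw [lagP_map, lagP_map]
    simp only [evP_jL', precomp_jA_S, evP_uL', precomp_uA_S]
    exact lagP_perm (permS p) (jA p) (uA p)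
  · rw [lagP_map, lagP_map]
    simp only [evP_jL', precomp_jA_T, evP_uL', precomp_uA_T]
    exact lagP_perm (permT p) (jA p) (uA p)

/-- The modular polynomials of prime level `p` over a ring `k`: `Φ` is the classical modular
polynomial, `Q` interpolates the modular unit, `U` is the polynomial of the modular unit. -/
structure ModPolyData (k : Type*) [CommRing k] (p : ℕ) [NeZero p] where
  ζ : kˣ
  Φ : k[X][X]
  Q : k[X][X]
  U : k[X][X]
  monicΦ : Φ.Monic
  monicU : U.Monic
  mapΦ : Φ.map (evJ k p) = phiP (jF p ζ)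
  mapQ : Q.map (evJ k p) = lagP (jF p ζ) (uF p ζ)
  mapU : U.map (evJ k p) = phiP (uF p ζ)
  zeta_root : (cyclotomic p k).IsRoot (ζ : k)

theorem evJ_comp_map {R S : Type*} [CommRing R] [CommRing S] (f : R →+* S) :
    (coeffMap f).comp (evJ R p) = (evJ S p).comp (Polynomial.mapRingHom f) := by
  apply RingHom.ext
  intro P
  exact coeffMap_evJ f p P

theorem zetaZ_root : (cyclotomic p ZZ).IsRoot ((zetaZ p : ZZˣ) : ZZ) := by
  have h : (cyclotomic p ℂ).IsRoot ((zetaC p : ℂˣ) : ℂ) :=
    (Polynomial.isRoot_cyclotomic_iff).mpr (zetaC_primitive p)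
  have h2 : incZ ((cyclotomic p ZZ).eval ((zetaZ p : ZZˣ) : ZZ)) = 0 := by
    rw [← Polynomial.eval_map_apply, Polynomial.map_cyclotomic]
    have : incZ ((zetaZ p : ZZˣ) : ZZ) = ((zetaC p : ℂˣ) : ℂ) := by
      rw [coe_zetaZ]; rfl
    rw [this]
    exact h
  exact incZ_injective (by rw [h2, map_zero])

/-- Existence of the modular polynomial data over algebraic integers. -/
theorem exists_dataZ : Nonempty (ModPolyData ZZ p) := by
  obtain ⟨Φ, hΦ, -, hΦm⟩ := Polynomial.lifts_and_natDegree_eq_and_monic (lifts_phi_j p)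
    (phiP_monic _)
  obtain ⟨U, hU, -, hUm⟩ := Polynomial.lifts_and_natDegree_eq_and_monic (lifts_phi_u p)
    (phiP_monic _)
  obtain ⟨Q, hQ⟩ := (Polynomial.mem_lifts _).mp (lifts_lag p)
  exact ⟨⟨zetaZ p, Φ, Q, U, hΦm, hUm, hΦ, hQ, hU, zetaZ_root p⟩⟩

/-- Transport of modular polynomial data along a ring homomorphism. -/
def ModPolyData.mapData {R S : Type*} [CommRing R] [CommRing S] (f : R →+* S)
    (D : ModPolyData R p) : ModPolyData S p where
  ζ := Units.map (f : R →* S) D.ζ
  Φ := D.Φ.map (Polynomial.mapRingHom f)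
  Q := D.Q.map (Polynomial.mapRingHom f)
  U := D.U.map (Polynomial.mapRingHom f)
  monicΦ := D.monicΦ.map _
  monicU := D.monicU.map _
  mapΦ := by
    rw [Polynomial.map_map, ← evJ_comp_map, ← Polynomial.map_map, D.mapΦ, phiP_map]
    simp only [coeffMap_jF]
  mapQ := by
    rw [Polynomial.map_map, ← evJ_comp_map, ← Polynomial.map_map, D.mapQ, lagP_map]
    simp only [coeffMap_jF, coeffMap_uF]
  mapU := by
    rw [Polynomial.map_map, ← evJ_comp_map, ← Polynomial.map_map, D.mapU, phiP_map]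
    simp only [coeffMap_uF]
  zeta_root := by
    have := D.zeta_root
    rw [← Polynomial.map_cyclotomic p f]
    exact this.map

theorem nonempty_algHom_of_algebraic (K S M : Type*) [Field K] [CommRing S] [IsDomain S]
    [Algebra K S] [Field M] [IsAlgClosed M] [Algebra K M] [Algebra.IsIntegral K S] :
    Nonempty (S →ₐ[K] M) :=
  ⟨IsAlgClosed.lift⟩

/-- A ring integral over `ℤ` (and containing it) has a homomorphism to every algebraically closed
field. -/
theorem exists_hom_algClosed (k : Type*) [Field k] [IsAlgClosed k] : Nonempty (ZZ →+* k) := by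
  obtain ⟨ℓ, hℓ⟩ := CharP.exists k
  have hint : Algebra.IsIntegral ℤ ZZ := inferInstance
  rcases CharP.char_is_prime_or_zero k ℓ with hp | rfl
  · haveI := Fact.mk hp
    have hnu : ¬ IsUnit ((ℓ : ℕ) : ZZ) := by
      intro hu
      obtain ⟨v, hv⟩ := hu.exists_right_inv
      have hv' : ((ℓ : ℕ) : ℂ) * (v : ℂ) = 1 := by
        have := congrArg (fun x : ZZ => (x : ℂ)) hv
        simpa using this
      have hint : IsIntegral ℤ ((((ℓ : ℕ) : ℚ)⁻¹ : ℚ)) := by
        have h3 : IsIntegral ℤ (v : ℂ) := v.2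
        have h4 : (v : ℂ) = algebraMap ℚ ℂ (((ℓ : ℕ) : ℚ)⁻¹ : ℚ) := by
          rw [map_inv₀, map_natCast]
          exact eq_inv_of_mul_eq_one_right hv'
        rw [h4] at h3
        exact (isIntegral_algebraMap_iff (algebraMap ℚ ℂ).injective).mp h3
      obtain ⟨n, hn⟩ := IsIntegrallyClosed.isIntegral_iff.mp hint
      have hn' : (n : ℚ) * (ℓ : ℚ) = 1 := by
        have h0 : (ℓ : ℚ) ≠ 0 := by exact_mod_cast hp.ne_zero
        have : (n : ℚ) = ((ℓ : ℕ) : ℚ)⁻¹ := hn
        rw [this, inv_mul_cancel₀ h0]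
      have hn'' : n * (ℓ : ℤ) = 1 := by exact_mod_cast hn'
      have : IsUnit (ℓ : ℤ) := IsUnit.of_mul_eq_one n (by rw [mul_comm]; exact hn'')
      rw [Int.isUnit_iff] at this
      have h1 := hp.one_lt
      omega
    obtain ⟨Q, hQ, hmem⟩ := exists_max_ideal_of_mem_nonunits hnu
    haveI := hQ
    haveI hfield : Nontrivial (ZZ ⧸ Q) := inferInstance
    haveI : CharP (ZZ ⧸ Q) ℓ := by
      rw [CharP.charP_iff_prime_eq_zero hp]
      have := Ideal.Quotient.eq_zero_iff_mem.mpr hmem
      simpa using this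
    letI := ZMod.algebra (ZZ ⧸ Q) ℓ
    letI := ZMod.algebra k ℓ
    haveI : Algebra.IsIntegral (ZMod ℓ) (ZZ ⧸ Q) := by
      constructor
      intro x
      obtain ⟨y, rfl⟩ := Ideal.Quotient.mk_surjective x
      have h1 : IsIntegral ℤ (Ideal.Quotient.mk Q y) :=
        (hint.isIntegral y).map (Ideal.Quotient.mkₐ ℤ Q)
      exact h1.tower_top
    haveI : IsDomain (ZZ ⧸ Q) := Ideal.Quotient.isDomain Q
    obtain ⟨f⟩ := nonempty_algHom_of_algebraic (ZMod ℓ) (ZZ ⧸ Q) k
    exact ⟨(f : (ZZ ⧸ Q) →+* k).comp (Ideal.Quotient.mk Q)⟩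
  · haveI := CharP.charP_to_charZero k
    haveI : Algebra.IsAlgebraic ℤ ZZ := inferInstance
    exact ⟨((IsAlgClosed.lift : ZZ →ₐ[ℤ] k) : ZZ →+* k)⟩

end Fermat.Agent.ModPoly
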