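import Mathlib
import Fermat.Agent.ModPoly.Exist

set_option autoImplicit false

noncomputable section

open ModularCurve Polynomial

namespace Fermat.Agent.ModPoly

/-! ### order of Laurent series -/

theorem order_eq_of {R : Type*} [CommRing R] {F : LaurentSeries R} {k : ℤ} (h1 : F.coeff k ≠ 0)
    (h2 : ∀ m < k, F.coeff m = 0) : F.order = k := by
  have hF : F ≠ 0 := by
    rintro rfl
    simp at h1
  refine le_antisymm (HahnSeries.order_le_of_coeff_ne_zero h1) ?_
  rw [HahnSeries.le_order_iff_forall hF]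
  exact h2

variable {k : Type*} [Field k]

theorem order_twist (c : kˣ) (F : LaurentSeries k) : (twist c F).order = F.order := by
  by_cases hF : F = 0
  · simp [hF]
  · refine order_eq_of ?_ ?_
    · rw [twist_coeff]
      exact mul_ne_zero (Units.ne_zero _) (fun h => hF (HahnSeries.coeff_order_eq_zero.mp h))
    · intro m hm
      rw [twist_coeff, HahnSeries.coeff_eq_zero_of_lt_order hm, mul_zero]

theorem order_qExpand (m : ℕ) [NeZero m] (F : LaurentSeries k) :
    (qExpand k m F).order = m * F.order := by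
  by_cases hF : F = 0
  · simp [hF]
  · refine order_eq_of ?_ ?_
    · rw [qExpand_coeff_mul]
      exact fun h => hF (HahnSeries.coeff_order_eq_zero.mp h)
    · intro l hl
      by_cases hd : (m : ℤ) ∣ l
      · obtain ⟨t, rfl⟩ := hd
        rw [qExpand_coeff_mul]
        apply HahnSeries.coeff_eq_zero_of_lt_order
        have hp : (0 : ℤ) < m := by exact_mod_cast NeZero.pos m
        exact lt_of_mul_lt_mul_left hl hp.le
      · exact qExpand_coeff_of_not_dvd m _ hd

theorem order_jqModC : (jqModC k).order = -1 :=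
  order_eq_of (by
    have := coeff_jqModC_pow_self k 1
    simp only [pow_one, Nat.cast_one] at this
    rw [this]
    exact one_ne_zero) (fun m hm => by
    have := coeff_jqModC_pow_of_lt k (b := 1) (m := m) (by simpa using hm)
    simpa using this)

theorem order_deltaC : (deltaC k).order = 1 := by
  refine order_eq_of ?_ ?_
  · rw [deltaC, HahnSeries.coeff_single_mul, one_mul, sub_self]
    have := HahnSeries.ofPowerSeries_apply_coeff (Γ := ℤ)
      (dedekindEtaUnit.map (Int.castRingHom k)) 0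
    simp only [Nat.cast_zero] at this
    rw [this, PowerSeries.coeff_map, PowerSeries.coeff_zero_eq_constantCoeff,
      constantCoeff_dedekindEtaUnit]
    simp
  · intro m hm
    rw [deltaC, HahnSeries.coeff_single_mul, one_mul]
    exact ofPowerSeries_coeff_of_neg _ (by linarith)

theorem deltaC_ne_zero : deltaC k ≠ 0 := by
  intro h
  have := order_deltaC (k := k)
  rw [h] at this
  simp at this

theorem deltaInvC_eq_inv : deltaInvC k = (deltaC k)⁻¹ :=
  eq_inv_of_mul_eq_one_right (deltaC_mul_inv k)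

/-! ### substitutions `q ↦ c q ^ e` -/

/-- the substitution `q ↦ c q ^ e` -/
def Sb (c : kˣ) (e : ℕ+) : LaurentSeries k →+* LaurentSeries k :=
  haveI : NeZero (e : ℕ) := ⟨e.ne_zero⟩
  (qExpand k (e : ℕ)).comp (twist c)

theorem Sb_apply (c : kˣ) (e : ℕ+) [NeZero (e : ℕ)] (F : LaurentSeries k) :
    Sb c e F = qExpand k (e : ℕ) (twist c F) := rfl

theorem Sb_coeff_mul (c : kˣ) (e : ℕ+) (F : LaurentSeries k) (n : ℤ) :
    (Sb c e F).coeff ((e : ℕ) * n) = ((c ^ n : kˣ) : k) * F.coeff n := by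
  haveI : NeZero (e : ℕ) := ⟨e.ne_zero⟩
  rw [Sb_apply, qExpand_coeff_mul, twist_coeff]

theorem Sb_coeff_of_not_dvd (c : kˣ) (e : ℕ+) (F : LaurentSeries k) {n : ℤ}
    (hn : ¬ ((e : ℕ) : ℤ) ∣ n) : (Sb c e F).coeff n = 0 := by
  haveI : NeZero (e : ℕ) := ⟨e.ne_zero⟩
  rw [Sb_apply, qExpand_coeff_of_not_dvd _ _ hn]

theorem Sb_injective (c : kˣ) (e : ℕ+) : Function.Injective (Sb c e) := (Sb c e).injective

theorem Sb_C (c : kˣ) (e : ℕ+) (a : k) : Sb c e (HahnSeries.C a) = HahnSeries.C a := by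
  haveI : NeZero (e : ℕ) := ⟨e.ne_zero⟩
  rw [Sb_apply, HahnSeries.C_apply, twist_single, qExpand_single]
  simp

theorem order_Sb (c : kˣ) (e : ℕ+) (F : LaurentSeries k) :
    (Sb c e F).order = (e : ℕ) * F.order := by
  haveI : NeZero (e : ℕ) := ⟨e.ne_zero⟩
  rw [Sb_apply, order_qExpand, order_twist]

/-- composition of substitutions -/
theorem Sb_Sb (c c' : kˣ) (e e' : ℕ+) (F : LaurentSeries k) :
    Sb c e (Sb c' e' F) = Sb (c ^ (e' : ℕ) * c') (e * e') F := by
  ext n
  by_cases hn : ((e : ℕ) : ℤ) ∣ n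
  · obtain ⟨m, rfl⟩ := hn
    rw [Sb_coeff_mul]
    by_cases hm : ((e' : ℕ) : ℤ) ∣ m
    · obtain ⟨l, rfl⟩ := hm
      rw [Sb_coeff_mul, show (((e : ℕ) : ℤ) * (((e' : ℕ) : ℤ) * l)) = (((e * e' : ℕ+) : ℕ) : ℤ) * l by
        push_cast [PNat.mul_coe]; ring, Sb_coeff_mul, mul_zpow, Units.val_mul, zpow_mul,
        zpow_natCast]
      ring
    · rw [Sb_coeff_of_not_dvd _ _ _ hm, Sb_coeff_of_not_dvd, mul_zero]
      rintro ⟨l, hl⟩
      apply hm
      refine ⟨l, ?_⟩
      have he : ((e : ℕ) : ℤ) ≠ 0 := by exact_mod_cast e.ne_zero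
      apply mul_left_cancel₀ he
      rw [hl]
      push_cast [PNat.mul_coe]
      ring
  · rw [Sb_coeff_of_not_dvd _ _ _ hn, Sb_coeff_of_not_dvd]
    rintro ⟨l, hl⟩
    apply hn
    refine ⟨((e' : ℕ) : ℤ) * l, ?_⟩
    rw [hl]
    push_cast [PNat.mul_coe]
    ring

/-- `j (c q ^ e)` -/
def Jc (c : kˣ) (e : ℕ+) : LaurentSeries k := Sb c e (jqModC k)

/-- `Δ (c q ^ e)` -/
def Dc (c : kˣ) (e : ℕ+) : LaurentSeries k := Sb c e (deltaC k)

theorem order_Jc (c : kˣ) (e : ℕ+) : (Jc c e).order = -((e : ℕ) : ℤ) := by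
  rw [Jc, order_Sb, order_jqModC]
  ring

theorem order_Dc (c : kˣ) (e : ℕ+) : (Dc c e).order = ((e : ℕ) : ℤ) := by
  rw [Dc, order_Sb, order_deltaC]
  ring

theorem Dc_ne_zero (c : kˣ) (e : ℕ+) : Dc c e ≠ 0 := by
  intro h
  have := order_Dc c e
  rw [h, HahnSeries.order_zero] at this
  have h2 := e.pos
  omega

theorem Jc_inj_e {c c' : kˣ} {e e' : ℕ+} (h : Jc c e = Jc c' e') : e = e' := by
  have := order_Jc c e
  rw [h, order_Jc] at this
  have h2 : (e : ℕ) = (e' : ℕ) := by omega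
  exact PNat.coe_injective h2

theorem leading_Jc (c : kˣ) (e : ℕ+) : (Jc c e).coeff (-((e : ℕ) : ℤ)) = ((c⁻¹ : kˣ) : k) := by
  rw [Jc, show -((e : ℕ) : ℤ) = ((e : ℕ) : ℤ) * (-1) by ring, Sb_coeff_mul]
  have := coeff_jqModC_neg_one k
  rw [this, mul_one, zpow_neg_one]

theorem Jc_inj_c {c c' : kˣ} {e : ℕ+} (h : Jc c e = Jc c' e) : c = c' := by
  have h1 := leading_Jc c e
  rw [h, leading_Jc] at h1
  exact (inv_injective (Units.ext h1)).symm

theorem twist_one (F : LaurentSeries k) : twist 1 F = F := by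
  ext n
  simp

theorem Sb_one_eq (m : ℕ) [NeZero m] (e : ℕ+) (he : (e : ℕ) = m) (F : LaurentSeries k) :
    Sb 1 e F = qExpand k m F := by
  haveI : NeZero (e : ℕ) := ⟨e.ne_zero⟩
  rw [Sb_apply, twist_one]
  exact qExpand_congr he F

end Fermat.Agent.ModPoly
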