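import Mathlib
import Fermat.Agent.ModPoly.Subst

set_option autoImplicit false
set_option linter.style.haveILetI false

noncomputable section

open ModularCurve Polynomial

namespace Fermat.Agent.ModPoly

variable {k : Type*} [Field k]

/-- evaluation of a two-variable polynomial: inner variable at `x`, outer at `y` -/
def ev2 {A : Type*} [CommRing A] [Algebra k A] (P : k[X][X]) (x y : A) : A :=
  (P.map (aeval x : k[X] →ₐ[k] A).toRingHom).eval y

theorem map_ev2 {A B : Type*} [CommRing A] [CommRing B] [Algebra k A] [Algebra k B]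
    (f : A →ₐ[k] B) (P : k[X][X]) (x y : A) : f (ev2 P x y) = ev2 P (f x) (f y) := by
  unfold ev2
  have h := Polynomial.eval_map_apply (f := (f : A →+* B))
    (p := P.map (aeval x : k[X] →ₐ[k] A).toRingHom) (x := y)
  have h2 : (f : A →+* B).comp (aeval x : k[X] →ₐ[k] A).toRingHom =
      (aeval (f x) : k[X] →ₐ[k] B).toRingHom := by
    have : f.comp (aeval x : k[X] →ₐ[k] A) = (aeval (f x) : k[X] →ₐ[k] B) := by
      ext
      simp
    exact congrArg AlgHom.toRingHom this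
  rw [Polynomial.map_map, h2] at h
  exact h.symm

/-- `Sb` as an algebra homomorphism -/
def SbA (c : kˣ) (e : ℕ+) : LaurentSeries k →ₐ[k] LaurentSeries k where
  __ := Sb c e
  commutes' r := by
    show Sb c e (algebraMap k (LaurentSeries k) r) = algebraMap k (LaurentSeries k) r
    rw [algebraMap_laurentSeries_eq_single]
    exact Sb_C c e r

@[simp] theorem SbA_apply (c : kˣ) (e : ℕ+) (F : LaurentSeries k) : SbA c e F = Sb c e F := rfl

theorem SbA_injective (c : kˣ) (e : ℕ+) : Function.Injective (SbA c e) := (SbA c e).injective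

theorem algebraMap_eq_C : algebraMap k (LaurentSeries k) = HahnSeries.C := by
  ext a : 1
  exact algebraMap_laurentSeries_eq_single k a

theorem evJ_eq_aeval (p : ℕ) [NeZero p] :
    evJ k p = (aeval (qExpand k p (jqModC k)) : k[X] →ₐ[k] LaurentSeries k).toRingHom := by
  apply Polynomial.ringHom_ext
  · intro a
    rw [evJ_C]
    show _ = aeval _ (C a)
    rw [aeval_C, algebraMap_eq_C]
  · rw [evJ_X]
    show _ = aeval _ X
    rw [aeval_X]

section

variable (p : ℕ) [hp : Fact p.Prime]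

/-- `p` as a positive natural number -/
def pp : ℕ+ := ⟨p, hp.out.pos⟩

@[simp] theorem coe_pp : ((pp p : ℕ+) : ℕ) = p := rfl

/-- neighbours of `j (c^p q^(p e))` -/
def Jn (ζ c : kˣ) (e : ℕ+) : Idx p → LaurentSeries k
  | none => Jc (c ^ (p * p)) (pp p * pp p * e)
  | some b => Jc (c * ζ ^ b.val) e

/-- modular units at the neighbours -/
def Un (ζ c : kˣ) (e : ℕ+) : Idx p → LaurentSeries k
  | none => HahnSeries.C ((p : k) ^ 12) * Dc (c ^ (p * p)) (pp p * pp p * e) *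
      (Dc (c ^ p) (pp p * e))⁻¹
  | some b => Dc (c * ζ ^ b.val) e * (Dc (c ^ p) (pp p * e))⁻¹

theorem twist_eq_Sb (c : kˣ) (F : LaurentSeries k) : twist c F = Sb c 1 F := by
  haveI : NeZero (((1 : ℕ+) : ℕ)) := ⟨one_ne_zero⟩
  rw [Sb_apply]
  exact (qExpand_one_apply (twist c F)).symm.trans
    (qExpand_congr (M := 1) (K := ((1 : ℕ+) : ℕ)) rfl _)

theorem qExpand_eq_Sb (m : ℕ) [NeZero m] (e : ℕ+) (he : (e : ℕ) = m) (F : LaurentSeries k) :
    qExpand k m F = Sb 1 e F := (Sb_one_eq m e he F).symm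

variable [NeZero p]

theorem Sb_jF (ζ c : kˣ) (e : ℕ+) (α : Idx p) : Sb c e (jF p ζ α) = Jn p ζ c e α := by
  rcases α with _ | b
  · show Sb c e (qExpand k (p * p) (jqModC k)) = Jc (c ^ (p * p)) (pp p * pp p * e)
    rw [qExpand_eq_Sb (p * p) (pp p * pp p) (by simp), Sb_Sb, mul_one, mul_comm e]
    simp [Jc]
  · show Sb c e (twist (ζ ^ b.val) (jqModC k)) = Jc (c * ζ ^ b.val) e
    rw [twist_eq_Sb, Sb_Sb]
    simp [Jc]

theorem Sb_qExpand_p (c : kˣ) (e : ℕ+) (F : LaurentSeries k) :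
    Sb c e (qExpand k p F) = Sb (c ^ p) (pp p * e) F := by
  rw [qExpand_eq_Sb p (pp p) (by simp), Sb_Sb, mul_one, mul_comm e]
  simp

theorem Sb_uF (ζ c : kˣ) (e : ℕ+) (α : Idx p) : Sb c e (uF p ζ α) = Un p ζ c e α := by
  have h1 : Sb c e (qExpand k p (deltaInvC k)) = (Dc (c ^ p) (pp p * e))⁻¹ := by
    rw [Sb_qExpand_p, deltaInvC_eq_inv, map_inv₀]
    rfl
  rcases α with _ | b
  · show Sb c e (HahnSeries.C ((p : k) ^ 12) * qExpand k (p * p) (deltaC k) *
      qExpand k p (deltaInvC k)) = HahnSeries.C ((p : k) ^ 12) *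
      Dc (c ^ (p * p)) (pp p * pp p * e) * (Dc (c ^ p) (pp p * e))⁻¹
    rw [map_mul, map_mul, h1, Sb_C, qExpand_eq_Sb (p * p) (pp p * pp p) (by simp), Sb_Sb, mul_one,
      mul_comm e]
    simp [Dc]
  · show Sb c e (twist (ζ ^ b.val) (deltaC k) * qExpand k p (deltaInvC k)) =
      Dc (c * ζ ^ b.val) e * (Dc (c ^ p) (pp p * e))⁻¹
    rw [map_mul, h1, twist_eq_Sb, Sb_Sb]
    simp [Dc]

variable (D : ModPolyData k p)

theorem aeval_Sb (c : kˣ) (e : ℕ+) :
    ((SbA c e : LaurentSeries k →ₐ[k] LaurentSeries k) : LaurentSeries k →+* LaurentSeries k).comp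
      (evJ k p) = (aeval (Jc (c ^ p) (pp p * e)) : k[X] →ₐ[k] LaurentSeries k).toRingHom := by
  rw [evJ_eq_aeval]
  have : (SbA c e).comp (aeval (qExpand k p (jqModC k)) : k[X] →ₐ[k] LaurentSeries k) =
      (aeval (Jc (c ^ p) (pp p * e)) : k[X] →ₐ[k] LaurentSeries k) := by
    ext
    simp only [AlgHom.comp_apply, aeval_X, SbA_apply]
    rw [Sb_qExpand_p]
    rfl
  exact congrArg AlgHom.toRingHom this

theorem Φ_map (c : kˣ) (e : ℕ+) :
    D.Φ.map (aeval (Jc (c ^ p) (pp p * e)) : k[X] →ₐ[k] LaurentSeries k).toRingHom =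
      phiP (Jn p D.ζ c e) := by
  rw [← aeval_Sb, ← Polynomial.map_map, D.mapΦ, phiP_map]
  congr 1
  funext α
  exact Sb_jF p D.ζ c e α

theorem Q_map (c : kˣ) (e : ℕ+) :
    D.Q.map (aeval (Jc (c ^ p) (pp p * e)) : k[X] →ₐ[k] LaurentSeries k).toRingHom =
      lagP (Jn p D.ζ c e) (Un p D.ζ c e) := by
  rw [← aeval_Sb, ← Polynomial.map_map, D.mapQ, lagP_map]
  congr 1
  · funext α
    exact Sb_jF p D.ζ c e α
  · funext α
    exact Sb_uF p D.ζ c e α

theorem U_map (c : kˣ) (e : ℕ+) :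
    D.U.map (aeval (Jc (c ^ p) (pp p * e)) : k[X] →ₐ[k] LaurentSeries k).toRingHom =
      phiP (Un p D.ζ c e) := by
  rw [← aeval_Sb, ← Polynomial.map_map, D.mapU, phiP_map]
  congr 1
  funext α
  exact Sb_uF p D.ζ c e α

/-- the derivative with respect to the outer variable -/
abbrev dΦ : k[X][X] := derivative D.Φ

theorem ev2_Φ (c : kˣ) (e : ℕ+) (y : LaurentSeries k) :
    ev2 D.Φ (Jc (c ^ p) (pp p * e)) y = ∏ α, (y - Jn p D.ζ c e α) := by
  rw [ev2, Φ_map, eval_phiP]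

theorem ev2_dΦ (c : kˣ) (e : ℕ+) (α : Idx p) :
    ev2 (dΦ p D) (Jc (c ^ p) (pp p * e)) (Jn p D.ζ c e α) =
      ∏ β ∈ Finset.univ.erase α, (Jn p D.ζ c e α - Jn p D.ζ c e β) := by
  rw [ev2, dΦ, ← Polynomial.derivative_map, Φ_map, eval_derivative_phiP]

theorem ev2_Q (c : kˣ) (e : ℕ+) (α : Idx p) :
    ev2 D.Q (Jc (c ^ p) (pp p * e)) (Jn p D.ζ c e α) =
      Un p D.ζ c e α * ev2 (dΦ p D) (Jc (c ^ p) (pp p * e)) (Jn p D.ζ c e α) := by
  rw [ev2, Q_map, eval_lagP, ev2, dΦ, ← Polynomial.derivative_map, Φ_map]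

theorem ev2_U (c : kˣ) (e : ℕ+) (y : LaurentSeries k) :
    ev2 D.U (Jc (c ^ p) (pp p * e)) y = ∏ α, (y - Un p D.ζ c e α) := by
  rw [ev2, U_map, eval_phiP]

section charne

variable (hpk : (p : k) ≠ 0)

include hpk

theorem zeta_primitive : IsPrimitiveRoot ((D.ζ : kˣ) : k) p := by
  haveI : NeZero (p : k) := ⟨hpk⟩
  exact (Polynomial.isRoot_cyclotomic_iff).mp D.zeta_root

theorem zeta_pow_p : D.ζ ^ p = 1 := by
  apply Units.ext
  rw [Units.val_pow_eq_pow_val, (zeta_primitive p D hpk).pow_eq_one, Units.val_one]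

theorem zeta_pow_inj {a b : ZMod p} (h : D.ζ ^ a.val = D.ζ ^ b.val) : a = b := by
  have h1 := zeta_primitive p D hpk
  have h2 : ((D.ζ : kˣ) : k) ^ a.val = ((D.ζ : kˣ) : k) ^ b.val := by
    rw [← Units.val_pow_eq_pow_val, h, Units.val_pow_eq_pow_val]
  exact ZMod.val_injective p (h1.pow_inj (ZMod.val_lt a) (ZMod.val_lt b) h2)

theorem Jn_injective (c : kˣ) (e : ℕ+) : Function.Injective (Jn p D.ζ c e) := by
  have hne : pp p * pp p * e ≠ e := by
    intro h
    have := congrArg (fun x : ℕ+ => (x : ℕ)) h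
    simp only [PNat.mul_coe, coe_pp] at this
    have hp2 := hp.out.two_le
    have he := e.pos
    have h4 : 4 * (e : ℕ) ≤ p * p * e := Nat.mul_le_mul_right _ (by nlinarith)
    omega
  rintro (_ | a) (_ | b) h
  · rfl
  · exact absurd (Jc_inj_e h) hne
  · exact absurd (Jc_inj_e h).symm hne
  · have h1 := Jc_inj_c h
    rw [zeta_pow_inj p D hpk (mul_left_cancel h1)]

theorem ev2_dΦ_ne_zero (c : kˣ) (e : ℕ+) (α : Idx p) :
    ev2 (dΦ p D) (Jc (c ^ p) (pp p * e)) (Jn p D.ζ c e α) ≠ 0 := by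
  rw [ev2_dΦ, Finset.prod_ne_zero_iff]
  intro β hβ
  rw [sub_ne_zero]
  exact fun h => (Finset.ne_of_mem_erase hβ) (Jn_injective p D hpk c e h).symm

end charne

end

end Fermat.Agent.ModPoly
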