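import Mathlib
import Fermat.Agent.ModPoly.Neighbor

set_option autoImplicit false
set_option linter.style.haveILetI false

noncomputable section

open ModularCurve Polynomial

namespace Fermat.Agent.ModPoly

variable {k : Type*} [Field k]

section

variable (p : ℕ) [hp : Fact p.Prime]

/-- the modular unit `p^12 Δ(q^(pm)) / Δ(q^m)` -/
def Wm (k : Type*) [Field k] (m : ℕ+) : LaurentSeries k :=
  HahnSeries.C ((p : k) ^ 12) * Dc 1 (pp p * m) * (Dc 1 m)⁻¹

theorem Sb_Jc (c c' : kˣ) (e e' : ℕ+) : Sb c e (Jc c' e') = Jc (c ^ (e' : ℕ) * c') (e * e') := by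
  rw [Jc, Sb_Sb]
  rfl

theorem Sb_Dc (c c' : kˣ) (e e' : ℕ+) : Sb c e (Dc c' e') = Dc (c ^ (e' : ℕ) * c') (e * e') := by
  rw [Dc, Sb_Sb]
  rfl

variable [NeZero p] (D : ModPolyData k p) (m : ℕ+)

theorem SbA_ev2 (P : k[X][X]) : SbA (k := k) 1 (pp p) (ev2 P (Jc 1 m) (Jc 1 (pp p * m))) =
    ev2 P (Jc (1 ^ p) (pp p * m)) (Jn p D.ζ 1 m none) := by
  rw [map_ev2, SbA_apply, SbA_apply, Sb_Jc, Sb_Jc]
  congr 1
  · simp
  · simp [Jn, mul_assoc]

theorem Sb_Wm : SbA (k := k) 1 (pp p) (Wm p k m) = Un p D.ζ 1 m none := by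
  rw [SbA_apply, Wm, map_mul, map_mul, map_inv₀, Sb_Dc, Sb_Dc, Sb_C]
  simp [Un, mul_assoc]

theorem rel_Φ : ev2 D.Φ (Jc (k := k) 1 m) (Jc 1 (pp p * m)) = 0 := by
  apply SbA_injective 1 (pp p)
  rw [SbA_ev2 p D, ev2_Φ, map_zero]
  exact Finset.prod_eq_zero (Finset.mem_univ none) (sub_self _)

theorem rel_dΦ (hpk : (p : k) ≠ 0) : ev2 (dΦ p D) (Jc (k := k) 1 m) (Jc 1 (pp p * m)) ≠ 0 := by
  intro h
  have h2 := congrArg (SbA 1 (pp p)) h
  rw [SbA_ev2 p D, map_zero] at h2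
  exact ev2_dΦ_ne_zero p D hpk 1 m none h2

theorem rel_Q : ev2 D.Q (Jc (k := k) 1 m) (Jc 1 (pp p * m)) =
    Wm p k m * ev2 (dΦ p D) (Jc (k := k) 1 m) (Jc 1 (pp p * m)) := by
  apply SbA_injective 1 (pp p)
  rw [SbA_ev2 p D, ev2_Q, map_mul, SbA_ev2 p D, Sb_Wm p D]

theorem rel_U : ev2 D.U (Jc (k := k) 1 m) (Wm p k m) = 0 := by
  apply SbA_injective 1 (pp p)
  rw [map_ev2, Sb_Wm p D, SbA_apply, Sb_Jc]
  have := ev2_U p D 1 m (Un p D.ζ 1 m none)
  rw [Finset.prod_eq_zero (Finset.mem_univ none) (sub_self _)] at this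
  simpa using this

omit hp in
theorem evJ_order (P : k[X]) (hP : P ≠ 0) : (evJ k p P).order = -((p * P.natDegree : ℕ) : ℤ) := by
  refine order_eq_of ?_ ?_
  · rw [coeff_evJ_natDegree]
    exact leadingCoeff_ne_zero.mpr hP
  · intro m hm
    exact coeff_evJ_of_lt k p hm

theorem order_Un (hpk : (p : k) ≠ 0) (α : Idx p) :
    (Un p D.ζ 1 1 α).order = (match α with | none => ((p : ℤ) ^ 2 - p) | some _ => 1 - (p : ℤ)) := by
  have h1 : (Dc (k := k) (1 ^ p) (pp p * 1))⁻¹ ≠ 0 := inv_ne_zero (Dc_ne_zero _ _)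
  have h2 : ((Dc (k := k) (1 ^ p) (pp p * 1))⁻¹).order = - (p : ℤ) := by
    have h3 := HahnSeries.order_mul (Dc_ne_zero (k := k) (1 ^ p) (pp p * 1)) h1
    rw [mul_inv_cancel₀ (Dc_ne_zero _ _), HahnSeries.order_one, order_Dc] at h3
    have h4 : (((pp p * 1 : ℕ+) : ℕ) : ℤ) = p := by simp
    rw [h4] at h3
    linarith
  rcases α with _ | b
  · have h4 : (HahnSeries.C ((p : k) ^ 12) : LaurentSeries k) ≠ 0 :=
      HahnSeries.C_ne_zero (pow_ne_zero _ hpk)
    simp only [Un]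
    rw [HahnSeries.order_mul (mul_ne_zero h4 (Dc_ne_zero _ _)) h1,
      HahnSeries.order_mul h4 (Dc_ne_zero _ _), h2, order_Dc, HahnSeries.order_C]
    simp only [PNat.mul_coe, coe_pp, PNat.one_coe, mul_one]
    push_cast
    ring
  · simp only [Un]
    rw [HahnSeries.order_mul (Dc_ne_zero _ _) h1, h2, order_Dc]
    simp only [PNat.one_coe]
    push_cast
    ring

theorem Un_ne_zero (hpk : (p : k) ≠ 0) (c : kˣ) (e : ℕ+) (α : Idx p) : Un p D.ζ c e α ≠ 0 := by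
  rcases α with _ | b
  · exact mul_ne_zero (mul_ne_zero (HahnSeries.C_ne_zero (pow_ne_zero _ hpk)) (Dc_ne_zero _ _))
      (inv_ne_zero (Dc_ne_zero _ _))
  · exact mul_ne_zero (Dc_ne_zero _ _) (inv_ne_zero (Dc_ne_zero _ _))

theorem order_prod {ι : Type*} (s : Finset ι) (f : ι → LaurentSeries k) (hf : ∀ i ∈ s, f i ≠ 0) :
    (∏ i ∈ s, f i).order = ∑ i ∈ s, (f i).order := by
  classical
  induction s using Finset.induction_on with
  | empty => simp
  | insert a s has ih =>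
    rw [Finset.prod_insert has, Finset.sum_insert has, HahnSeries.order_mul (hf a (by simp))
      (Finset.prod_ne_zero_iff.mpr fun i hi => hf i (Finset.mem_insert_of_mem hi)),
      ih fun i hi => hf i (Finset.mem_insert_of_mem hi)]

/-- the constant coefficient of `U` is a nonzero constant -/
theorem U_const (hpk : (p : k) ≠ 0) : ∃ u : k, u ≠ 0 ∧ D.U.coeff 0 = C u := by
  have h1 : evJ k p (D.U.coeff 0) = ∏ α, (0 - Un p D.ζ 1 1 α) := by
    rw [← ev2_U, ev2]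
    rw [← Polynomial.coeff_zero_eq_eval_zero, Polynomial.coeff_map, evJ_eq_aeval]
    congr 3
    rw [Jc, qExpand_eq_Sb p (pp p * 1) (by simp)]
    simp
  have hne : ∀ α ∈ (Finset.univ : Finset (Idx p)), 0 - Un p D.ζ 1 1 α ≠ 0 := by
    intro α _
    rw [zero_sub, neg_ne_zero]
    exact Un_ne_zero p D hpk 1 1 α
  have h2 : (∏ α, (0 - Un p D.ζ 1 1 α)).order = 0 := by
    rw [order_prod _ _ hne]
    simp only [zero_sub, HahnSeries.order_neg, order_Un p D hpk]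
    rw [Fintype.sum_option]
    simp only [Finset.sum_const, Finset.card_univ, ZMod.card, nsmul_eq_mul]
    ring
  have h0 : D.U.coeff 0 ≠ 0 := by
    intro h
    rw [h, map_zero] at h1
    exact (Finset.prod_ne_zero_iff.mpr hne) h1.symm
  have h3 := evJ_order (k := k) p (D.U.coeff 0) h0
  rw [h1, h2] at h3
  have h4 : (D.U.coeff 0).natDegree = 0 := by
    have h5 : p * (D.U.coeff 0).natDegree = 0 := by exact_mod_cast (neg_eq_zero.mp h3.symm)
    rcases Nat.mul_eq_zero.mp h5 with h | h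
    · exact absurd h (NeZero.ne p)
    · exact h
  obtain ⟨u, hu⟩ := Polynomial.natDegree_eq_zero.mp h4
  refine ⟨u, ?_, hu.symm⟩
  rintro rfl
  rw [map_zero] at hu
  exact h0 hu.symm

end

/-- the image of the neighbour relation under an embedding -/
theorem step {Ω F : Type*} [Field Ω] [Algebra k Ω] [Field F] [Algebra k F]
    (p : ℕ) [Fact p.Prime] [NeZero p] (D : ModPolyData k p) (hpk : (p : k) ≠ 0)
    (i : LaurentSeries k →ₐ[k] Ω) (σ : F →ₐ[k] Ω) (x y : F) (c : kˣ) (e : ℕ+)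
    (hx : σ x = i (Jc (c ^ p) (pp p * e))) (hxy : ev2 D.Φ x y = 0) :
    ∃ α, σ y = i (Jn p D.ζ c e α) ∧ ∀ w : F, ev2 D.Q x y = w * ev2 (dΦ p D) x y →
      σ w = i (Un p D.ζ c e α) := by
  have h1 : D.Φ.map (aeval (i (Jc (c ^ p) (pp p * e))) : k[X] →ₐ[k] Ω).toRingHom =
      phiP (fun α => i (Jn p D.ζ c e α)) := by
    have := congrArg (Polynomial.map (i : LaurentSeries k →+* Ω)) (Φ_map p D c e)
    rw [Polynomial.map_map, phiP_map] at this
    have h2 : (i : LaurentSeries k →+* Ω).comp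
        (aeval (Jc (c ^ p) (pp p * e)) : k[X] →ₐ[k] LaurentSeries k).toRingHom =
        (aeval (i (Jc (c ^ p) (pp p * e))) : k[X] →ₐ[k] Ω).toRingHom := by
      have : i.comp (aeval (Jc (c ^ p) (pp p * e)) : k[X] →ₐ[k] LaurentSeries k) =
          (aeval (i (Jc (c ^ p) (pp p * e))) : k[X] →ₐ[k] Ω) := by
        ext
        simp
      exact congrArg AlgHom.toRingHom this
    rw [h2] at this
    exact this
  have h2 : ev2 D.Φ (σ x) (σ y) = 0 := by rw [← map_ev2, hxy, map_zero]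
  rw [hx, ev2, h1, eval_phiP, Finset.prod_eq_zero_iff] at h2
  obtain ⟨α, -, hα⟩ := h2
  have hα' := sub_eq_zero.mp hα
  refine ⟨α, hα', fun w hw => ?_⟩
  have h3 := congrArg σ hw
  rw [map_ev2, map_mul, map_ev2, hx, hα', ← map_ev2, ← map_ev2, ev2_Q, map_mul] at h3
  have h4 : i (ev2 (dΦ p D) (Jc (c ^ p) (pp p * e)) (Jn p D.ζ c e α)) ≠ 0 := by
    rw [Ne, map_eq_zero]
    exact ev2_dΦ_ne_zero p D hpk c e α
  exact (mul_right_cancel₀ h4 h3).symm

end Fermat.Agent.ModPoly
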