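import Mathlib
import Fermat.Agent.ModPoly.Relations

set_option autoImplicit false
set_option linter.style.haveILetI false

noncomputable section

open ModularCurve Polynomial

namespace Fermat.Agent.ModPoly

section

variable (k : Type*) [Field k] (N : ℕ)

/-- the function field generated by `j (q^d)`, `d ∣ N` -/
abbrev FF : IntermediateField k (LaurentSeries k) := modularFunctionFieldFullC k N

variable {k N}

theorem Jc_one_eq (m : ℕ+) [NeZero (m : ℕ)] : (Jc 1 m : LaurentSeries k) =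
    qExpand k m (jqModC k) := by
  rw [Jc, qExpand_eq_Sb (m : ℕ) m rfl]

theorem Jc_one_mem {m : ℕ+} (hm : (m : ℕ) ∣ N) : (Jc 1 m : LaurentSeries k) ∈ FF k N := by
  haveI : NeZero (m : ℕ) := ⟨m.ne_zero⟩
  rw [Jc_one_eq]
  exact jqModCd_mem_full k N hm

variable (k) in
/-- `j (q^m)` in the function field -/
def jm (m : ℕ+) (hm : (m : ℕ) ∣ N) : FF k N := ⟨Jc 1 m, Jc_one_mem hm⟩

theorem FF_eq_adjoin : FF k N = IntermediateField.adjoin k
    {x : LaurentSeries k | ∃ m : ℕ+, (m : ℕ) ∣ N ∧ x = Jc 1 m} := by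
  rw [FF, modularFunctionFieldFullC]
  congr 1
  ext x
  constructor
  · rintro ⟨d, hd0, hd, rfl⟩
    exact ⟨⟨d, NeZero.pos d⟩, hd, by rw [qExpand_eq_Sb d ⟨d, NeZero.pos d⟩ rfl]; rfl⟩
  · rintro ⟨m, hm, rfl⟩
    haveI : NeZero (m : ℕ) := ⟨m.ne_zero⟩
    exact ⟨m, ⟨m.ne_zero⟩, hm, Jc_one_eq m⟩

/-- `ev2` of elements of the function field -/
theorem coe_ev2 (P : k[X][X]) (x y : FF k N) :
    ((ev2 P x y : FF k N) : LaurentSeries k) = ev2 P (x : LaurentSeries k) y :=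
  map_ev2 (FF k N).val P x y

theorem ev2_jm_Φ (p : ℕ) [Fact p.Prime] [NeZero p] (D : ModPolyData k p) (m : ℕ+)
    (hm : (m : ℕ) ∣ N) (hpm : ((pp p * m : ℕ+) : ℕ) ∣ N) :
    ev2 D.Φ (jm k m hm) (jm k (pp p * m) hpm) = 0 := by
  apply Subtype.ext
  rw [coe_ev2]
  exact rel_Φ p D m

theorem ev2_jm_dΦ (p : ℕ) [Fact p.Prime] [NeZero p] (D : ModPolyData k p) (hpk : (p : k) ≠ 0)
    (m : ℕ+) (hm : (m : ℕ) ∣ N) (hpm : ((pp p * m : ℕ+) : ℕ) ∣ N) :
    ev2 (dΦ p D) (jm k m hm) (jm k (pp p * m) hpm) ≠ 0 := by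
  intro h
  have h2 := congrArg (Subtype.val) h
  rw [coe_ev2] at h2
  exact rel_dΦ p D m hpk h2

theorem Wm_mem (p : ℕ) [Fact p.Prime] [NeZero p] (D : ModPolyData k p) (hpk : (p : k) ≠ 0)
    (m : ℕ+) (hm : (m : ℕ) ∣ N) (hpm : ((pp p * m : ℕ+) : ℕ) ∣ N) : Wm p k m ∈ FF k N := by
  have h1 := rel_Q p D m
  have h2 := rel_dΦ p D m hpk
  have h3 : Wm p k m = ((ev2 D.Q (jm k m hm) (jm k (pp p * m) hpm) /
      ev2 (dΦ p D) (jm k m hm) (jm k (pp p * m) hpm) : FF k N) : LaurentSeries k) := by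
    push_cast
    rw [coe_ev2, coe_ev2]
    exact (eq_div_iff h2).mpr h1.symm
  rw [h3]
  exact SetLike.coe_mem _

/-- `Δ(q^m)/Δ(q)` -/
def rm (k : Type*) [Field k] (m : ℕ+) : LaurentSeries k := Dc 1 m * (Dc 1 1)⁻¹

theorem rm_ne_zero (m : ℕ+) : rm k m ≠ 0 :=
  mul_ne_zero (Dc_ne_zero _ _) (inv_ne_zero (Dc_ne_zero _ _))

theorem rm_one : rm k 1 = 1 := mul_inv_cancel₀ (Dc_ne_zero _ _)

theorem rm_mul (p : ℕ) [Fact p.Prime] (hpk : (p : k) ≠ 0) (m : ℕ+) :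
    HahnSeries.C ((p : k) ^ 12) * rm k (pp p * m) = Wm p k m * rm k m := by
  have := Dc_ne_zero (k := k) 1 m
  unfold rm Wm
  field_simp

theorem exists_data [IsAlgClosed k] (p : ℕ) [Fact p.Prime] [NeZero p] :
    Nonempty (ModPolyData k p) := by
  obtain ⟨f⟩ := exists_hom_algClosed k
  obtain ⟨D⟩ := exists_dataZ p
  exact ⟨D.mapData p f⟩

/-- induction over positive divisors through multiplication by primes -/
theorem pnat_prime_induction {P : ℕ+ → Prop} (h1 : P 1)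
    (h2 : ∀ (p : ℕ) [Fact p.Prime] (m : ℕ+), P m → P (pp p * m)) (m : ℕ+) : P m := by
  suffices h : ∀ n : ℕ, ∀ hn : 0 < n, P ⟨n, hn⟩ from h m m.pos
  intro n
  induction n using induction_on_primes with
  | zero => intro hn; exact absurd hn (lt_irrefl _)
  | one => intro _; exact h1
  | prime_mul p a hp ih =>
    intro hn
    haveI := Fact.mk hp
    have ha : 0 < a := Nat.pos_of_ne_zero (by rintro rfl; simp at hn)
    exact h2 p ⟨a, ha⟩ (ih ha)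

end

section

variable {k : Type*} [Field k] [IsAlgClosed k] {N : ℕ}

omit [IsAlgClosed k] in
theorem ne_zero_of_dvd (hN : (N : k) ≠ 0) {p : ℕ} (h : p ∣ N) : (p : k) ≠ 0 := by
  obtain ⟨t, rfl⟩ := h
  intro h0
  apply hN
  rw [Nat.cast_mul, h0, zero_mul]

theorem rm_mem (hN : (N : k) ≠ 0) (m : ℕ+) : (m : ℕ) ∣ N → rm k m ∈ FF k N := by
  induction m using pnat_prime_induction with
  | h1 => intro _; rw [rm_one]; exact one_mem _
  | h2 p m ih =>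
    intro hpm
    haveI : NeZero p := ⟨(Fact.out : p.Prime).ne_zero⟩
    have hm : (m : ℕ) ∣ N := (Dvd.intro_left p (by simp)).trans hpm
    have hp : p ∣ N := (Dvd.intro (m : ℕ) (by simp)).trans hpm
    have hpk : (p : k) ≠ 0 := ne_zero_of_dvd hN hp
    obtain ⟨D⟩ := exists_data (k := k) p
    have h1 := rm_mul p hpk m
    have h2 : HahnSeries.C ((p : k) ^ 12) ≠ (0 : LaurentSeries k) :=
      HahnSeries.C_ne_zero (pow_ne_zero _ hpk)
    have h3 : rm k (pp p * m) = (HahnSeries.C ((p : k) ^ 12))⁻¹ * (Wm p k m * rm k m) := by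
      rw [← h1, inv_mul_cancel_left₀ h2]
    rw [h3]
    refine mul_mem (inv_mem ?_) (mul_mem (Wm_mem p D hpk m hm hpm) (ih hm))
    rw [← algebraMap_eq_C]
    exact (FF k N).algebraMap_mem _

variable {Ω : Type*} [Field Ω] [Algebra k Ω] (i : LaurentSeries k →ₐ[k] Ω)
  (σ : FF k N →ₐ[k] Ω)

theorem exists_root (c : kˣ) {p : ℕ} (hp : 0 < p) : ∃ c' : kˣ, c' ^ p = c := by
  obtain ⟨x, hx⟩ := IsAlgClosed.exists_pow_nat_eq (c : k) hp
  have hx0 : x ≠ 0 := by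
    rintro rfl
    rw [zero_pow hp.ne'] at hx
    exact c.ne_zero hx.symm
  exact ⟨Units.mk0 x hx0, Units.ext (by rw [Units.val_pow_eq_pow_val]; exact hx)⟩

/-- The two possible values of `σ (j_{pm})` and of the modular unit -/
theorem step2 (hN : (N : k) ≠ 0) (p : ℕ) [Fact p.Prime] (m : ℕ+) (hm : (m : ℕ) ∣ N)
    (hpm : ((pp p * m : ℕ+) : ℕ) ∣ N) (c : kˣ) (e : ℕ+) (he : p ∣ e)
    (h : σ (jm k m hm) = i (Jc c e)) :
    (σ (jm k (pp p * m) hpm) = i (Jc (c ^ p) (pp p * e)) ∧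
      σ ⟨rm k (pp p * m), rm_mem hN _ hpm⟩ =
        σ ⟨rm k m, rm_mem hN _ hm⟩ * i (Dc (c ^ p) (pp p * e) * (Dc c e)⁻¹)) ∨
    (∃ c' e', c' ^ p = c ∧ e = pp p * e' ∧ σ (jm k (pp p * m) hpm) = i (Jc c' e') ∧
      σ ⟨rm k (pp p * m), rm_mem hN _ hpm⟩ =
        σ ⟨rm k m, rm_mem hN _ hm⟩ *
          i (HahnSeries.C (((p : k) ^ 12)⁻¹) * Dc c' e' * (Dc c e)⁻¹)) := by
  haveI : NeZero p := ⟨(Fact.out : p.Prime).ne_zero⟩
  have hp : p ∣ N := (Dvd.intro (m : ℕ) (by simp)).trans hpm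
  have hpk : (p : k) ≠ 0 := ne_zero_of_dvd hN hp
  obtain ⟨D⟩ := exists_data (k := k) p
  obtain ⟨c₀, hc₀⟩ := exists_root c (NeZero.pos p)
  obtain ⟨e₀, he₀⟩ : ∃ e₀ : ℕ+, e = pp p * e₀ := by
    obtain ⟨t, ht⟩ := he
    have ht0 : 0 < t := Nat.pos_of_ne_zero (by rintro rfl; simp at ht)
    exact ⟨⟨t, ht0⟩, PNat.eq (by rw [ht]; rfl)⟩
  subst hc₀ he₀
  obtain ⟨α, h1, h2⟩ := step p D hpk i σ (jm k m hm) (jm k (pp p * m) hpm) c₀ e₀ h
    (ev2_jm_Φ p D m hm hpm)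
  have h3 : σ ⟨Wm p k m, Wm_mem p D hpk m hm hpm⟩ = i (Un p D.ζ c₀ e₀ α) := by
    apply h2
    apply Subtype.ext
    rw [coe_ev2]
    push_cast
    rw [coe_ev2]
    exact rel_Q p D m
  have h4 : (HahnSeries.C (((p : k) ^ 12)⁻¹) : LaurentSeries k) * HahnSeries.C ((p : k) ^ 12) = 1 := by
    rw [← map_mul, inv_mul_cancel₀ (pow_ne_zero _ hpk), map_one]
  have h5 : σ ⟨rm k (pp p * m), rm_mem hN _ hpm⟩ = σ ⟨rm k m, rm_mem hN _ hm⟩ *
      i (HahnSeries.C (((p : k) ^ 12)⁻¹) * Un p D.ζ c₀ e₀ α) := by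
    have h6 : (⟨rm k (pp p * m), rm_mem hN _ hpm⟩ : FF k N) =
        ⟨rm k m, rm_mem hN _ hm⟩ * (algebraMap k (FF k N) (((p : k) ^ 12)⁻¹) *
          ⟨Wm p k m, Wm_mem p D hpk m hm hpm⟩) := by
      apply Subtype.ext
      show rm k (pp p * m) = rm k m * (algebraMap k (LaurentSeries k) (((p : k) ^ 12)⁻¹) *
        Wm p k m)
      rw [algebraMap_eq_C]
      have := rm_mul p hpk m
      calc rm k (pp p * m) = (HahnSeries.C (((p : k) ^ 12)⁻¹) * HahnSeries.C ((p : k) ^ 12)) *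
            rm k (pp p * m) := by rw [h4, one_mul]
        _ = _ := by rw [mul_assoc, this]; ring
    rw [h6, map_mul, map_mul, h3, AlgHom.commutes, ← AlgHom.commutes i, algebraMap_eq_C, ← map_mul]
  rcases α with _ | b
  · left
    refine ⟨?_, ?_⟩
    · rw [h1]
      simp only [Jn]
      rw [pow_mul, mul_assoc]
    · rw [h5]
      simp only [Un]
      rw [show (HahnSeries.C (((p : k) ^ 12)⁻¹) : LaurentSeries k) * (HahnSeries.C ((p : k) ^ 12) *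
        Dc (c₀ ^ (p * p)) (pp p * pp p * e₀) * (Dc (c₀ ^ p) (pp p * e₀))⁻¹) =
        (HahnSeries.C (((p : k) ^ 12)⁻¹) * HahnSeries.C ((p : k) ^ 12)) *
        (Dc (c₀ ^ (p * p)) (pp p * pp p * e₀) * (Dc (c₀ ^ p) (pp p * e₀))⁻¹) by ring, h4, one_mul,
        pow_mul, mul_assoc (pp p)]
  · right
    refine ⟨c₀ * D.ζ ^ b.val, e₀, ?_, rfl, ?_, ?_⟩
    · rw [mul_pow, ← pow_mul, mul_comm b.val, pow_mul, zeta_pow_p p D hpk, one_pow, mul_one]
    · rw [h1]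
      simp only [Jn]
    · rw [h5]
      simp only [Un]
      rw [mul_assoc]

/-- the description of the embedding `σ` at the divisor `m` -/
structure IsAt (hN : (N : k) ≠ 0) (N' : ℕ+) (m : ℕ+) (hm : (m : ℕ) ∣ N) (c : kˣ) (e : ℕ+) (s : ℕ)
    (κ : k) : Prop where
  map_j : σ (jm k m hm) = i (Jc c e)
  mul_eq : (e : ℕ) * m = N * s ^ 2
  dvd : s ∣ m
  κ_ne : κ ≠ 0
  map_r : σ ⟨rm k m, rm_mem hN _ hm⟩ = i (HahnSeries.C κ * Dc c e * (Dc 1 N')⁻¹)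

variable {i σ}

theorem ppm_dvd {p : ℕ} [Fact p.Prime] {m : ℕ+} (hpm : ((pp p * m : ℕ+) : ℕ) ∣ N) : (m : ℕ) ∣ N :=
  (Dvd.intro_left p (by simp)).trans hpm

theorem pp_dvd {p : ℕ} [Fact p.Prime] {m : ℕ+} (hpm : ((pp p * m : ℕ+) : ℕ) ∣ N) : p ∣ N :=
  (Dvd.intro (m : ℕ) (by simp)).trans hpm

variable {hN : (N : k) ≠ 0} {N' : ℕ+}

theorem IsAt.p_dvd [NeZero N] {m : ℕ+} {hm : (m : ℕ) ∣ N} {c : kˣ} {e : ℕ+} {s : ℕ} {κ : k}
    (h : IsAt i σ hN N' m hm c e s κ) {p : ℕ} [Fact p.Prime]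
    (hpm : ((pp p * m : ℕ+) : ℕ) ∣ N) : p ∣ (e : ℕ) := by
  obtain ⟨t, ht⟩ := hpm
  have h1 := h.mul_eq
  have h2 : (e : ℕ) * m = (p * t * s ^ 2) * m := by
    rw [h1, ht]
    simp only [PNat.mul_coe, coe_pp]
    ring
  have h3 := Nat.eq_of_mul_eq_mul_right m.pos h2
  rw [h3, mul_assoc]
  exact dvd_mul_right _ _

/-- one step: up or down. -/
theorem IsAt.next [NeZero N] {m : ℕ+} {hm : (m : ℕ) ∣ N} {c : kˣ} {e : ℕ+} {s : ℕ} {κ : k}
    (h : IsAt i σ hN N' m hm c e s κ) {p : ℕ} [Fact p.Prime]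
    (hpm : ((pp p * m : ℕ+) : ℕ) ∣ N) :
    (∃ κ', IsAt i σ hN N' (pp p * m) hpm (c ^ p) (pp p * e) (p * s) κ') ∨
    (∃ c' e' κ', c' ^ p = c ∧ e = pp p * e' ∧ IsAt i σ hN N' (pp p * m) hpm c' e' s κ') := by
  have hpk : (p : k) ≠ 0 := ne_zero_of_dvd hN (pp_dvd hpm)
  rcases step2 i σ hN p m hm hpm c e (h.p_dvd hpm) h.map_j with ⟨h1, h2⟩ | ⟨c', e', hc, he, h1, h2⟩
  · left
    refine ⟨κ, h1, ?_, ?_, h.κ_ne, ?_⟩
    · have := h.mul_eq
      simp only [PNat.mul_coe, coe_pp]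
      calc p * (e : ℕ) * (p * m) = p ^ 2 * (e * m) := by ring
        _ = _ := by rw [this]; ring
    · simp only [PNat.mul_coe, coe_pp]
      exact Nat.mul_dvd_mul_left p h.dvd
    · rw [h2, h.map_r, ← map_mul]
      congr 1
      have := Dc_ne_zero (k := k) c e
      have := Dc_ne_zero (k := k) 1 N'
      field_simp
  · right
    refine ⟨c', e', κ * ((p : k) ^ 12)⁻¹, hc, he, h1, ?_, ?_,
      mul_ne_zero h.κ_ne (inv_ne_zero (pow_ne_zero _ hpk)), ?_⟩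
    · have := h.mul_eq
      rw [he] at this
      simp only [PNat.mul_coe, coe_pp] at this ⊢
      rw [← this]
      ring
    · simp only [PNat.mul_coe, coe_pp]
      exact h.dvd.trans (dvd_mul_left _ _)
    · rw [h2, h.map_r, ← map_mul]
      congr 1
      rw [map_mul]
      have := Dc_ne_zero (k := k) c e
      have := Dc_ne_zero (k := k) 1 N'
      field_simp

theorem IsAt.unique {m : ℕ+} {hm : (m : ℕ) ∣ N} {c c' : kˣ} {e e' : ℕ+} {s s' : ℕ} {κ κ' : k}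
    (h : IsAt i σ hN N' m hm c e s κ) (h' : IsAt i σ hN N' m hm c' e' s' κ') :
    e = e' ∧ c = c' := by
  have h1 := i.injective (h.map_j.symm.trans h'.map_j)
  have h2 := Jc_inj_e h1
  subst h2
  exact ⟨rfl, Jc_inj_c h1⟩

theorem IsAt.unique_s [NeZero N] {m : ℕ+} {hm : (m : ℕ) ∣ N} {c c' : kˣ} {e e' : ℕ+} {s s' : ℕ}
    {κ κ' : k} (h : IsAt i σ hN N' m hm c e s κ) (h' : IsAt i σ hN N' m hm c' e' s' κ') :
    s = s' := by
  have h1 := (h.unique h').1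
  have h2 := h.mul_eq
  rw [h1, h'.mul_eq] at h2
  have h3 := Nat.eq_of_mul_eq_mul_left (NeZero.pos N) h2
  exact (Nat.pow_left_injective (n := 2) (by norm_num) h3).symm

/-- existence of the description of `σ` -/
theorem exists_isAt [NeZero N] (hN' : (N' : ℕ) = N)
    (h1 : σ (jm k 1 (one_dvd N)) = i (Jc 1 N')) (m : ℕ+) :
    ∀ hm : (m : ℕ) ∣ N, ∃ c e s κ, IsAt i σ hN N' m hm c e s κ := by
  induction m using pnat_prime_induction with
  | h1 =>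
    intro hm
    refine ⟨1, N', 1, 1, h1, by simp [hN'], one_dvd _, one_ne_zero, ?_⟩
    have h2 : (⟨rm k 1, rm_mem hN _ hm⟩ : FF k N) = 1 := Subtype.ext rm_one
    rw [h2, map_one, map_one, one_mul, mul_inv_cancel₀ (Dc_ne_zero _ _), map_one]
  | h2 p m ih =>
    intro hpm
    obtain ⟨c, e, s, κ, h⟩ := ih (ppm_dvd hpm)
    rcases h.next hpm with ⟨κ', h'⟩ | ⟨c', e', κ', -, -, h'⟩
    · exact ⟨_, _, _, _, h'⟩
    · exact ⟨_, _, _, _, h'⟩

/-- if a step by `p` goes down then the following step by `p` goes down as well -/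
theorem IsAt.no_backtrack [NeZero N] {m : ℕ+} {hm : (m : ℕ) ∣ N} {c : kˣ} {e : ℕ+} {s : ℕ} {κ : k}
    (h : IsAt i σ hN N' m hm c e s κ) {p : ℕ} [Fact p.Prime]
    (hpm : ((pp p * m : ℕ+) : ℕ) ∣ N) (hppm : ((pp p * (pp p * m) : ℕ+) : ℕ) ∣ N)
    {c₁ c₂ : kˣ} {e₁ e₂ : ℕ+} {κ₁ κ₂ : k} {s₂ : ℕ}
    (h₁ : IsAt i σ hN N' (pp p * m) hpm c₁ e₁ s κ₁)
    (h₂ : IsAt i σ hN N' (pp p * (pp p * m)) hppm c₂ e₂ s₂ κ₂) : s₂ = s := by
  have hs : s ≠ 0 := by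
    rintro rfl
    have := h.mul_eq
    have h3 : 0 < (e : ℕ) * m := Nat.mul_pos e.pos m.pos
    rw [this] at h3
    simp at h3
  have hp1 : 1 < p := (Fact.out : p.Prime).one_lt
  rcases h.next hpm with ⟨κ', h'⟩ | ⟨c', e', κ', hc, he, h'⟩
  · exfalso
    have := h'.unique_s h₁
    have h4 : p * s = 1 * s := by rw [this, one_mul]
    have := Nat.eq_of_mul_eq_mul_right (Nat.pos_of_ne_zero hs) h4
    omega
  · rcases h'.next hppm with ⟨κ'', h''⟩ | ⟨c'', e'', κ'', hc', he', h''⟩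
    · exfalso
      have h5 := h''.map_j
      rw [hc, ← he, ← h.map_j] at h5
      have h6 := congrArg Subtype.val (σ.injective h5)
      have h7 : pp p * (pp p * m) = m := Jc_inj_e (c := (1 : kˣ)) (c' := 1) h6
      have h8 := congrArg (fun x : ℕ+ => (x : ℕ)) h7
      simp only [PNat.mul_coe, coe_pp] at h8
      have h9 := m.pos
      have h10 : 2 * (m : ℕ) ≤ p * m := Nat.mul_le_mul_right _ hp1
      have h11 : 2 * (p * (m : ℕ)) ≤ p * (p * m) := Nat.mul_le_mul_right _ hp1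
      omega
    · exact h₂.unique_s h''

end

end Fermat.Agent.ModPoly
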