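import Mathlib
import Fermat.Agent.ModPoly.FieldArg

set_option autoImplicit false
set_option linter.style.haveILetI false

noncomputable section

open ModularCurve Polynomial IntermediateField

namespace Fermat.Agent.ModPoly

theorem isSeparable_of_simple_root {K F : Type*} [Field K] [Field F] [Algebra K F] (P : K[X])
    (y : F) (h : aeval y P = 0) (h' : aeval y (derivative P) ≠ 0) : IsSeparable K y := by
  have hP : P ≠ 0 := by
    rintro rfl
    simp at h'
  have hint : IsIntegral K y := isAlgebraic_iff_isIntegral.mp ⟨P, hP, h⟩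
  obtain ⟨g, hg⟩ := minpoly.dvd K y h
  have h1 : aeval y (derivative (minpoly K y)) ≠ 0 := by
    intro h0
    apply h'
    rw [hg, derivative_mul, map_add, map_mul, map_mul, h0, minpoly.aeval]
    ring
  unfold IsSeparable
  rw [separable_iff_derivative_ne_zero (minpoly.irreducible hint)]
  intro h0
  apply h1
  rw [h0, map_zero]

section

variable (k : Type*) [Field k] (N : ℕ)

/-- the element `j` of the function field -/
abbrev jF' : FF k N := jm k 1 (one_dvd N)

/-- the field `k(j)` -/
abbrev EE : IntermediateField k (FF k N) := IntermediateField.adjoin k {jF' k N}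

instance instAlgEE : Algebra k (EE k N) := (EE k N).algebra'

instance instTowerEE : IsScalarTower k (EE k N) (FF k N) :=
  IntermediateField.isScalarTower_mid' (EE k N)

variable {k N}

theorem adjoin_jm_eq_top :
    IntermediateField.adjoin k {x : FF k N | ∃ (m : ℕ+) (hm : (m : ℕ) ∣ N), x = jm k m hm} = ⊤ := by
  rw [eq_top_iff]
  intro x _
  have h1 : FF k N ≤ (IntermediateField.adjoin k
      {x : FF k N | ∃ (m : ℕ+) (hm : (m : ℕ) ∣ N), x = jm k m hm}).map (FF k N).val := by
    rw [IntermediateField.adjoin_map]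
    conv_lhs => rw [FF_eq_adjoin]
    apply IntermediateField.adjoin.mono
    rintro _ ⟨m, hm, rfl⟩
    exact ⟨jm k m hm, ⟨m, hm, rfl⟩, rfl⟩
  obtain ⟨y, hy, hyx⟩ := h1 x.2
  have : y = x := Subtype.ext hyx
  rw [← this]
  exact hy

/-- `ev2` and aeval -/
theorem aeval_map_ev2 {K F : Type*} [Field K] [Field F] [Algebra k K] [Algebra k F] [Algebra K F]
    [IsScalarTower k K F] (P : k[X][X]) (x : K) (y : F) :
    aeval y (P.map (aeval x : k[X] →ₐ[k] K).toRingHom) = ev2 P (algebraMap K F x) y := by
  rw [aeval_def, eval₂_map, ev2, eval_map]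
  congr 1
  have : (IsScalarTower.toAlgHom k K F).comp (aeval x : k[X] →ₐ[k] K) =
      (aeval (algebraMap K F x) : k[X] →ₐ[k] F) := by
    ext
    simp
  exact congrArg AlgHom.toRingHom this

variable [IsAlgClosed k]

set_option synthInstance.maxHeartbeats 400000 in
set_option maxHeartbeats 1000000 in
theorem jm_mem_separableClosure (hN : (N : k) ≠ 0) (m : ℕ+) :
    ∀ hm : (m : ℕ) ∣ N, jm k m hm ∈ separableClosure (EE k N) (FF k N) := by
  induction m using pnat_prime_induction with
  | h1 =>
    intro _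
    have h := IntermediateField.mem_adjoin_simple_self k (jF' k N)
    exact (separableClosure (EE k N) (FF k N)).algebraMap_mem ⟨jF' k N, h⟩
  | h2 p m ih =>
    intro hpm
    haveI : NeZero p := ⟨(Fact.out : p.Prime).ne_zero⟩
    have hm := ppm_dvd hpm
    have hpk : (p : k) ≠ 0 := ne_zero_of_dvd hN (pp_dvd hpm)
    obtain ⟨D⟩ := exists_data (k := k) p
    have h1 := ev2_jm_Φ p D m hm hpm
    have h2 := ev2_jm_dΦ p D hpk m hm hpm
    set K := separableClosure (EE k N) (FF k N) with hK
    haveI : IsScalarTower k K (FF k N) := by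
      refine IsScalarTower.of_algebraMap_eq fun r => rfl
    set x : K := ⟨jm k m hm, ih hm⟩ with hx
    have h3 : IsSeparable K (jm k (pp p * m) hpm) := by
      refine isSeparable_of_simple_root (D.Φ.map (aeval x : k[X] →ₐ[k] K).toRingHom) _ ?_ ?_
      · rw [aeval_map_ev2]
        exact h1
      · rw [derivative_map, aeval_map_ev2]
        exact h2
    haveI : Algebra.IsSeparable (EE k N) K := inferInstance
    have h4 : IsSeparable (EE k N) (jm k (pp p * m) hpm) :=
      IsSeparable.of_algebra_isSeparable_of_isSeparable (EE k N) h3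
    exact mem_separableClosure_iff.mpr h4

theorem adjoin_E_eq_top : IntermediateField.adjoin (EE k N)
    {x : FF k N | ∃ (m : ℕ+) (hm : (m : ℕ) ∣ N), x = jm k m hm} = ⊤ := by
  rw [eq_top_iff]
  intro x _
  have h : IntermediateField.adjoin k
      {x : FF k N | ∃ (m : ℕ+) (hm : (m : ℕ) ∣ N), x = jm k m hm} ≤
      (IntermediateField.adjoin (EE k N)
    {x : FF k N | ∃ (m : ℕ+) (hm : (m : ℕ) ∣ N), x = jm k m hm}).restrictScalars k := by
    rw [IntermediateField.adjoin_le_iff]
    intro y hy
    exact IntermediateField.subset_adjoin (EE k N) _ hy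
  rw [adjoin_jm_eq_top] at h
  exact h (IntermediateField.mem_top)

theorem isSeparable_E (hN : (N : k) ≠ 0) : Algebra.IsSeparable (EE k N) (FF k N) := by
  rw [← separableClosure.eq_top_iff, eq_top_iff, ← adjoin_E_eq_top,
    IntermediateField.adjoin_le_iff]
  rintro _ ⟨m, hm, rfl⟩
  exact jm_mem_separableClosure hN m hm

omit [IsAlgClosed k] in
theorem finite_gens [NeZero N] :
    {x : FF k N | ∃ (m : ℕ+) (hm : (m : ℕ) ∣ N), x = jm k m hm}.Finite := by
  have h1 : Set.Finite {m : ℕ+ | (m : ℕ) ∣ N} := by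
    apply Set.Finite.subset (Set.finite_Iic (⟨N, NeZero.pos N⟩ : ℕ+))
    intro m hm
    exact Nat.le_of_dvd (NeZero.pos N) hm
  haveI := h1.to_subtype
  refine (Set.finite_range (fun m : {m : ℕ+ | (m : ℕ) ∣ N} => jm k m.1 m.2)).subset ?_
  rintro _ ⟨m, hm, rfl⟩
  exact ⟨⟨m, hm⟩, rfl⟩

theorem finiteDimensional_E [NeZero N] (hN : (N : k) ≠ 0) :
    FiniteDimensional (EE k N) (FF k N) := by
  haveI := isSeparable_E hN
  haveI := (finite_gens (k := k) (N := N)).to_subtype
  have h1 := IntermediateField.finiteDimensional_adjoin (K := EE k N)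
    (S := {x : FF k N | ∃ (m : ℕ+) (hm : (m : ℕ) ∣ N), x = jm k m hm})
    (fun x _ => Algebra.IsSeparable.isIntegral _ x)
  rw [adjoin_E_eq_top] at h1
  exact Module.Finite.equiv (IntermediateField.topEquiv (F := EE k N) (E := FF k N)).toLinearEquiv

end

end Fermat.Agent.ModPoly
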