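import Mathlib
import Fermat.Agent.ModPoly.SepFin

set_option autoImplicit false
set_option linter.style.haveILetI false

noncomputable section

open ModularCurve Polynomial IntermediateField

namespace Fermat.Agent.ModPoly

section general

variable {k F : Type*} [Field k] [Field F] [Algebra k F] (C' : Subalgebra k F)

theorem mem_of_ev2 (hC : ∀ w : F, IsIntegral C' w → w ∈ C') {x w : F} (hx : x ∈ C') (U : k[X][X])
    (hU : U.Monic) (h : ev2 U x w = 0) : w ∈ C' := by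
  refine hC w ⟨U.map (aeval (⟨x, hx⟩ : C') : k[X] →ₐ[k] C').toRingHom, hU.map _, ?_⟩
  rw [eval₂_map, ← h, ev2, eval_map]
  congr 1
  have : C'.val.comp (aeval (⟨x, hx⟩ : C') : k[X] →ₐ[k] C') = (aeval x : k[X] →ₐ[k] F) := by
    ext
    simp
  exact congrArg AlgHom.toRingHom this

theorem inv_mem_of_ev2 (hC : ∀ w : F, IsIntegral C' w → w ∈ C') {x w : F} (hx : x ∈ C')
    (U : k[X][X]) (hU : U.Monic) (h : ev2 U x w = 0) {u : k} (hu : u ≠ 0)
    (hUu : U.coeff 0 = C u) (hw0 : w ≠ 0) : w⁻¹ ∈ C' := by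
  have hw := mem_of_ev2 C' hC hx U hU h
  set x' : C' := ⟨x, hx⟩
  set w' : C' := ⟨w, hw⟩
  set V : C'[X] := U.map (aeval x' : k[X] →ₐ[k] C').toRingHom with hV
  have h1 : V.eval w' = 0 := by
    have h2 := map_ev2 C'.val U x' w'
    rw [show (C'.val x' : F) = x from rfl, show (C'.val w' : F) = w from rfl, h] at h2
    exact Subtype.ext h2
  have h3 : V.coeff 0 = algebraMap k C' u := by
    rw [hV, coeff_map, hUu]
    exact aeval_C _ _
  have h4 := divX_mul_X_add V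
  rw [h3] at h4
  have h5 := congrArg (fun P => eval w' P) h4
  simp only [eval_add, eval_mul, eval_X, eval_C, h1] at h5
  have h6 := congrArg (fun y : C' => (y : F)) h5
  simp only [Subalgebra.coe_add, Subalgebra.coe_mul, Subalgebra.coe_algebraMap,
    ZeroMemClass.coe_zero] at h6
  have h7 : w⁻¹ = algebraMap k F (-u⁻¹) * ((V.divX.eval w' : C') : F) := by
    have hu' : algebraMap k F u ≠ 0 := by
      rw [Ne, map_eq_zero]
      exact hu
    have h8 : ((V.divX.eval w' : C') : F) * w = - algebraMap k F u := by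
      rw [eq_neg_iff_add_eq_zero]
      exact h6
    rw [map_neg, map_inv₀]
    field_simp
    linear_combination h8
  rw [h7]
  exact mul_mem (C'.algebraMap_mem _) (SetLike.coe_mem _)

end general

section

variable {k : Type*} [Field k] [IsAlgClosed k] {N : ℕ} (C' : Subalgebra k (FF k N))
  (hC : ∀ w : FF k N, IsIntegral C' w → w ∈ C') (hj : jF' k N ∈ C')

include hC hj

theorem jm_mem_C (m : ℕ+) : ∀ hm : (m : ℕ) ∣ N, jm k m hm ∈ C' := by
  induction m using pnat_prime_induction with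
  | h1 =>
    intro _
    exact hj
  | h2 p m ih =>
    intro hpm
    haveI : NeZero p := ⟨(Fact.out : p.Prime).ne_zero⟩
    obtain ⟨D⟩ := exists_data (k := k) p
    exact mem_of_ev2 C' hC (ih (ppm_dvd hpm)) D.Φ D.monicΦ (ev2_jm_Φ p D m _ hpm)

theorem Wm_mem_C (p : ℕ) [Fact p.Prime] (hpk : (p : k) ≠ 0) (m : ℕ+) (hm : (m : ℕ) ∣ N)
    (hW : Wm p k m ∈ FF k N) :
    (⟨Wm p k m, hW⟩ : FF k N) ∈ C' ∧ (⟨Wm p k m, hW⟩ : FF k N)⁻¹ ∈ C' := by
  haveI : NeZero p := ⟨(Fact.out : p.Prime).ne_zero⟩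
  obtain ⟨D⟩ := exists_data (k := k) p
  have h1 : ev2 D.U (jm k m hm) (⟨Wm p k m, hW⟩ : FF k N) = 0 := by
    apply Subtype.ext
    rw [coe_ev2]
    exact rel_U p D m
  obtain ⟨u, hu, hu'⟩ := U_const p D hpk
  have hj := jm_mem_C C' hC hj m hm
  refine ⟨mem_of_ev2 C' hC hj D.U D.monicU h1, inv_mem_of_ev2 C' hC hj D.U D.monicU h1 hu hu' ?_⟩
  intro h0
  have h2 : Wm p k m = 0 := congrArg Subtype.val h0
  exact mul_ne_zero (mul_ne_zero (HahnSeries.C_ne_zero (pow_ne_zero _ hpk)) (Dc_ne_zero _ _))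
    (inv_ne_zero (Dc_ne_zero _ _)) h2

theorem rm_mem_C (hN : (N : k) ≠ 0) (m : ℕ+) : ∀ hm : (m : ℕ) ∣ N,
    (⟨rm k m, rm_mem hN m hm⟩ : FF k N) ∈ C' ∧ (⟨rm k m, rm_mem hN m hm⟩ : FF k N)⁻¹ ∈ C' := by
  induction m using pnat_prime_induction with
  | h1 =>
    intro hm
    have h2 : (⟨rm k 1, rm_mem hN _ hm⟩ : FF k N) = 1 := Subtype.ext rm_one
    rw [h2, inv_one]
    exact ⟨one_mem _, one_mem _⟩
  | h2 p m ih =>
    intro hpm
    haveI : NeZero p := ⟨(Fact.out : p.Prime).ne_zero⟩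
    have hm := ppm_dvd hpm
    have hpk : (p : k) ≠ 0 := ne_zero_of_dvd hN (pp_dvd hpm)
    obtain ⟨D⟩ := exists_data (k := k) p
    have hW := Wm_mem p D hpk m hm hpm
    have h6 : (⟨rm k (pp p * m), rm_mem hN _ hpm⟩ : FF k N) =
        ⟨rm k m, rm_mem hN _ hm⟩ * (algebraMap k (FF k N) (((p : k) ^ 12)⁻¹) *
          ⟨Wm p k m, hW⟩) := by
      apply Subtype.ext
      show rm k (pp p * m) = rm k m * (algebraMap k (LaurentSeries k) (((p : k) ^ 12)⁻¹) *
        Wm p k m)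
      rw [algebraMap_eq_C]
      have := rm_mul p hpk m
      have h4 : (HahnSeries.C (((p : k) ^ 12)⁻¹) : LaurentSeries k) *
          HahnSeries.C ((p : k) ^ 12) = 1 := by
        rw [← map_mul, inv_mul_cancel₀ (pow_ne_zero _ hpk), map_one]
      calc rm k (pp p * m) = (HahnSeries.C (((p : k) ^ 12)⁻¹) * HahnSeries.C ((p : k) ^ 12)) *
            rm k (pp p * m) := by rw [h4, one_mul]
        _ = _ := by rw [mul_assoc, this]; ring
    obtain ⟨h7, h8⟩ := Wm_mem_C C' hC hj p hpk m hm hW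
    obtain ⟨h9, h10⟩ := ih hm
    rw [h6]
    refine ⟨mul_mem h9 (mul_mem (C'.algebraMap_mem _) h7), ?_⟩
    rw [mul_inv, mul_inv, map_inv₀, inv_inv]
    exact mul_mem h10 (mul_mem (C'.algebraMap_mem _) h8)

end

end Fermat.Agent.ModPoly
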