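import Mathlib
import Fermat.Agent.ModPoly.Integral
import Fermat.Agent.ModPoly.Comb

set_option autoImplicit false
set_option linter.style.haveILetI false

noncomputable section

open ModularCurve Polynomial IntermediateField

namespace Fermat.Agent.ModPoly

section

variable {k : Type*} [Field k] [IsAlgClosed k] {N : ℕ} [NeZero N]

variable {Ω : Type*} [Field Ω] [Algebra k Ω] {i : LaurentSeries k →ₐ[k] Ω}
  (σ : FF k N →ₐ[k] Ω)

/-- the divisor as positive natural -/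
def pn (N : ℕ) [NeZero N] : ℕ+ := ⟨N, NeZero.pos N⟩

@[simp] theorem coe_pn (N : ℕ) [NeZero N] : ((pn N : ℕ+) : ℕ) = N := rfl

/-- positive natural number -/
def mkp (m : ℕ) (hm : 0 < m) : ℕ+ := ⟨m, hm⟩

variable (hN : (N : k) ≠ 0)

/-- packaged choice of the data of `σ` -/
theorem exists_fun (h1 : σ (jm k 1 (one_dvd N)) = i (Jc 1 (pn N))) : ∃ (c : ℕ → kˣ) (e : ℕ → ℕ+) (s : ℕ → ℕ) (κ : ℕ → k),
    ∀ (m : ℕ+) (hm : (m : ℕ) ∣ N), IsAt i σ hN (pn N) m hm (c m) (e m) (s m) (κ m) := by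
  classical
  have h2 : ∀ n : ℕ, ∃ (c : kˣ) (e : ℕ+) (s : ℕ) (κ : k), ∀ (m : ℕ+) (hm : (m : ℕ) ∣ N),
      (m : ℕ) = n → IsAt i σ hN (pn N) m hm c e s κ := by
    intro n
    by_cases hn : ∃ m : ℕ+, (m : ℕ) ∣ N ∧ (m : ℕ) = n
    · obtain ⟨m, hm, hmn⟩ := hn
      obtain ⟨c, e, s, κ, h⟩ := exists_isAt (i := i) (σ := σ) (hN := hN) (N' := pn N) rfl h1 m hm
      refine ⟨c, e, s, κ, fun m' hm' hmn' => ?_⟩
      have : m' = m := PNat.eq (hmn'.trans hmn.symm)
      subst this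
      exact h
    · refine ⟨1, 1, 1, 1, fun m hm hmn => absurd ⟨m, hm, hmn⟩ hn⟩
  choose c e s κ h using h2
  exact ⟨c, e, s, κ, fun m hm => h m m hm rfl⟩

variable {c : ℕ → kˣ} {e : ℕ → ℕ+} {s : ℕ → ℕ} {κ : ℕ → k}
  (h : ∀ (m : ℕ+) (hm : (m : ℕ) ∣ N), IsAt i σ hN (pn N) m hm (c m) (e m) (s m) (κ m))

include h in
theorem s_gcd (m : ℕ) (hm : m ∣ N) : s m = Nat.gcd m (s N) := by
  refine gcd_structure N (NeZero.pos N) s ?_ ?_ ?_ m hm
  · intro m hm
    exact (h ⟨m, Nat.pos_of_dvd_of_pos hm (NeZero.pos N)⟩ hm).dvd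
  · intro p m hp hpm
    haveI := Fact.mk hp
    have hm : m ∣ N := (Dvd.intro_left p rfl).trans hpm
    have hm0 := Nat.pos_of_dvd_of_pos hm (NeZero.pos N)
    have h2 := h ⟨m, hm0⟩ hm
    have h3 := h (pp p * mkp m hm0) (show p * m ∣ N from hpm)
    rcases h2.next (p := p) hpm with ⟨κ', h'⟩ | ⟨c', e', κ', -, -, h'⟩
    · right
      exact h3.unique_s h'
    · left
      exact h3.unique_s h'
  · intro p m hp hpm hs
    haveI := Fact.mk hp
    have hm1 : p * m ∣ N := (Dvd.intro_left p rfl).trans hpm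
    have hm : m ∣ N := (Dvd.intro_left p rfl).trans hm1
    have hm0 := Nat.pos_of_dvd_of_pos hm (NeZero.pos N)
    have h2 := h ⟨m, hm0⟩ hm
    have h3 := h (pp p * mkp m hm0) (show p * m ∣ N from hm1)
    have h4 := h (pp p * (pp p * mkp m hm0)) (show p * (p * m) ∣ N from hpm)
    change IsAt i σ hN (pn N) _ _ _ _ (s (p * m)) _ at h3
    change IsAt i σ hN (pn N) _ _ _ _ (s (p * (p * m))) _ at h4
    rw [hs] at h3
    exact h2.no_backtrack _ _ h3 h4

include h in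
theorem c_e_of_top (hc1 : c 1 = 1) (hs : s N = N) (m : ℕ+) : ∀ (_ : (m : ℕ) ∣ N),
    c m = 1 ∧ e m = pn N * m := by
  have hs' : ∀ m : ℕ, m ∣ N → s m = m := fun m hm => by
    rw [s_gcd σ hN h m hm, hs, Nat.gcd_eq_left hm]
  have he : ∀ (m : ℕ+) (hm : (m : ℕ) ∣ N), e m = pn N * m := by
    intro m hm
    have h2 := (h m hm).mul_eq
    rw [hs' m hm] at h2
    apply PNat.eq
    apply Nat.eq_of_mul_eq_mul_right m.pos
    rw [h2]
    simp only [PNat.mul_coe, coe_pn]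
    ring
  intro hm
  refine ⟨?_, he m hm⟩
  revert hm
  induction m using pnat_prime_induction with
  | h1 => intro _; exact hc1
  | h2 p m ih =>
    intro hpm
    have hm := ppm_dvd hpm
    have h2 := h m hm
    rw [ih hm] at h2
    have h3 := h (pp p * m) hpm
    rcases h2.next (p := p) hpm with ⟨κ', h'⟩ | ⟨c', e', κ', -, -, h'⟩
    · rw [(h3.unique h').2, one_pow]
    · exfalso
      have h4 := h3.unique_s h'
      rw [hs' _ hpm, hs' _ hm] at h4
      have h5 : p * (m : ℕ) = 1 * m := by rw [one_mul]; exact h4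
      have h6 := Nat.eq_of_mul_eq_mul_right m.pos h5
      exact (Fact.out : p.Prime).one_lt.ne' h6

end

end Fermat.Agent.ModPoly
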