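import Mathlib

set_option autoImplicit false
set_option linter.style.haveILetI false

noncomputable section

open Polynomial IntermediateField

namespace Fermat.Agent.ModPoly

variable {k F : Type*} [Field k] [Field F] [Algebra k F]

/-- The norm to `k(t)` of an element which is a unit in every integrally closed subring containing
`t` is a constant. -/
theorem norm_unit_const (t : F) (ht : Function.Injective (aeval t : k[X] →ₐ[k] F)) (x : F)
    (hx : ∀ C' : Subalgebra k F, (∀ w : F, IsIntegral C' w → w ∈ C') →
      t ∈ C' → x ∈ C' ∧ x⁻¹ ∈ C') (hx0 : x ≠ 0) :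
    ∃ a : k, a ≠ 0 ∧ Algebra.norm (IntermediateField.adjoin k {t}) x =
      algebraMap k (IntermediateField.adjoin k {t}) a := by
  set E := IntermediateField.adjoin k {t} with hE
  have hmem := IntermediateField.mem_adjoin_simple_self k t
  letI : Algebra k[X] F := (aeval t : k[X] →ₐ[k] F).toRingHom.toAlgebra
  letI : Algebra k[X] E := (aeval (⟨t, hmem⟩ : E) : k[X] →ₐ[k] E).toRingHom.toAlgebra
  have hcomp : ∀ P : k[X], algebraMap E F (aeval (⟨t, hmem⟩ : E) P) = aeval t P := by
    intro P
    have : (IsScalarTower.toAlgHom k E F).comp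
        (aeval (⟨t, hmem⟩ : E) : k[X] →ₐ[k] E) = aeval t := by
      ext
      simp
    exact congrArg (fun f : k[X] →ₐ[k] F => f P) this
  haveI : IsScalarTower k[X] E F :=
    IsScalarTower.of_algebraMap_eq fun P => (hcomp P).symm
  haveI : IsScalarTower k k[X] F := by
    refine IsScalarTower.of_algebraMap_eq fun a => ?_
    show _ = aeval t (algebraMap k k[X] a)
    rw [AlgHom.commutes]
  have hinj : Function.Injective (algebraMap k[X] E) := by
    intro P Q h
    apply ht
    have := congrArg (algebraMap E F) h
    rw [← hcomp P, ← hcomp Q]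
    exact this
  haveI : FaithfulSMul k[X] E := (faithfulSMul_iff_algebraMap_injective _ _).mpr hinj
  haveI : IsFractionRing k[X] E := by
    refine IsFractionRing.of_field k[X] E fun z => ?_
    obtain ⟨r, s, hrs⟩ := (IntermediateField.mem_adjoin_simple_iff k (z : F)).mp z.2
    refine ⟨r, s, ?_⟩
    apply (algebraMap E F).injective
    rw [map_div₀]
    show (z : F) = algebraMap E F (aeval (⟨t, hmem⟩ : E) r) /
      algebraMap E F (aeval (⟨t, hmem⟩ : E) s)
    rw [hcomp, hcomp]
    exact hrs
  set C' : Subalgebra k F := (integralClosure k[X] F).restrictScalars k with hC'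
  obtain ⟨h1, h2⟩ := hx C' (by
    intro w hw
    have : IsIntegral k[X] w := by
      haveI : Algebra.IsIntegral k[X] (integralClosure k[X] F) := inferInstance
      exact isIntegral_trans (A := integralClosure k[X] F) w hw
    exact this) (by
    show IsIntegral k[X] t
    have : t = algebraMap k[X] F X := (aeval_X t).symm
    rw [this]
    exact isIntegral_algebraMap)
  have h3 : IsIntegral k[X] (Algebra.norm E x) := Algebra.isIntegral_norm E h1
  have h4 : IsIntegral k[X] (Algebra.norm E x⁻¹) := Algebra.isIntegral_norm E h2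
  obtain ⟨P, hP⟩ := IsIntegrallyClosed.isIntegral_iff.mp h3
  obtain ⟨Q, hQ⟩ := IsIntegrallyClosed.isIntegral_iff.mp h4
  have h5 : P * Q = 1 := by
    apply hinj
    rw [map_mul, hP, hQ, ← map_mul, mul_inv_cancel₀ hx0, map_one, map_one]
  obtain ⟨a, ha, ha'⟩ := Polynomial.isUnit_iff.mp (IsUnit.of_mul_eq_one Q h5)
  refine ⟨a, ha.ne_zero, ?_⟩
  rw [← hP, ← ha']
  show aeval (⟨t, hmem⟩ : E) (C a) = _
  rw [aeval_C]

end Fermat.Agent.ModPoly
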