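import Mathlib
import Fermat.Agent.ModPoly.Degree
import Fermat.Agent.ModPoly.NormConst

set_option autoImplicit false
set_option linter.style.haveILetI false

noncomputable section

open ModularCurve Polynomial IntermediateField

namespace Fermat.Agent.ModPoly

section

variable {k : Type*} [Field k] {N : ℕ}

theorem aeval_jqModC_injective :
    Function.Injective (aeval (jqModC k) : k[X] →ₐ[k] LaurentSeries k) := by
  haveI : NeZero 1 := ⟨one_ne_zero⟩
  have h1 := evJ_injective k 1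
  rw [evJ_eq_aeval, qExpand_one_apply] at h1
  exact h1

theorem Jc_one_one : (Jc 1 1 : LaurentSeries k) = jqModC k := by
  rw [Jc, ← twist_eq_Sb, twist_one]

theorem aeval_jF_injective : Function.Injective (aeval (jF' k N) : k[X] →ₐ[k] FF k N) := by
  have h1 : (FF k N).val.comp (aeval (jF' k N) : k[X] →ₐ[k] FF k N) =
      (aeval (jqModC k) : k[X] →ₐ[k] LaurentSeries k) := by
    ext
    simp only [AlgHom.comp_apply, aeval_X]
    show (Jc 1 1 : LaurentSeries k).coeff _ = _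
    rw [Jc_one_one]
  have h2 := aeval_jqModC_injective (k := k)
  rw [← h1] at h2
  exact Function.Injective.of_comp (f := (FF k N).val) h2

end

section

variable {k : Type*} [Field k] [IsAlgClosed k] {N : ℕ} [NeZero N]

omit [NeZero N] in
theorem norm_rm (hN : (N : k) ≠ 0) (m : ℕ+) (hm : (m : ℕ) ∣ N) :
    ∃ a : k, a ≠ 0 ∧ Algebra.norm (EE k N) (⟨rm k m, rm_mem hN m hm⟩ : FF k N) =
      algebraMap k (EE k N) a := by
  refine norm_unit_const (jF' k N) aeval_jF_injective _ (fun C' hC hj => rm_mem_C C' hC hj hN m hm) ?_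
  intro h0
  exact rm_ne_zero m (congrArg Subtype.val h0)

omit [IsAlgClosed k] in
theorem order_term {κ : k} (hκ : κ ≠ 0) (c : kˣ) (e e' : ℕ+) :
    (HahnSeries.C κ * Dc c e * (Dc 1 e')⁻¹ : LaurentSeries k).order = (e : ℕ) - ((e' : ℕ) : ℤ) ∧
    (HahnSeries.C κ * Dc c e * (Dc 1 e')⁻¹ : LaurentSeries k) ≠ 0 := by
  have h1 : (Dc (k := k) 1 e')⁻¹ ≠ 0 := inv_ne_zero (Dc_ne_zero _ _)
  have h4 : (HahnSeries.C κ : LaurentSeries k) ≠ 0 := HahnSeries.C_ne_zero hκ
  have h2 : ((Dc (k := k) 1 e')⁻¹).order = - ((e' : ℕ) : ℤ) := by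
    have h3 := HahnSeries.order_mul (Dc_ne_zero (k := k) 1 e') h1
    rw [mul_inv_cancel₀ (Dc_ne_zero _ _), HahnSeries.order_one, order_Dc] at h3
    linarith
  refine ⟨?_, mul_ne_zero (mul_ne_zero h4 (Dc_ne_zero _ _)) h1⟩
  rw [HahnSeries.order_mul (mul_ne_zero h4 (Dc_ne_zero _ _)) h1,
    HahnSeries.order_mul h4 (Dc_ne_zero _ _), h2, order_Dc, HahnSeries.order_C]
  ring

/-- `E`-algebra structure on `Ω` given by the substitution `q ↦ q ^ N`. -/
def tauE {Ω : Type*} [Field Ω] [Algebra k Ω] (i : LaurentSeries k →ₐ[k] Ω) : FF k N →ₐ[k] Ω :=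
  i.comp ((SbA 1 (pn N)).comp (FF k N).val)

omit [IsAlgClosed k] in
theorem tauE_jm {Ω : Type*} [Field Ω] [Algebra k Ω] (i : LaurentSeries k →ₐ[k] Ω) (m : ℕ+)
    (hm : (m : ℕ) ∣ N) : tauE i (jm k m hm) = i (Jc 1 (pn N * m)) := by
  show i (Sb 1 (pn N) (Jc 1 m)) = _
  rw [Sb_Jc, one_pow, one_mul]

set_option maxHeartbeats 1000000 in
set_option synthInstance.maxHeartbeats 400000 in
theorem finrank_aux {Ω : Type*} [Field Ω] [IsAlgClosed Ω] [Algebra k Ω]
    (i : LaurentSeries k →ₐ[k] Ω) (hN : (N : k) ≠ 0) :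
    Module.finrank (EE k N) (FF k N) = dedekindPsi N := by
  classical
  haveI := isSeparable_E hN
  haveI := finiteDimensional_E hN
  letI : Algebra (EE k N) Ω :=
    ((tauE (N := N) i).toRingHom.comp (EE k N).val.toRingHom).toAlgebra
  haveI : IsScalarTower k (EE k N) Ω := by
    refine IsScalarTower.of_algebraMap_eq (fun a => ?_)
    show _ = tauE i (algebraMap k (FF k N) a)
    rw [AlgHom.commutes]
  let σ₀ : FF k N →ₐ[EE k N] Ω := { (tauE (N := N) i).toRingHom with commutes' := fun _ => rfl }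
  have hj1 : ∀ σ : FF k N →ₐ[EE k N] Ω, (σ.restrictScalars k) (jm k 1 (one_dvd N)) =
      i (Jc 1 (pn N)) := by
    intro σ
    have h1 := σ.commutes ⟨jF' k N, IntermediateField.mem_adjoin_simple_self k (jF' k N)⟩
    have h2 : (algebraMap (EE k N) Ω) ⟨jF' k N, IntermediateField.mem_adjoin_simple_self k (jF' k N)⟩
        = i (Jc 1 (pn N)) := by
      exact (tauE_jm i 1 (one_dvd N)).trans (by rw [mul_one])
    rw [h2] at h1
    exact h1
  choose c e s κ h using fun σ : FF k N →ₐ[EE k N] Ω => exists_fun (i := i) (σ.restrictScalars k) hN (hj1 σ)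
  rw [← AlgHom.card (EE k N) (FF k N) Ω]
  refine count N (NeZero.pos N) (fun σ => s σ N) ?_ ?_ ?_
  · intro σ
    exact (h σ (pn N) dvd_rfl).dvd
  · intro m hm
    have hm0 : 0 < m := Nat.pos_of_dvd_of_pos hm (NeZero.pos N)
    have key : ∑ σ : FF k N →ₐ[EE k N] Ω, (((e σ m : ℕ+) : ℕ) - (((pn N : ℕ+) : ℕ) : ℤ)) = 0 := by
      obtain ⟨a, ha, ha'⟩ := norm_rm hN (mkp m hm0) hm
      have h2 := Algebra.norm_eq_prod_embeddings (EE k N) Ω
        (⟨rm k (mkp m hm0), rm_mem hN (mkp m hm0) hm⟩ : FF k N)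
      rw [ha', ← IsScalarTower.algebraMap_apply k (EE k N) Ω] at h2
      have h3 : ∀ σ : FF k N →ₐ[EE k N] Ω,
          σ ⟨rm k (mkp m hm0), rm_mem hN (mkp m hm0) hm⟩ =
          i (HahnSeries.C (κ σ m) * Dc (c σ m) (e σ m) * (Dc 1 (pn N))⁻¹) :=
        fun σ => (h σ (mkp m hm0) hm).map_r
      simp_rw [h3] at h2
      rw [← map_prod, ← i.commutes, algebraMap_eq_C] at h2
      have h4 := i.injective h2
      have h5 := congrArg HahnSeries.order h4
      have hκ : ∀ σ : FF k N →ₐ[EE k N] Ω, κ σ m ≠ 0 := fun σ => (h σ (mkp m hm0) hm).κ_ne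
      rw [HahnSeries.order_C, order_prod _ _ (fun σ _ => (order_term (hκ σ) _ _ _).2)] at h5
      rw [h5]
      exact Finset.sum_congr rfl fun σ _ => ((order_term (hκ σ) _ _ _).1).symm
    have key2 : ∑ σ : FF k N →ₐ[EE k N] Ω, ((e σ m : ℕ+) : ℕ) =
        N * Fintype.card (FF k N →ₐ[EE k N] Ω) := by
      rw [Finset.sum_sub_distrib, Finset.sum_const, sub_eq_zero, coe_pn, Finset.card_univ,
        nsmul_eq_mul] at key
      have : ((∑ σ : FF k N →ₐ[EE k N] Ω, ((e σ m : ℕ+) : ℕ) : ℕ) : ℤ) =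
        ((N * Fintype.card (FF k N →ₐ[EE k N] Ω) : ℕ) : ℤ) := by
        push_cast
        rw [key]
        ring
      exact_mod_cast this
    have h6 : ∀ σ : FF k N →ₐ[EE k N] Ω, ((e σ m : ℕ+) : ℕ) * m = N * (Nat.gcd m (s σ N)) ^ 2 := by
      intro σ
      rw [← s_gcd (σ.restrictScalars k) hN (h σ) m hm]
      exact (h σ (mkp m hm0) hm).mul_eq
    apply Nat.eq_of_mul_eq_mul_left (NeZero.pos N)
    rw [Finset.mul_sum]
    calc ∑ σ : FF k N →ₐ[EE k N] Ω, N * (Nat.gcd m (s σ N)) ^ 2 =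
        ∑ σ : FF k N →ₐ[EE k N] Ω, ((e σ m : ℕ+) : ℕ) * m :=
          Finset.sum_congr rfl fun σ _ => (h6 σ).symm
      _ = _ := by rw [← Finset.sum_mul, key2]; ring
  · rw [Fintype.card_eq_one_iff]
    have hc1 : ∀ σ : FF k N →ₐ[EE k N] Ω, c σ 1 = 1 := by
      intro σ
      have h2 := (h σ 1 (one_dvd N)).map_j
      rw [hj1] at h2
      have h3 := i.injective h2
      have h4 : pn N = e σ ((1 : ℕ+) : ℕ) := Jc_inj_e h3
      rw [← h4] at h3
      exact (Jc_inj_c h3).symm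
    have hs0 : s σ₀ N = N := by
      have h2 := h σ₀ (pn N) dvd_rfl
      have h3 := h2.map_j
      have h4 : (σ₀.restrictScalars k) (jm k (pn N) dvd_rfl) = i (Jc 1 (pn N * pn N)) :=
        tauE_jm i (pn N) dvd_rfl
      rw [h4] at h3
      have h5 : pn N * pn N = e σ₀ N := Jc_inj_e (i.injective h3)
      have h6 := h2.mul_eq
      have h7 : ((e σ₀ N : ℕ+) : ℕ) = N * N := by
        rw [← h5]; rfl
      rw [coe_pn, h7] at h6
      have h8 : N ^ 2 = (s σ₀ N) ^ 2 := by
        apply Nat.eq_of_mul_eq_mul_left (NeZero.pos N)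
        rw [← h6]; ring
      exact (Nat.pow_left_injective (n := 2) (by norm_num) h8).symm
    refine ⟨⟨σ₀, hs0⟩, ?_⟩
    rintro ⟨σ, hσ⟩
    apply Subtype.ext
    show σ = σ₀
    have h2 : ∀ (m : ℕ+) (hm : (m : ℕ) ∣ N), σ (jm k m hm) = σ₀ (jm k m hm) := by
      intro m hm
      have h3 := (h σ m hm).map_j
      obtain ⟨h4, h5⟩ := c_e_of_top (σ.restrictScalars k) hN (h σ) (hc1 σ) hσ m hm
      rw [h4, h5] at h3
      exact h3.trans (tauE_jm i m hm).symm
    have h3 : IntermediateField.adjoin (EE k N)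
        {x : FF k N | ∃ (m : ℕ+) (hm : (m : ℕ) ∣ N), x = jm k m hm} = ⊤ := adjoin_E_eq_top
    apply AlgHom.ext
    intro x
    have h4 : x ∈ IntermediateField.adjoin (EE k N)
        {x : FF k N | ∃ (m : ℕ+) (hm : (m : ℕ) ∣ N), x = jm k m hm} := by
      rw [h3]; exact IntermediateField.mem_top
    induction h4 using IntermediateField.adjoin_induction with
    | mem x hx =>
      obtain ⟨m, hm, rfl⟩ := hx
      exact h2 m hm
    | algebraMap x => rw [AlgHom.commutes, AlgHom.commutes]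
    | add x y _ _ hx hy => rw [map_add, map_add, hx, hy]
    | inv x _ hx => rw [map_inv₀, map_inv₀, hx]
    | mul x y _ _ hx hy => rw [map_mul, map_mul, hx, hy]

/-- **Degree of the modular function field**: over an algebraically closed field `k` in which
`N ≠ 0`, `[k(j(q^d) : d ∣ N) : k(j)] = ψ(N)`. -/
theorem finrank_E (hN : (N : k) ≠ 0) :
    Module.finrank (EE k N) (FF k N) = dedekindPsi N :=
  finrank_aux (Ω := AlgebraicClosure (LaurentSeries k))
    (IsScalarTower.toAlgHom k (LaurentSeries k) (AlgebraicClosure (LaurentSeries k))) hN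

end

end Fermat.Agent.ModPoly
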