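import Mathlib
import Fermat.Agent.ModPoly.Descent

set_option autoImplicit false
set_option linter.style.haveILetI false

noncomputable section

open ModularCurve Polynomial

namespace Fermat.Agent.ModPoly

section evT

variable {R S : Type*} [CommRing R] [CommRing S]

/-- evaluation of polynomials at a Laurent series -/
def evT (t : LaurentSeries R) : R[X] →+* LaurentSeries R := eval₂RingHom HahnSeries.C t

@[simp] theorem evT_X (t : LaurentSeries R) : evT t X = t := by simp [evT]

@[simp] theorem evT_C (t : LaurentSeries R) (a : R) : evT t (C a) = HahnSeries.C a := by simp [evT]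

theorem coeffMap_evT (f : R →+* S) (t : LaurentSeries R) (P : R[X]) :
    coeffMap f (evT t P) = evT (coeffMap f t) (P.map f) := by
  unfold evT
  simp only [coe_eval₂RingHom]
  rw [Polynomial.hom_eval₂, Polynomial.eval₂_map]
  congr 1
  ext a : 1
  exact coeffMap_C f a

theorem evT_eq_aeval {k : Type*} [Field k] (t : LaurentSeries k) (P : k[X]) :
    evT t P = aeval t P := by
  rw [evT, coe_eval₂RingHom, aeval_def]
  congr 1
  ext a : 1
  exact (algebraMap_laurentSeries_eq_single k a).symm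

theorem mem_range_coeffMap_iff {K : Type*} [CommRing K] (A : Subring K) (f : LaurentSeries K) :
    f ∈ (coeffMap A.subtype).range ↔ ∀ n, f.coeff n ∈ A := by
  constructor
  · rintro ⟨g, rfl⟩ n
    exact (g.coeff n).2
  · intro h
    refine ⟨⟨fun n => ⟨f.coeff n, h n⟩, ?_⟩, ?_⟩
    · refine f.isPWO_support.mono ?_
      intro n hn
      rw [Function.mem_support] at hn
      rw [HahnSeries.mem_support]
      intro h0
      exact hn (Subtype.ext h0)
    · ext n
      rfl

theorem exists_lift_poly {K : Type*} [CommRing K] (A : Subring K) (P : K[X])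
    (h : ∀ n, P.coeff n ∈ A) : ∃ P' : A[X], P'.map A.subtype = P := by
  have : P ∈ Polynomial.lifts A.subtype := by
    rw [Polynomial.lifts_iff_coeff_lifts]
    intro n
    exact ⟨⟨P.coeff n, h n⟩, rfl⟩
  exact (Polynomial.mem_lifts _).mp this

end evT

/-- A valuation subring `A` of `K` with a homomorphism to a field `k` whose kernel is the maximal
ideal. -/
structure VCtx (K k : Type*) [Field K] [Field k] where
  A : Subring K
  mem_or : ∀ x : K, x ∈ A ∨ x⁻¹ ∈ A
  π : A →+* k
  inv_mem : ∀ a : A, π a ≠ 0 → (a : K)⁻¹ ∈ A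

namespace VCtx

variable {K k : Type*} [Field K] [Field k] (V : VCtx K k)

theorem exists_max (S : Finset K) : (∃ x ∈ S, x ≠ 0) →
    ∃ x ∈ S, x ≠ 0 ∧ ∀ y ∈ S, y / x ∈ V.A := by
  classical
  induction S using Finset.induction_on with
  | empty => rintro ⟨x, hx, -⟩; simp at hx
  | insert a S haS ih =>
    rintro ⟨x₀, hx₀, hx₀'⟩
    by_cases hS : ∃ x ∈ S, x ≠ 0
    · obtain ⟨x, hx, hx0, hmax⟩ := ih hS
      rcases V.mem_or (a / x) with h | h
      · refine ⟨x, Finset.mem_insert_of_mem hx, hx0, ?_⟩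
        intro y hy
        rw [Finset.mem_insert] at hy
        rcases hy with rfl | hy
        · exact h
        · exact hmax y hy
      · by_cases ha : a = 0
        · subst ha
          refine ⟨x, Finset.mem_insert_of_mem hx, hx0, ?_⟩
          intro y hy
          rw [Finset.mem_insert] at hy
          rcases hy with rfl | hy
          · rw [zero_div]; exact zero_mem _
          · exact hmax y hy
        · refine ⟨a, Finset.mem_insert_self _ _, ha, ?_⟩
          intro y hy
          rw [Finset.mem_insert] at hy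
          rcases hy with rfl | hy
          · rw [div_self ha]; exact one_mem _
          · have : y / a = (y / x) * (a / x)⁻¹ := by
              field_simp
            rw [this]
            exact mul_mem (hmax y hy) h
    · push Not at hS
      have ha : a ≠ 0 := by
        rw [Finset.mem_insert] at hx₀
        rcases hx₀ with rfl | h
        · exact hx₀'
        · exact absurd (hS x₀ h) hx₀'
      refine ⟨a, Finset.mem_insert_self _ _, ha, ?_⟩
      intro y hy
      rw [Finset.mem_insert] at hy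
      rcases hy with rfl | hy
      · rw [div_self ha]; exact one_mem _
      · rw [hS y hy, zero_div]; exact zero_mem _

theorem inv_mem_of_notMem {x : K} (hx : x ∉ V.A) : x⁻¹ ∈ V.A := (V.mem_or x).resolve_left hx

theorem pi_inv {x : K} (hx : x ∉ V.A) : V.π ⟨x⁻¹, V.inv_mem_of_notMem hx⟩ = 0 := by
  by_contra h
  have := V.inv_mem _ h
  rw [inv_inv] at this
  exact hx this

/-- the inclusion of Laurent series -/
abbrev inc : LaurentSeries V.A →+* LaurentSeries K := coeffMap V.A.subtype

/-- reduction of Laurent series -/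
abbrev red : LaurentSeries V.A →+* LaurentSeries k := coeffMap V.π

theorem inc_injective : Function.Injective V.inc := coeffMap_injective Subtype.val_injective

/-- the valuation ring of the Gauss valuation (series with a denominator which is nonzero modulo the
maximal ideal) -/
def W : Subring (LaurentSeries K) where
  carrier := {x | ∃ u v : LaurentSeries V.A, V.red v ≠ 0 ∧ V.inc v * x = V.inc u}
  mul_mem' := by
    rintro x y ⟨u, v, hv, h⟩ ⟨u', v', hv', h'⟩
    refine ⟨u * u', v * v', ?_, ?_⟩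
    · rw [map_mul]; exact mul_ne_zero hv hv'
    · rw [map_mul, map_mul, ← h, ← h']; ring
  one_mem' := ⟨1, 1, by rw [map_one]; exact one_ne_zero, by simp⟩
  add_mem' := by
    rintro x y ⟨u, v, hv, h⟩ ⟨u', v', hv', h'⟩
    refine ⟨u * v' + v * u', v * v', ?_, ?_⟩
    · rw [map_mul]; exact mul_ne_zero hv hv'
    · rw [map_mul, map_add, map_mul, map_mul, ← h, ← h']; ring
  zero_mem' := ⟨0, 1, by rw [map_one]; exact one_ne_zero, by simp⟩
  neg_mem' := by
    rintro x ⟨u, v, hv, h⟩
    refine ⟨-u, v, hv, ?_⟩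
    rw [map_neg, ← h]; ring

theorem mem_W {x : LaurentSeries K} :
    x ∈ V.W ↔ ∃ u v : LaurentSeries V.A, V.red v ≠ 0 ∧ V.inc v * x = V.inc u := Iff.rfl

theorem inc_mem_W (u : LaurentSeries V.A) : V.inc u ∈ V.W :=
  ⟨u, 1, by rw [map_one]; exact one_ne_zero, by simp⟩

variable {ι : Type*} [Fintype ι]

/-- **Gauss-type theorem**: coordinates of elements of `W` with respect to a family whose reduction
is linearly independent over `k[t]`. -/
theorem gauss (t : LaurentSeries V.A) (b : ι → LaurentSeries V.A)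
    (hLI : ∀ P : ι → k[X], ∑ i, evT (V.red t) (P i) * V.red (b i) = 0 → ∀ i, P i = 0)
    (g : LaurentSeries K) (hg : g ∈ V.W) (Q : K[X]) (hQ : Q ≠ 0) (P : ι → K[X])
    (h : evT (V.inc t) Q * g = ∑ i, evT (V.inc t) (P i) * V.inc (b i)) :
    ∃ c : K, c ≠ 0 ∧ (∀ n, c * Q.coeff n ∈ V.A) ∧ (∃ n, c * Q.coeff n = 1) ∧
      ∀ i n, c * (P i).coeff n ∈ V.A := by
  classical
  -- primitive scaling of Q
  obtain ⟨q, hq, hq0, hqmax⟩ := V.exists_max Q.coeffs (by
    refine ⟨Q.leadingCoeff, ?_, leadingCoeff_ne_zero.mpr hQ⟩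
    rw [mem_coeffs_iff]
    exact ⟨Q.natDegree, natDegree_mem_support_of_nonzero hQ, rfl⟩)
  have hQc : ∀ n, q⁻¹ * Q.coeff n ∈ V.A := by
    intro n
    by_cases hn : Q.coeff n = 0
    · rw [hn, mul_zero]; exact zero_mem _
    · have := hqmax (Q.coeff n) (coeff_mem_coeffs hn)
      rwa [div_eq_inv_mul] at this
  obtain ⟨n₀, hn₀, hn₀'⟩ := mem_coeffs_iff.mp hq
  refine ⟨q⁻¹, inv_ne_zero hq0, hQc, ⟨n₀, by rw [← hn₀', inv_mul_cancel₀ hq0]⟩, ?_⟩
  by_contra hcon
  push Not at hcon
  obtain ⟨i₁, n₁, hi₁⟩ := hcon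
  -- the set of coefficients
  set T : Finset K := Finset.univ.biUnion fun i => (P i).coeffs.image fun x => q⁻¹ * x with hT
  have hT1 : ∀ i n, (P i).coeff n ≠ 0 → q⁻¹ * (P i).coeff n ∈ T := by
    intro i n hn
    rw [hT, Finset.mem_biUnion]
    exact ⟨i, Finset.mem_univ _, Finset.mem_image_of_mem _ (coeff_mem_coeffs hn)⟩
  have hi₁0 : (P i₁).coeff n₁ ≠ 0 := by
    intro h0
    rw [h0, mul_zero] at hi₁
    exact hi₁ (zero_mem _)
  obtain ⟨x, hx, hx0, hxmax⟩ := V.exists_max T ⟨_, hT1 i₁ n₁ hi₁0,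
    mul_ne_zero (inv_ne_zero hq0) hi₁0⟩
  have hxA : x ∉ V.A := by
    intro hxA
    apply hi₁
    have h1 := hxmax _ (hT1 i₁ n₁ hi₁0)
    have h2 := mul_mem h1 hxA
    rwa [div_mul_cancel₀ _ hx0] at h2
  have hPc : ∀ i n, (C (x⁻¹ * q⁻¹) * P i).coeff n ∈ V.A := by
    intro i n
    rw [coeff_C_mul]
    by_cases hn : (P i).coeff n = 0
    · rw [hn, mul_zero]; exact zero_mem _
    · have := hxmax _ (hT1 i n hn)
      rwa [div_eq_inv_mul, ← mul_assoc] at this
  have hQc' : ∀ n, (C q⁻¹ * Q).coeff n ∈ V.A := by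
    intro n
    rw [coeff_C_mul]
    exact hQc n
  choose P' hP' using fun i => exists_lift_poly V.A _ (hPc i)
  obtain ⟨Q', hQ'⟩ := exists_lift_poly V.A _ hQc'
  obtain ⟨u, v, hv, huv⟩ := hg
  -- the key identity over A
  have key : C (⟨x⁻¹, V.inv_mem_of_notMem hxA⟩ : V.A) * Q' = C (⟨x⁻¹, V.inv_mem_of_notMem hxA⟩ : V.A) * Q' := rfl
  have h1 : HahnSeries.C (⟨x⁻¹, V.inv_mem_of_notMem hxA⟩ : V.A) * evT t Q' * u =
      v * ∑ i, evT t (P' i) * b i := by
    apply V.inc_injective
    rw [map_mul, map_mul, map_mul, map_sum, coeffMap_C, coeffMap_evT, hQ']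
    have h2 : ∀ i, V.inc (evT t (P' i) * b i) =
        HahnSeries.C (x⁻¹ * q⁻¹) * (evT (V.inc t) (P i) * V.inc (b i)) := by
      intro i
      rw [map_mul, coeffMap_evT, hP', map_mul, evT_C, mul_assoc]
    simp_rw [h2]
    rw [← Finset.mul_sum, ← h, ← huv, map_mul, evT_C]
    show HahnSeries.C x⁻¹ * (HahnSeries.C q⁻¹ * evT (V.inc t) Q) * (V.inc v * g) = _
    rw [map_mul]
    ring
  have h3 := congrArg V.red h1
  rw [map_mul, map_mul, map_mul, coeffMap_C, V.pi_inv hxA, map_zero, zero_mul, zero_mul,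
    map_sum] at h3
  have h4 := (mul_eq_zero.mp h3.symm).resolve_left hv
  have h5 : ∑ i, evT (V.red t) ((P' i).map V.π) * V.red (b i) = 0 := by
    rw [← h4]
    refine Finset.sum_congr rfl fun i _ => ?_
    rw [map_mul, coeffMap_evT]
  have h6 := hLI _ h5
  -- x is one of the coefficients
  rw [hT, Finset.mem_biUnion] at hx
  obtain ⟨i₂, -, hi₂⟩ := hx
  rw [Finset.mem_image] at hi₂
  obtain ⟨y, hy, hyx⟩ := hi₂
  obtain ⟨n₂, hn₂, hn₂'⟩ := mem_coeffs_iff.mp hy
  have h7 := congrArg (fun R : k[X] => R.coeff n₂) (h6 i₂)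
  simp only [coeff_map, coeff_zero] at h7
  have h8 : (P' i₂).coeff n₂ = 1 := by
    apply Subtype.ext
    have h9 : (((P' i₂).coeff n₂ : V.A) : K) = (C (x⁻¹ * q⁻¹) * P i₂).coeff n₂ := by
      rw [← hP' i₂, coeff_map]; rfl
    rw [h9, coeff_C_mul, ← hn₂', mul_assoc, hyx, inv_mul_cancel₀ hx0]
    rfl
  rw [h8, map_one] at h7
  exact one_ne_zero h7

end VCtx

end Fermat.Agent.ModPoly
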