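import Mathlib
import Fermat.Agent.ModPoly.Gauss

set_option autoImplicit false
set_option linter.style.haveILetI false

noncomputable section

open ModularCurve Polynomial

namespace Fermat.Agent.ModPoly

variable {K k E F : Type*} [Field K] [Field k] [Field E] [Field F] [Algebra K E] [Algebra K F]
  [Algebra E F] [IsScalarTower K E F]

/-- a valuation subring of the constant field `K`, a field `F` of Laurent series, and a subfield `E`
of `F` generated by an element `t` with integral expansion whose reduction is transcendental. -/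
structure TCtx (K k E F : Type*) [Field K] [Field k] [Field E] [Field F] [Algebra K E]
    [Algebra K F] [Algebra E F] [IsScalarTower K E F] extends VCtx K k where
  ι : F →ₐ[K] LaurentSeries K
  t : E
  tA : LaurentSeries A
  map_t : ι (algebraMap E F t) = toVCtx.inc tA
  gen : ∀ x : E, ∃ P Q : K[X], aeval t Q ≠ 0 ∧ x * aeval t Q = aeval t P
  trans : ∀ P : k[X], evT (toVCtx.red tA) P = 0 → P = 0

namespace TCtx

variable (V : TCtx K k E F)

/-- the embedding of `E` into Laurent series -/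
def ιE : E →+* LaurentSeries K := (V.ι : F →+* LaurentSeries K).comp (algebraMap E F)

theorem ιE_aeval (P : K[X]) : V.ιE (aeval V.t P) = evT (V.inc V.tA) P := by
  rw [evT_eq_aeval, ← V.map_t]
  have h : ((V.ι.comp (IsScalarTower.toAlgHom K E F)).comp (aeval V.t : K[X] →ₐ[K] E)) =
      (aeval (V.ι (algebraMap E F V.t)) : K[X] →ₐ[K] LaurentSeries K) := by
    ext
    simp
  exact congrArg (fun f : K[X] →ₐ[K] LaurentSeries K => f P) h

theorem ιE_injective : Function.Injective V.ιE := V.ιE.injective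

theorem evT_inc (P : V.A[X]) : evT (V.inc V.tA) (P.map V.A.subtype) = V.inc (evT V.tA P) :=
  (coeffMap_evT _ _ _).symm

theorem red_evT (P : V.A[X]) : V.red (evT V.tA P) = evT (V.red V.tA) (P.map V.π) :=
  coeffMap_evT _ _ _

/-- `t` is transcendental over `K` -/
theorem transK (P : K[X]) (hP : aeval V.t P = 0) : P = 0 := by
  by_contra hP0
  obtain ⟨x, hx, hx0, hmax⟩ := V.exists_max P.coeffs (by
    refine ⟨P.leadingCoeff, ?_, leadingCoeff_ne_zero.mpr hP0⟩
    rw [mem_coeffs_iff]
    exact ⟨P.natDegree, natDegree_mem_support_of_nonzero hP0, rfl⟩)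
  have hPc : ∀ n, (C x⁻¹ * P).coeff n ∈ V.A := by
    intro n
    rw [coeff_C_mul]
    by_cases hn : P.coeff n = 0
    · rw [hn, mul_zero]; exact zero_mem _
    · have := hmax _ (coeff_mem_coeffs hn)
      rwa [div_eq_inv_mul] at this
  obtain ⟨P', hP'⟩ := exists_lift_poly V.A _ hPc
  have h1 : evT V.tA P' = 0 := by
    apply V.inc_injective
    rw [← evT_inc, hP', ← ιE_aeval, map_mul, hP, mul_zero, map_zero, map_zero]
  have h2 := V.trans (P'.map V.π) (by rw [← red_evT, h1, map_zero])
  obtain ⟨n, hn, hn'⟩ := mem_coeffs_iff.mp hx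
  have h3 : P'.coeff n = 1 := by
    apply Subtype.ext
    have h9 : ((P'.coeff n : V.A) : K) = (C x⁻¹ * P).coeff n := by
      rw [← hP', coeff_map]; rfl
    rw [h9, coeff_C_mul, ← hn', inv_mul_cancel₀ hx0]
    rfl
  have h4 := congrArg (fun R : k[X] => R.coeff n) h2
  simp only [coeff_map, h3, map_one, coeff_zero] at h4
  exact one_ne_zero h4

/-- evaluation at `t` of polynomials over `A` -/
def evA : V.A[X] →+* E := (aeval V.t : K[X] →ₐ[K] E).toRingHom.comp (mapRingHom V.A.subtype)

theorem evA_apply (P : V.A[X]) : V.evA P = aeval V.t (P.map V.A.subtype) := rfl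

theorem ιE_evA (P : V.A[X]) : V.ιE (V.evA P) = V.inc (evT V.tA P) := by
  rw [evA_apply, ιE_aeval, evT_inc]

theorem evA_ne_zero {P : V.A[X]} (hP : P.map V.π ≠ 0) : V.evA P ≠ 0 := by
  intro h
  apply hP
  apply V.trans
  have h1 : V.inc (evT V.tA P) = V.inc 0 := by rw [← ιE_evA, h, map_zero, map_zero]
  rw [← red_evT, V.inc_injective h1, map_zero]

/-- the Gauss valuation ring of `E` -/
def S : Subring E where
  carrier := {x | ∃ P Q : V.A[X], Q.map V.π ≠ 0 ∧ x * V.evA Q = V.evA P}
  mul_mem' := by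
    rintro x y ⟨P, Q, hQ, h⟩ ⟨P', Q', hQ', h'⟩
    refine ⟨P * P', Q * Q', ?_, ?_⟩
    · rw [Polynomial.map_mul]; exact mul_ne_zero hQ hQ'
    · rw [map_mul, map_mul, ← h, ← h']; ring
  one_mem' := ⟨1, 1, by rw [Polynomial.map_one]; exact one_ne_zero, by simp⟩
  add_mem' := by
    rintro x y ⟨P, Q, hQ, h⟩ ⟨P', Q', hQ', h'⟩
    refine ⟨P * Q' + Q * P', Q * Q', ?_, ?_⟩
    · rw [Polynomial.map_mul]; exact mul_ne_zero hQ hQ'
    · rw [map_mul, map_add, map_mul, map_mul, ← h, ← h']; ring
  zero_mem' := ⟨0, 1, by rw [Polynomial.map_one]; exact one_ne_zero, by simp⟩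
  neg_mem' := by
    rintro x ⟨P, Q, hQ, h⟩
    refine ⟨-P, Q, hQ, ?_⟩
    rw [map_neg, ← h]; ring

theorem mem_S {x : E} : x ∈ V.S ↔ ∃ P Q : V.A[X], Q.map V.π ≠ 0 ∧ x * V.evA Q = V.evA P := Iff.rfl

theorem evA_mem_S (P : V.A[X]) : V.evA P ∈ V.S :=
  ⟨P, 1, by rw [Polynomial.map_one]; exact one_ne_zero, by simp⟩

/-- elements of `S` are in the Gauss valuation ring of Laurent series -/
theorem ιE_mem_W {x : E} (hx : x ∈ V.S) : V.ιE x ∈ V.W := by
  obtain ⟨P, Q, hQ, h⟩ := hx
  refine ⟨evT V.tA P, evT V.tA Q, ?_, ?_⟩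
  · rw [red_evT]
    intro h0
    exact hQ (V.trans _ h0)
  · rw [← ιE_evA, ← ιE_evA, ← h, map_mul]
    ring

theorem mem_or_inv (x : E) : x ∈ V.S ∨ x⁻¹ ∈ V.S := by
  classical
  obtain ⟨P, Q, hQ, h⟩ := V.gen x
  have hQ0 : Q ≠ 0 := by rintro rfl; simp at hQ
  obtain ⟨y, hy, hy0, hmax⟩ := V.exists_max (P.coeffs ∪ Q.coeffs) (by
    refine ⟨Q.leadingCoeff, Finset.mem_union_right _ ?_, leadingCoeff_ne_zero.mpr hQ0⟩
    rw [mem_coeffs_iff]
    exact ⟨Q.natDegree, natDegree_mem_support_of_nonzero hQ0, rfl⟩)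
  have hPc : ∀ n, (C y⁻¹ * P).coeff n ∈ V.A := by
    intro n
    rw [coeff_C_mul]
    by_cases hn : P.coeff n = 0
    · rw [hn, mul_zero]; exact zero_mem _
    · have := hmax _ (Finset.mem_union_left _ (coeff_mem_coeffs hn))
      rwa [div_eq_inv_mul] at this
  have hQc : ∀ n, (C y⁻¹ * Q).coeff n ∈ V.A := by
    intro n
    rw [coeff_C_mul]
    by_cases hn : Q.coeff n = 0
    · rw [hn, mul_zero]; exact zero_mem _
    · have := hmax _ (Finset.mem_union_right _ (coeff_mem_coeffs hn))
      rwa [div_eq_inv_mul] at this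
  obtain ⟨P', hP'⟩ := exists_lift_poly V.A _ hPc
  obtain ⟨Q', hQ'⟩ := exists_lift_poly V.A _ hQc
  have h1 : x * V.evA Q' = V.evA P' := by
    rw [evA_apply, evA_apply, hP', hQ', map_mul, map_mul, ← h]
    ring
  by_cases hQ'' : Q'.map V.π ≠ 0
  · left
    exact ⟨P', Q', hQ'', h1⟩
  · right
    push Not at hQ''
    have hP'' : P'.map V.π ≠ 0 := by
      intro hP''
      rw [Finset.mem_union] at hy
      rcases hy with hy | hy
      · obtain ⟨n, hn, hn'⟩ := mem_coeffs_iff.mp hy
        have h3 : P'.coeff n = 1 := by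
          apply Subtype.ext
          have h9 : ((P'.coeff n : V.A) : K) = (C y⁻¹ * P).coeff n := by
            rw [← hP', coeff_map]; rfl
          rw [h9, coeff_C_mul, ← hn', inv_mul_cancel₀ hy0]
          rfl
        have h4 := congrArg (fun R : k[X] => R.coeff n) hP''
        simp only [coeff_map, h3, map_one, coeff_zero] at h4
        exact one_ne_zero h4
      · obtain ⟨n, hn, hn'⟩ := mem_coeffs_iff.mp hy
        have h3 : Q'.coeff n = 1 := by
          apply Subtype.ext
          have h9 : ((Q'.coeff n : V.A) : K) = (C y⁻¹ * Q).coeff n := by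
            rw [← hQ', coeff_map]; rfl
          rw [h9, coeff_C_mul, ← hn', inv_mul_cancel₀ hy0]
          rfl
        have h4 := congrArg (fun R : k[X] => R.coeff n) hQ''
        simp only [coeff_map, h3, map_one, coeff_zero] at h4
        exact one_ne_zero h4
    have hx0 : x ≠ 0 := by
      rintro rfl
      rw [zero_mul] at h1
      exact V.evA_ne_zero hP'' h1.symm
    exact ⟨Q', P', hP'', by rw [← h1, inv_mul_cancel_left₀ hx0]⟩

/-- `S ∩ K[t] = A[t]` -/
theorem exists_of_mem_S (U : K[X]) (hU : aeval V.t U ∈ V.S) : ∃ U' : V.A[X], U'.map V.A.subtype = U := by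
  obtain ⟨c, hc, -, ⟨n, hn⟩, h3⟩ := V.gauss (ι := Unit) V.tA (fun _ => 1) (by
    intro P hP i
    apply V.trans
    simpa using hP) (V.ιE (aeval V.t U)) (V.ιE_mem_W hU) 1 one_ne_zero (fun _ => U) (by
    rw [ιE_aeval]
    simp)
  have hn0 : n = 0 := by
    by_contra hn0
    rw [Polynomial.coeff_one, if_neg hn0, mul_zero] at hn
    exact zero_ne_one hn
  subst hn0
  rw [Polynomial.coeff_one_zero, mul_one] at hn
  subst hn
  refine exists_lift_poly V.A U fun n => ?_
  simpa using h3 () n

/-- `S` is integrally closed -/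
theorem mem_S_of_isIntegral {x : E} (hx : IsIntegral V.S x) : x ∈ V.S := by
  let T : ValuationSubring E := ValuationSubring.ofSubring V.S V.mem_or_inv
  have h1 : IsIntegral T x := by
    obtain ⟨p, hp, hpx⟩ := hx
    exact ⟨p, hp, hpx⟩
  obtain ⟨y, hy⟩ := IsIntegrallyClosed.isIntegral_iff.mp h1
  rw [← hy]
  exact y.2

/-- `K[t]` is integrally closed -/
theorem exists_poly_of_isIntegral {x : E}
    (hx : ((aeval V.t : K[X] →ₐ[K] E) : K[X] →+* E).IsIntegralElem x) :
    ∃ U : K[X], aeval V.t U = x := by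
  letI : Algebra K[X] E := ((aeval V.t : K[X] →ₐ[K] E) : K[X] →+* E).toAlgebra
  have hinj : Function.Injective (algebraMap K[X] E) := by
    rw [injective_iff_map_eq_zero]
    exact V.transK
  haveI : FaithfulSMul K[X] E := (faithfulSMul_iff_algebraMap_injective _ _).mpr hinj
  haveI : IsFractionRing K[X] E := by
    refine IsFractionRing.of_field K[X] E fun z => ?_
    obtain ⟨P, Q, hQ, h⟩ := V.gen z
    exact ⟨P, Q, eq_div_of_mul_eq hQ h⟩
  exact IsIntegrallyClosed.isIntegral_iff.mp (show IsIntegral K[X] x from hx)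

/-- evaluation at `t`, values in `F` -/
def evAF : V.A[X] →+* F := (algebraMap E F).comp V.evA

/-- evaluation at `t`, values in `F` -/
def evKF : K[X] →+* F := (algebraMap E F).comp (aeval V.t : K[X] →ₐ[K] E).toRingHom

/-- integral over `S` and over `K[t]` implies integral over `A[t]`. -/
theorem isIntegral_of_both {g : F} (h1 : IsIntegral V.S g) (h2 : V.evKF.IsIntegralElem g) :
    V.evAF.IsIntegralElem g := by
  set p := minpoly E g with hp
  haveI : IsScalarTower V.S E F := IsScalarTower.of_algebraMap_eq fun _ => rfl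
  have hgE : IsIntegral E g := h1.tower_top
  have hpm : p.Monic := minpoly.monic hgE
  -- coefficients in S
  have h3 : ∀ n, p.coeff n ∈ V.S := by
    obtain ⟨f, hf, hfg⟩ := h1
    have hdvd : p ∣ f.map (algebraMap V.S E) := by
      apply minpoly.dvd
      rw [aeval_map_algebraMap]
      exact hfg
    have h4 := integralClosure.mem_lifts_of_monic_of_dvd_map E hf hpm hdvd
    rw [Polynomial.lifts_iff_coeff_lifts] at h4
    intro n
    obtain ⟨y, hy⟩ := h4 n
    rw [← hy]
    exact V.mem_S_of_isIntegral y.2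
  -- coefficients in K[t]
  have h5 : ∀ n, ∃ U : K[X], aeval V.t U = p.coeff n := by
    obtain ⟨f, hf, hfg⟩ := h2
    letI : Algebra K[X] E := ((aeval V.t : K[X] →ₐ[K] E) : K[X] →+* E).toAlgebra
    have hdvd : p ∣ f.map (algebraMap K[X] E) := by
      apply minpoly.dvd
      rw [aeval_def, eval₂_map]
      exact hfg
    have h4 := integralClosure.mem_lifts_of_monic_of_dvd_map E hf hpm hdvd
    rw [Polynomial.lifts_iff_coeff_lifts] at h4
    intro n
    obtain ⟨y, hy⟩ := h4 n
    rw [← hy]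
    exact V.exists_poly_of_isIntegral y.2
  -- coefficients in A[t]
  have h6 : p ∈ Polynomial.lifts V.evA := by
    rw [Polynomial.lifts_iff_coeff_lifts]
    intro n
    obtain ⟨U, hU⟩ := h5 n
    obtain ⟨U', hU'⟩ := V.exists_of_mem_S U (by rw [hU]; exact h3 n)
    exact ⟨U', by rw [evA_apply, hU', hU]⟩
  obtain ⟨q, hq, -, hqm⟩ := Polynomial.lifts_and_natDegree_eq_and_monic h6 hpm
  refine ⟨q, hqm, ?_⟩
  have h7 : aeval g p = 0 := minpoly.aeval E g
  rw [← hq, aeval_def, eval₂_map] at h7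
  exact h7

end TCtx

end Fermat.Agent.ModPoly
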