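import Mathlib
import Fermat.Agent.ModPoly.Gauss2

set_option autoImplicit false
set_option linter.style.haveILetI false

noncomputable section

open ModularCurve Polynomial

namespace Fermat.Agent.ModPoly

/-- A `TCtx` with a basis of `F` over `E` with integral expansions whose reductions are linearly
independent. -/
structure BCtx (K k E F I : Type*) [Field K] [Field k] [Field E] [Field F] [Algebra K E]
    [Algebra K F] [Algebra E F] [IsScalarTower K E F] [Fintype I] extends TCtx K k E F where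
  b : I → F
  bA : I → LaurentSeries A
  map_b : ∀ i, ι (b i) = toVCtx.inc (bA i)
  LI : ∀ P : I → k[X], ∑ i, evT (toVCtx.red tA) (P i) * toVCtx.red (bA i) = 0 → ∀ i, P i = 0
  span : ∀ x : F, x ∈ Submodule.span E (Set.range b)

section cic

variable {K : Type*} [Field K] (A : Subring K)

theorem leadingCoeff_pow' (u : LaurentSeries K) (m : ℕ) :
    (u ^ m).leadingCoeff = u.leadingCoeff ^ m := by
  induction m with
  | zero => simp
  | succ m ih => rw [pow_succ, HahnSeries.leadingCoeff_mul, ih, pow_succ]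

/-- complete integral closedness passes to Laurent series -/
theorem mem_range_of_pow (hcic : ∀ x c : K, c ≠ 0 → (∀ n : ℕ, c * x ^ n ∈ A) → x ∈ A)
    (f c : LaurentSeries K) (hc : c ≠ 0)
    (h : ∀ n : ℕ, c * f ^ n ∈ (coeffMap A.subtype).range) : f ∈ (coeffMap A.subtype).range := by
  rw [mem_range_coeffMap_iff]
  by_contra hcon
  push Not at hcon
  obtain ⟨n₀, hn₀⟩ := hcon
  -- the first bad coefficient
  have hex : ∃ n : ℤ, f.coeff n ∉ A ∧ ∀ m < n, f.coeff m ∈ A := by
    have hb : ∀ m : ℤ, f.coeff m ∉ A → f.order ≤ m := by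
      intro m hm
      by_contra hlt
      push Not at hlt
      rw [HahnSeries.coeff_eq_zero_of_lt_order hlt] at hm
      exact hm (zero_mem _)
    obtain ⟨n, hn, hmin⟩ := Int.exists_least_of_bdd (P := fun m => f.coeff m ∉ A)
      ⟨f.order, hb⟩ ⟨n₀, hn₀⟩
    refine ⟨n, hn, fun m hm => ?_⟩
    by_contra hm'
    exact absurd (hmin m hm') (not_le.mpr hm)
  obtain ⟨n, hn, hmin⟩ := hex
  set g : LaurentSeries K := HahnSeries.truncLT n f with hg
  have hgA : g ∈ (coeffMap A.subtype).range := by
    rw [mem_range_coeffMap_iff]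
    intro m
    rw [hg, HahnSeries.coeff_truncLT]
    split_ifs with h1
    · exact hmin m h1
    · exact zero_mem _
  set u := f - g with hu
  have hun : u.coeff n = f.coeff n := by
    rw [hu, HahnSeries.coeff_sub, hg, HahnSeries.coeff_truncLT, if_neg (lt_irrefl n), sub_zero]
  have hum : ∀ m < n, u.coeff m = 0 := by
    intro m hm
    rw [hu, HahnSeries.coeff_sub, hg, HahnSeries.coeff_truncLT, if_pos hm, sub_self]
  have hfn : f.coeff n ≠ 0 := by
    intro h0
    rw [h0] at hn
    exact hn (zero_mem _)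
  have huo : u.order = n := order_eq_of' (by rw [hun]; exact hfn) hum
  have hul : u.leadingCoeff = f.coeff n := by
    rw [HahnSeries.leadingCoeff_eq, huo, hun]
  have h2 : ∀ m : ℕ, c * u ^ m ∈ (coeffMap A.subtype).range := by
    intro m
    rw [hu, sub_eq_add_neg, add_pow, Finset.mul_sum]
    refine Subring.sum_mem _ fun i _ => ?_
    have : c * (f ^ i * (-g) ^ (m - i) * ((m.choose i : ℕ) : LaurentSeries K)) =
        (c * f ^ i) * (-g) ^ (m - i) * ((m.choose i : ℕ) : LaurentSeries K) := by ring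
    rw [this]
    exact mul_mem (mul_mem (h i) (pow_mem (neg_mem hgA) _)) (natCast_mem _ _)
  apply hn
  apply hcic _ c.leadingCoeff (HahnSeries.leadingCoeff_ne_zero.mpr hc)
  intro m
  have h3 : c.leadingCoeff * (f.coeff n) ^ m = (c * u ^ m).leadingCoeff := by
    rw [HahnSeries.leadingCoeff_mul, leadingCoeff_pow', hul]
  rw [h3, HahnSeries.leadingCoeff_eq]
  exact (mem_range_coeffMap_iff A _).mp (h2 m) _
where
  order_eq_of' {F : LaurentSeries K} {k : ℤ} (h1 : F.coeff k ≠ 0)
    (h2 : ∀ m < k, F.coeff m = 0) : F.order = k := by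
    have hF : F ≠ 0 := by
      rintro rfl
      simp at h1
    refine le_antisymm (HahnSeries.order_le_of_coeff_ne_zero h1) ?_
    rw [HahnSeries.le_order_iff_forall hF]
    exact h2

end cic

variable {K k E F I : Type*} [Field K] [Field k] [Field E] [Field F] [Algebra K E]
    [Algebra K F] [Algebra E F] [IsScalarTower K E F] [Fintype I]

namespace BCtx

variable (V : BCtx K k E F I)

/-- coordinates with a common denominator -/
theorem common_denom (g : F) : ∃ (Q : K[X]) (P : I → K[X]), aeval V.t Q ≠ 0 ∧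
    algebraMap E F (aeval V.t Q) * g = ∑ i, algebraMap E F (aeval V.t (P i)) * V.b i := by
  classical
  obtain ⟨e, he⟩ := (Submodule.mem_span_range_iff_exists_fun E).mp (V.span g)
  choose P Q hQ h using fun i => V.gen (e i)
  refine ⟨∏ i, Q i, fun i => P i * ∏ j ∈ Finset.univ.erase i, Q j, ?_, ?_⟩
  · rw [map_prod, Finset.prod_ne_zero_iff]
    exact fun i _ => hQ i
  · rw [← he, Finset.mul_sum]
    refine Finset.sum_congr rfl fun i _ => ?_
    rw [map_mul (aeval V.t), ← h i, ← Finset.mul_prod_erase _ Q (Finset.mem_univ i),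
      map_mul (aeval V.t), Algebra.smul_def]
    simp only [map_mul]
    ring

theorem sum_eq (Q : K[X]) (P : I → K[X]) (g : F)
    (h : algebraMap E F (aeval V.t Q) * g = ∑ i, algebraMap E F (aeval V.t (P i)) * V.b i) :
    evT (V.inc V.tA) Q * V.ι g = ∑ i, evT (V.inc V.tA) (P i) * V.inc (V.bA i) := by
  have h2 := congrArg V.ι h
  rw [map_mul, map_sum] at h2
  rw [← V.ιE_aeval]
  refine h2.trans (Finset.sum_congr rfl fun i _ => ?_)
  rw [map_mul, V.map_b, ← V.ιE_aeval]
  rfl

/-- coordinates of elements of `W` are in `S` -/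
theorem mem_span_S {g : F} (hg : V.ι g ∈ V.W) : g ∈ Submodule.span V.S (Set.range V.b) := by
  obtain ⟨Q, P, hQ, h⟩ := V.common_denom g
  have hQ0 : Q ≠ 0 := by rintro rfl; simp at hQ
  obtain ⟨c, hc, h1, ⟨n, hn⟩, h3⟩ := V.gauss V.tA V.bA V.LI (V.ι g) hg Q hQ0 P (V.sum_eq Q P g h)
  obtain ⟨Q', hQ'⟩ := exists_lift_poly V.A (C c * Q) (fun n => by rw [coeff_C_mul]; exact h1 n)
  choose P' hP' using fun i => exists_lift_poly V.A (C c * P i)
    (fun n => by rw [coeff_C_mul]; exact h3 i n)
  have hQ'' : Q'.map V.π ≠ 0 := by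
    intro h0
    have h4 : Q'.coeff n = 1 := by
      apply Subtype.ext
      have h9 : ((Q'.coeff n : V.A) : K) = (C c * Q).coeff n := by
        rw [← hQ', coeff_map]; rfl
      rw [h9, coeff_C_mul, hn]
      rfl
    have h5 := congrArg (fun R : k[X] => R.coeff n) h0
    simp only [coeff_map, h4, map_one, coeff_zero] at h5
    exact one_ne_zero h5
  have h6 : V.evA Q' ≠ 0 := V.evA_ne_zero hQ''
  have h7 : ∀ i, V.evA (P' i) / V.evA Q' ∈ V.S := fun i =>
    ⟨P' i, Q', hQ'', div_mul_cancel₀ _ h6⟩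
  have h8 : g = ∑ i, (⟨V.evA (P' i) / V.evA Q', h7 i⟩ : V.S) • V.b i := by
    have h10 : algebraMap E F (V.evA Q') ≠ 0 := by
      rw [Ne, map_eq_zero]; exact h6
    apply mul_left_cancel₀ h10
    rw [Finset.mul_sum]
    have h11 : algebraMap E F (V.evA Q') * g = algebraMap E F (algebraMap K E c) *
        (algebraMap E F (aeval V.t Q) * g) := by
      rw [V.evA_apply, hQ', map_mul, aeval_C, map_mul]
      ring
    rw [h11, h, Finset.mul_sum]
    refine Finset.sum_congr rfl fun i _ => ?_
    have h12 : (⟨V.evA (P' i) / V.evA Q', h7 i⟩ : V.S) • V.b i =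
        algebraMap E F (V.evA (P' i) / V.evA Q') * V.b i := Algebra.smul_def _ _
    rw [h12, map_div₀, V.evA_apply (P' i), hP', map_mul, aeval_C, map_mul]
    field_simp
  rw [h8]
  exact Submodule.sum_mem _ fun i _ => Submodule.smul_mem _ _ (Submodule.subset_span ⟨i, rfl⟩)

theorem span_S_mem_W {g : F} (hg : g ∈ Submodule.span V.S (Set.range V.b)) : V.ι g ∈ V.W := by
  induction hg using Submodule.span_induction with
  | mem x hx =>
    obtain ⟨i, rfl⟩ := hx
    rw [V.map_b]
    exact V.inc_mem_W _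
  | zero => rw [map_zero]; exact zero_mem _
  | add x y _ _ hx hy => rw [map_add]; exact add_mem hx hy
  | smul s x _ hx =>
    have : s • x = algebraMap E F s * x := Algebra.smul_def _ _
    rw [this, map_mul]
    exact mul_mem (V.ιE_mem_W s.2) hx

/-- elements of `F` in the Gauss valuation ring are integral over `S` -/
theorem isIntegral_of_mem_W {g : F} (hg : V.ι g ∈ V.W) : IsIntegral V.S g := by
  refine isIntegral_of_smul_mem_submodule (M := F) (Submodule.span V.S (Set.range V.b)) ?_ ?_ g ?_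
  · intro h
    have h1 : (1 : F) ∈ Submodule.span V.S (Set.range V.b) :=
      V.mem_span_S (by rw [map_one]; exact one_mem _)
    rw [h, Submodule.mem_bot] at h1
    exact one_ne_zero h1
  · exact Submodule.fg_span (Set.finite_range _)
  · intro n hn
    apply V.mem_span_S
    rw [smul_eq_mul, map_mul]
    exact mul_mem hg (V.span_S_mem_W hn)

/-- **Main theorem on integral elements**: an element of `F` integral over `K[t]` which lies in the
Gauss valuation ring is integral over `A[t]`. -/
theorem isIntegral_evAF {g : F} (hg : V.ι g ∈ V.W) (h : V.evKF.IsIntegralElem g) :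
    V.evAF.IsIntegralElem g :=
  V.isIntegral_of_both (V.isIntegral_of_mem_W hg) h

/-- every element of `F` is a quotient of series with coefficients in `A`. -/
theorem exists_frac (g : F) : ∃ u v : LaurentSeries V.A, v ≠ 0 ∧ V.inc v * V.ι g = V.inc u := by
  classical
  obtain ⟨Q, P, hQ, h⟩ := V.common_denom g
  have hQ0 : Q ≠ 0 := by rintro rfl; simp at hQ
  obtain ⟨y, hy, hy0, hmax⟩ := V.exists_max (Q.coeffs ∪ Finset.univ.biUnion fun i => (P i).coeffs) (by
    refine ⟨Q.leadingCoeff, Finset.mem_union_left _ ?_, leadingCoeff_ne_zero.mpr hQ0⟩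
    rw [mem_coeffs_iff]
    exact ⟨Q.natDegree, natDegree_mem_support_of_nonzero hQ0, rfl⟩)
  have hQc : ∀ n, (C y⁻¹ * Q).coeff n ∈ V.A := by
    intro n
    rw [coeff_C_mul]
    by_cases hn : Q.coeff n = 0
    · rw [hn, mul_zero]; exact zero_mem _
    · have := hmax _ (Finset.mem_union_left _ (coeff_mem_coeffs hn))
      rwa [div_eq_inv_mul] at this
  have hPc : ∀ i n, (C y⁻¹ * P i).coeff n ∈ V.A := by
    intro i n
    rw [coeff_C_mul]
    by_cases hn : (P i).coeff n = 0
    · rw [hn, mul_zero]; exact zero_mem _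
    · have := hmax _ (Finset.mem_union_right _ (Finset.mem_biUnion.mpr
        ⟨i, Finset.mem_univ i, coeff_mem_coeffs hn⟩))
      rwa [div_eq_inv_mul] at this
  obtain ⟨Q', hQ'⟩ := exists_lift_poly V.A _ hQc
  choose P' hP' using fun i => exists_lift_poly V.A _ (hPc i)
  refine ⟨∑ i, evT V.tA (P' i) * V.bA i, evT V.tA Q', ?_, ?_⟩
  · intro h0
    have h1 := V.evT_inc Q'
    rw [h0, map_zero, hQ', ← V.ιE_aeval] at h1
    have h2 : aeval V.t (C y⁻¹ * Q) = 0 := V.ιE_injective (by rw [h1, map_zero])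
    rw [map_mul, aeval_C] at h2
    rcases mul_eq_zero.mp h2 with h3 | h3
    · rw [map_eq_zero] at h3
      exact inv_ne_zero hy0 h3
    · exact hQ h3
  · rw [← V.evT_inc, hQ', map_mul, evT_C, mul_assoc, V.sum_eq Q P g h, map_sum, Finset.mul_sum]
    refine Finset.sum_congr rfl fun i _ => ?_
    rw [map_mul, ← V.evT_inc, hP', map_mul, evT_C, mul_assoc]

/-- integral elements over `A[t]` have expansions with coefficients in `A` -/
theorem mem_range_of_isIntegral
    (hcic : ∀ x c : K, c ≠ 0 → (∀ n : ℕ, c * x ^ n ∈ V.A) → x ∈ V.A) {g : F}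
    (hg : V.evAF.IsIntegralElem g) : V.ι g ∈ V.inc.range := by
  obtain ⟨u, v, hv, huv⟩ := V.exists_frac g
  obtain ⟨p, hp, hpg⟩ := hg
  set d := p.natDegree with hd
  have hv' : V.inc v ≠ 0 := fun h => hv (V.inc_injective (h.trans (map_zero _).symm))
  refine mem_range_of_pow V.A hcic _ (V.inc v ^ d) (pow_ne_zero _ hv') ?_
  intro n
  -- reduce X^n modulo p
  have h1 : V.ι g ^ n = ∑ i ∈ Finset.range (d + 1),
      V.inc (evT V.tA ((X ^ n %ₘ p).coeff i)) * V.ι g ^ i := by
    have h2 : (X ^ n : V.A[X][X]) = X ^ n %ₘ p + p * (X ^ n /ₘ p) := (modByMonic_add_div _ p).symm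
    have h3 : (X ^ n : V.A[X][X]).eval₂ V.evAF g = (X ^ n %ₘ p).eval₂ V.evAF g := by
      conv_lhs => rw [h2]
      rw [eval₂_add, eval₂_mul, hpg, zero_mul, add_zero]
    rw [eval₂_X_pow] at h3
    have h4 : (X ^ n %ₘ p).natDegree < d + 1 := by
      have := natDegree_modByMonic_le (X ^ n : V.A[X][X]) hp
      omega
    rw [eval₂_eq_sum_range' _ h4] at h3
    rw [← map_pow, h3, map_sum]
    refine Finset.sum_congr rfl fun i _ => ?_
    rw [map_mul, map_pow, ← V.ιE_evA]
    rfl
  rw [h1, Finset.mul_sum]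
  refine Subring.sum_mem _ fun i hi => ?_
  have h5 : V.inc v ^ d * (V.inc (evT V.tA ((X ^ n %ₘ p).coeff i)) * V.ι g ^ i) =
      V.inc (evT V.tA ((X ^ n %ₘ p).coeff i)) * V.inc v ^ (d - i) * (V.inc v * V.ι g) ^ i := by
    have h6 : d = (d - i) + i := by
      have := Finset.mem_range.mp hi
      omega
    conv_lhs => rw [h6, pow_add]
    rw [mul_pow]
    ring
  rw [h5, huv]
  exact mul_mem (mul_mem (RingHom.mem_range_self _ _) (pow_mem (RingHom.mem_range_self _ _) _))
    (pow_mem (RingHom.mem_range_self _ _) _)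

end BCtx

end Fermat.Agent.ModPoly
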