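import Mathlib
import Fermat.Agent.ModPoly.Main
import Fermat.Agent.ModPoly.Gauss

set_option autoImplicit false
set_option linter.style.haveILetI false

noncomputable section

open ModularCurve Polynomial IntermediateField

namespace Fermat.Agent.ModPoly

section functional

variable {k K' : Type*} [Field k] [Field K'] [Algebra k K']

/-- coefficientwise application of a linear functional -/
def mapF (φ : Module.Dual k K') : LaurentSeries K' →+ LaurentSeries k where
  toFun x := x.map (φ : K' →+ k)
  map_zero' := by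
    ext n
    exact map_zero φ
  map_add' x y := by
    ext n
    exact map_add φ _ _

@[simp] theorem mapF_coeff (φ : Module.Dual k K') (x : LaurentSeries K') (n : ℤ) :
    (mapF φ x).coeff n = φ (x.coeff n) := rfl

theorem mapF_C_mul (φ : Module.Dual k K') (c : K') (g : LaurentSeries k) :
    mapF φ (HahnSeries.C c * coeffMap (algebraMap k K') g) = HahnSeries.C (φ c) * g := by
  ext n
  rw [mapF_coeff, HahnSeries.C_apply, HahnSeries.coeff_single_zero_mul, HahnSeries.C_apply,
    HahnSeries.coeff_single_zero_mul, coeffMap_coeff, mul_comm c, ← Algebra.smul_def, map_smul,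
    smul_eq_mul, mul_comm]

/-- coefficientwise application to polynomials -/
def polyF (φ : Module.Dual k K') (P : K'[X]) : k[X] :=
  ∑ n ∈ Finset.range (P.natDegree + 1), monomial n (φ (P.coeff n))

theorem polyF_coeff (φ : Module.Dual k K') (P : K'[X]) (n : ℕ) :
    (polyF φ P).coeff n = φ (P.coeff n) := by
  rw [polyF, finsetSum_coeff]
  simp only [coeff_monomial]
  rw [Finset.sum_ite_eq' (Finset.range (P.natDegree + 1)) n]
  split_ifs with h
  · rfl
  · rw [Finset.mem_range, not_lt] at h
    rw [coeff_eq_zero_of_natDegree_lt (by omega), map_zero]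

theorem evT_eq_sum {R : Type*} [CommRing R] (t : LaurentSeries R) (P : R[X]) :
    evT t P = ∑ n ∈ Finset.range (P.natDegree + 1), HahnSeries.C (P.coeff n) * t ^ n := by
  rw [evT, coe_eval₂RingHom, eval₂_eq_sum_range]

theorem mapF_evT (φ : Module.Dual k K') (t f : LaurentSeries k) (P : K'[X]) :
    mapF φ (evT (coeffMap (algebraMap k K') t) P * coeffMap (algebraMap k K') f) =
      evT t (polyF φ P) * f := by
  rw [evT_eq_sum, Finset.sum_mul, map_sum]
  have h : evT t (polyF φ P) = ∑ n ∈ Finset.range (P.natDegree + 1),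
      HahnSeries.C (φ (P.coeff n)) * t ^ n := by
    rw [polyF, map_sum]
    refine Finset.sum_congr rfl fun n _ => ?_
    rw [← C_mul_X_pow_eq_monomial, map_mul, map_pow, evT_C, evT_X]
  rw [h, Finset.sum_mul]
  refine Finset.sum_congr rfl fun n _ => ?_
  rw [mul_assoc, ← map_pow, ← map_mul, mapF_C_mul, mul_assoc]

/-- Linear independence over `k[t]` is preserved by extension of the coefficient field. -/
theorem LIP_baseChange {I : Type*} [Fintype I] (t : LaurentSeries k) (f : I → LaurentSeries k)
    (h : ∀ P : I → k[X], ∑ i, evT t (P i) * f i = 0 → ∀ i, P i = 0) :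
    ∀ P : I → K'[X], ∑ i, evT (coeffMap (algebraMap k K') t) (P i) *
      coeffMap (algebraMap k K') (f i) = 0 → ∀ i, P i = 0 := by
  intro P hP i
  ext n
  rw [coeff_zero]
  apply (Module.forall_dual_apply_eq_zero_iff k _).mp
  intro φ
  have h1 := congrArg (mapF φ) hP
  rw [map_sum, map_zero] at h1
  simp_rw [mapF_evT] at h1
  have h2 := h (fun i => polyF φ (P i)) h1 i
  have h3 := congrArg (fun R : k[X] => R.coeff n) h2
  simpa [polyF_coeff] using h3

theorem LIP_of_baseChange {I : Type*} [Fintype I] (t : LaurentSeries k) (f : I → LaurentSeries k)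
    (h : ∀ P : I → K'[X], ∑ i, evT (coeffMap (algebraMap k K') t) (P i) *
      coeffMap (algebraMap k K') (f i) = 0 → ∀ i, P i = 0) :
    ∀ P : I → k[X], ∑ i, evT t (P i) * f i = 0 → ∀ i, P i = 0 := by
  intro P hP i
  have h1 := congrArg (coeffMap (algebraMap k K')) hP
  rw [map_sum, map_zero] at h1
  have h2 := h (fun i => (P i).map (algebraMap k K')) (by
    rw [← h1]
    refine Finset.sum_congr rfl fun i _ => ?_
    rw [map_mul, coeffMap_evT]) i
  exact (Polynomial.map_eq_zero_iff (algebraMap k K').injective).mp h2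

end functional

section LI

variable {K E F : Type*} [Field K] [Field E] [Field F] [Algebra K E] [Algebra E F]

/-- Linear independence over the field `E` generated by `t` versus over `K[t]`. -/
theorem linearIndependent_iff_poly (t : E)
    (gen : ∀ x : E, ∃ P Q : K[X], aeval t Q ≠ 0 ∧ x * aeval t Q = aeval t P)
    (inj : ∀ P : K[X], aeval t P = 0 → P = 0) {I : Type*} [Fintype I] (f : I → F) :
    LinearIndependent E f ↔
      ∀ P : I → K[X], ∑ i, algebraMap E F (aeval t (P i)) * f i = 0 → ∀ i, P i = 0 := by
  classical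
  rw [Fintype.linearIndependent_iff]
  constructor
  · intro h P hP i
    apply inj
    refine h (fun i => aeval t (P i)) ?_ i
    simpa [Algebra.smul_def] using hP
  · intro h g hg
    choose P Q hQ hPQ using fun i => gen (g i)
    have h1 : ∑ i, algebraMap E F (aeval t (P i * ∏ j ∈ Finset.univ.erase i, Q j)) * f i = 0 := by
      have h2 := congrArg (fun x => algebraMap E F (aeval t (∏ j, Q j)) * x) hg
      simp only [mul_zero, Finset.mul_sum] at h2
      rw [← h2]
      refine Finset.sum_congr rfl fun i _ => ?_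
      rw [map_mul (aeval t), ← hPQ i, ← Finset.mul_prod_erase _ Q (Finset.mem_univ i),
        map_mul (aeval t), Algebra.smul_def]
      simp only [map_mul]
      ring
    intro i
    have h3 := h _ h1 i
    have h4 : ∏ j ∈ Finset.univ.erase i, Q j ≠ 0 := by
      rw [Finset.prod_ne_zero_iff]
      intro j _ h0
      exact hQ j (by rw [h0, map_zero])
    have h5 := (mul_eq_zero.mp h3).resolve_right h4
    have h6 := hPQ i
    rw [h5, map_zero] at h6
    exact (mul_eq_zero.mp h6).resolve_right (hQ i)

end LI

section FF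

variable {k : Type*} [Field k] {N : ℕ}

variable (k N) in
/-- the element `j` of `E` -/
def jE : EE k N := ⟨jF' k N, IntermediateField.mem_adjoin_simple_self k (jF' k N)⟩

theorem aeval_jE_coe (P : k[X]) : ((aeval (jE k N) P : EE k N) : FF k N) = aeval (jF' k N) P := by
  have : (IsScalarTower.toAlgHom k (EE k N) (FF k N)).comp
      (aeval (jE k N) : k[X] →ₐ[k] EE k N) = aeval (jF' k N) := by
    ext
    simp [jE]
  exact congrArg (fun f : k[X] →ₐ[k] FF k N => f P) this

theorem gen_jE (x : EE k N) : ∃ P Q : k[X], aeval (jE k N) Q ≠ 0 ∧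
    x * aeval (jE k N) Q = aeval (jE k N) P := by
  obtain ⟨r, s, hrs⟩ := (IntermediateField.mem_adjoin_simple_iff k (x : FF k N)).mp x.2
  by_cases hs : aeval (jF' k N) s = 0
  · refine ⟨0, 1, by rw [map_one]; exact one_ne_zero, ?_⟩
    rw [hs, div_zero] at hrs
    have : x = 0 := Subtype.ext hrs
    rw [this, zero_mul, map_zero]
  · refine ⟨r, s, ?_, ?_⟩
    · intro h
      apply hs
      rw [← aeval_jE_coe, h]
      rfl
    · apply Subtype.ext
      rw [MulMemClass.coe_mul, aeval_jE_coe, aeval_jE_coe, hrs]
      exact div_mul_cancel₀ _ hs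

theorem inj_jE (P : k[X]) (h : aeval (jE k N) P = 0) : P = 0 := by
  apply aeval_jF_injective (N := N)
  rw [← aeval_jE_coe, h, map_zero]
  rfl

theorem coe_aeval_jF (P : k[X]) :
    ((aeval (jF' k N) P : FF k N) : LaurentSeries k) = evT (jqModC k) P := by
  rw [evT_eq_aeval]
  have : (FF k N).val.comp (aeval (jF' k N) : k[X] →ₐ[k] FF k N) =
      (aeval (jqModC k) : k[X] →ₐ[k] LaurentSeries k) := by
    ext
    simp only [AlgHom.comp_apply, aeval_X]
    show (Jc 1 1 : LaurentSeries k).coeff _ = _
    rw [Jc_one_one]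
  exact congrArg (fun f : k[X] →ₐ[k] LaurentSeries k => f P) this

theorem linearIndependent_FF_iff {I : Type*} [Fintype I] (f : I → FF k N) :
    LinearIndependent (EE k N) f ↔
      ∀ P : I → k[X], ∑ i, evT (jqModC k) (P i) * (f i : LaurentSeries k) = 0 → ∀ i, P i = 0 := by
  rw [linearIndependent_iff_poly (jE k N) gen_jE inj_jE f]
  refine forall_congr' fun P => ?_
  have h1 : (∑ i, algebraMap (EE k N) (FF k N) (aeval (jE k N) (P i)) * f i = 0) ↔
      (∑ i, evT (jqModC k) (P i) * (f i : LaurentSeries k) = 0) := by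
    rw [← Subtype.coe_inj]
    simp only [AddSubmonoidClass.coe_finsetSum, MulMemClass.coe_mul, ZeroMemClass.coe_zero]
    have h2 : ∀ i, ((algebraMap (EE k N) (FF k N) (aeval (jE k N) (P i)) : FF k N) :
        LaurentSeries k) = evT (jqModC k) (P i) := by
      intro i
      rw [← coe_aeval_jF (N := N), ← aeval_jE_coe]
      rfl
    simp_rw [h2]
  rw [h1]

theorem coeffMap_mem_FF {k' : Type*} [Field k'] (φ : k →+* k') {x : LaurentSeries k}
    (hx : x ∈ FF k N) : coeffMap φ x ∈ FF k' N := by
  rw [FF_eq_adjoin] at hx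
  induction hx using IntermediateField.adjoin_induction with
  | mem x hx =>
    obtain ⟨m, hm, rfl⟩ := hx
    haveI : NeZero (m : ℕ) := ⟨m.ne_zero⟩
    rw [Jc_one_eq, coeffMap_qExpand, coeffMap_jqModC, ← Jc_one_eq]
    exact Jc_one_mem hm
  | algebraMap x =>
    rw [algebraMap_eq_C, coeffMap_C, ← algebraMap_eq_C]
    exact (FF k' N).algebraMap_mem _
  | add x y _ _ hx hy => rw [map_add]; exact add_mem hx hy
  | inv x _ hx => rw [map_inv₀]; exact inv_mem hx
  | mul x y _ _ hx hy => rw [map_mul]; exact mul_mem hx hy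

/-- the degree over an arbitrary field is at most `ψ(N)` -/
theorem rank_E_le [NeZero N] (hN : (N : k) ≠ 0) :
    Module.rank (EE k N) (FF k N) ≤ (dedekindPsi N : Cardinal) := by
  apply rank_le
  intro s hs
  rw [linearIndependent_FF_iff] at hs
  set k' := AlgebraicClosure k with hk'
  have hN' : (N : k') ≠ 0 := by
    rw [← map_natCast (algebraMap k k')]
    rw [Ne, map_eq_zero]
    exact hN
  have h1 := LIP_baseChange (K' := k') (jqModC k) _ hs
  rw [coeffMap_jqModC] at h1
  have h2 : LinearIndependent (EE k' N) (fun i : s =>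
      (⟨coeffMap (algebraMap k k') ((i : FF k N) : LaurentSeries k),
        coeffMap_mem_FF _ (i : FF k N).2⟩ : FF k' N)) := by
    rw [linearIndependent_FF_iff]
    exact h1
  haveI := finiteDimensional_E hN'
  have h3 := h2.fintype_card_le_finrank
  rw [finrank_E hN', Fintype.card_coe] at h3
  exact h3

end FF

end Fermat.Agent.ModPoly
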