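import Mathlib
import Fermat.Agent.ModPoly.BaseChange

set_option autoImplicit false
set_option linter.style.haveILetI false

noncomputable section

open ModularCurve Polynomial IntermediateField

namespace Fermat.Agent.ModPoly

/-- monomials in the series `j (q^m)`, `m ∣ N`, with integral coefficients -/
def Mono (N : ℕ) : Submonoid (LaurentSeries ℤ) :=
  Submonoid.closure {z | ∃ (m : ℕ) (_ : NeZero m), m ∣ N ∧ z = qExpand ℤ m (jqModC ℤ)}

section

variable {k : Type*} [Field k] {N : ℕ}

/-- image of a series with integral coefficients -/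
abbrev cst (R : Type*) [CommRing R] (z : LaurentSeries ℤ) : LaurentSeries R :=
  coeffMap (Int.castRingHom R) z

theorem coeffMap_cst {R S : Type*} [CommRing R] [CommRing S] (f : R →+* S) (z : LaurentSeries ℤ) :
    coeffMap f (cst R z) = cst S z := by
  rw [cst, coeffMap_coeffMap]
  exact coeffMap_congr (RingHom.ext_int _ _) z

theorem cst_mem_FF {z : LaurentSeries ℤ} (hz : z ∈ Mono N) : cst k z ∈ FF k N := by
  induction hz using Submonoid.closure_induction with
  | mem z hz =>
    obtain ⟨m, hm0, hm, rfl⟩ := hz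
    rw [cst, coeffMap_qExpand, coeffMap_jqModC]
    exact jqModCd_mem_full k N hm
  | one => rw [cst, map_one]; exact one_mem _
  | mul x y _ _ hx hy => rw [cst, map_mul]; exact mul_mem hx hy

/-- the monomials span the field -/
theorem span_mono [IsAlgClosed k] [NeZero N] (hN : (N : k) ≠ 0) :
    Submodule.span (EE k N) {x : FF k N | ∃ z ∈ Mono N, (x : LaurentSeries k) = cst k z} = ⊤ := by
  haveI := finiteDimensional_E hN
  haveI : Algebra.IsAlgebraic (EE k N) (FF k N) := Algebra.IsAlgebraic.of_finite _ _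
  have h1 : Algebra.adjoin (EE k N)
      {x : FF k N | ∃ (m : ℕ+) (hm : (m : ℕ) ∣ N), x = jm k m hm} = ⊤ := by
    rw [← IntermediateField.adjoin_toSubalgebra_of_isAlgebraic
      (fun x _ => Algebra.IsAlgebraic.isAlgebraic x), adjoin_E_eq_top]
    rfl
  have h2 := congrArg (Subalgebra.toSubmodule) h1
  rw [Algebra.adjoin_eq_span, Algebra.top_toSubmodule] at h2
  rw [eq_top_iff, ← h2]
  apply Submodule.span_mono
  intro x hx
  induction hx using Submonoid.closure_induction with
  | mem x hx =>
    obtain ⟨m, hm, rfl⟩ := hx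
    haveI : NeZero (m : ℕ) := ⟨m.ne_zero⟩
    refine ⟨qExpand ℤ m (jqModC ℤ), Submonoid.subset_closure ⟨m, inferInstance, hm, rfl⟩, ?_⟩
    rw [cst, coeffMap_qExpand, coeffMap_jqModC]
    exact Jc_one_eq m
  | one => exact ⟨1, one_mem _, by rw [cst, map_one]; rfl⟩
  | mul x y _ _ hx hy =>
    obtain ⟨z, hz, hz'⟩ := hx
    obtain ⟨w, hw, hw'⟩ := hy
    exact ⟨z * w, mul_mem hz hw, by rw [cst, map_mul, MulMemClass.coe_mul, hz', hw']⟩

/-- There are `ψ(N)` monomials which are linearly independent over `k[j]`. -/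
theorem exists_monomials_algClosed [IsAlgClosed k] [NeZero N] (hN : (N : k) ≠ 0) :
    ∃ z : Fin (dedekindPsi N) → LaurentSeries ℤ, (∀ i, z i ∈ Mono N) ∧
      ∀ P : Fin (dedekindPsi N) → k[X], ∑ i, evT (jqModC k) (P i) * cst k (z i) = 0 →
        ∀ i, P i = 0 := by
  classical
  haveI := finiteDimensional_E hN
  obtain ⟨b, hb, hspan, hLI⟩ := exists_linearIndependent (EE k N)
    {x : FF k N | ∃ z ∈ Mono N, (x : LaurentSeries k) = cst k z}
  rw [span_mono hN] at hspan
  have hbas : Module.Basis b (EE k N) (FF k N) := Module.Basis.mk hLI (by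
    rw [Subtype.range_coe]
    exact hspan.ge)
  haveI : Fintype b := FiniteDimensional.fintypeBasisIndex hbas
  have hcard : Fintype.card b = dedekindPsi N := by
    rw [← Module.finrank_eq_card_basis hbas, finrank_E hN]
  let e : Fin (dedekindPsi N) ≃ b := (Fintype.equivFinOfCardEq hcard).symm
  choose z hz hz' using fun i : b => hb i.2
  refine ⟨fun i => z (e i), fun i => hz _, ?_⟩
  have h1 : LinearIndependent (EE k N) (fun i => ((e i : b) : FF k N)) :=
    hLI.comp e e.injective
  rw [linearIndependent_FF_iff] at h1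
  intro P hP
  refine h1 P ?_
  rw [← hP]
  refine Finset.sum_congr rfl fun i _ => ?_
  rw [hz']

/-- There are `ψ(N)` monomials which are linearly independent over `k[j]`, for an arbitrary
field. -/
theorem exists_monomials [NeZero N] (hN : (N : k) ≠ 0) :
    ∃ z : Fin (dedekindPsi N) → LaurentSeries ℤ, (∀ i, z i ∈ Mono N) ∧
      ∀ P : Fin (dedekindPsi N) → k[X], ∑ i, evT (jqModC k) (P i) * cst k (z i) = 0 →
        ∀ i, P i = 0 := by
  set k' := AlgebraicClosure k with hk'
  have hN' : (N : k') ≠ 0 := by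
    rw [← map_natCast (algebraMap k k')]
    rw [Ne, map_eq_zero]
    exact hN
  obtain ⟨z, hz, hLI⟩ := exists_monomials_algClosed hN'
  refine ⟨z, hz, LIP_of_baseChange (K' := k') (jqModC k) _ ?_⟩
  rw [coeffMap_jqModC]
  simpa only [coeffMap_cst] using hLI

/-- the degree over an arbitrary field in which `N` is invertible -/
theorem rank_E [NeZero N] (hN : (N : k) ≠ 0) :
    Module.rank (EE k N) (FF k N) = (dedekindPsi N : Cardinal) := by
  apply le_antisymm (rank_E_le hN)
  obtain ⟨z, hz, hLI⟩ := exists_monomials (N := N) hN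
  have h1 : LinearIndependent (EE k N) (fun i => (⟨cst k (z i), cst_mem_FF (hz i)⟩ : FF k N)) := by
    rw [linearIndependent_FF_iff]
    exact hLI
  have h2 := h1.cardinal_lift_le_rank
  simpa using h2

theorem finiteDimensional_E' [NeZero N] (hN : (N : k) ≠ 0) :
    FiniteDimensional (EE k N) (FF k N) := by
  haveI : Module.Free (EE k N) (FF k N) := Module.Free.of_divisionRing _ _
  rw [FiniteDimensional, ← Module.rank_lt_aleph0_iff, rank_E hN]
  exact Cardinal.natCast_lt_aleph0

theorem finrank_E' [NeZero N] (hN : (N : k) ≠ 0) :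
    Module.finrank (EE k N) (FF k N) = dedekindPsi N :=
  Module.finrank_eq_of_rank_eq (rank_E hN)

end

end Fermat.Agent.ModPoly
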