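import Mathlib
import Fermat.Agent.ModPoly.Monomials
import Fermat.Agent.ModPoly.Gauss3

set_option autoImplicit false
set_option linter.style.haveILetI false

noncomputable section

open ModularCurve Polynomial IntermediateField

namespace Fermat.Agent.ModPoly

namespace VCtx

variable {K k : Type*} [Field K] [Field k] (V : VCtx K k) {ι : Type*} [Fintype ι]

theorem exists_scale (P : ι → K[X]) (hP : ∃ i, P i ≠ 0) : ∃ (c : K) (P' : ι → V.A[X]), c ≠ 0 ∧
    (∀ i, (P' i).map V.A.subtype = C c * P i) ∧ ∃ i, (P' i).map V.π ≠ 0 := by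
  classical
  obtain ⟨i₀, hi₀⟩ := hP
  obtain ⟨y, hy, hy0, hmax⟩ := V.exists_max (Finset.univ.biUnion fun i => (P i).coeffs) (by
    refine ⟨(P i₀).leadingCoeff, ?_, leadingCoeff_ne_zero.mpr hi₀⟩
    rw [Finset.mem_biUnion]
    exact ⟨i₀, Finset.mem_univ _, mem_coeffs_iff.mpr
      ⟨(P i₀).natDegree, natDegree_mem_support_of_nonzero hi₀, rfl⟩⟩)
  have hPc : ∀ i n, (C y⁻¹ * P i).coeff n ∈ V.A := by
    intro i n
    rw [coeff_C_mul]
    by_cases hn : (P i).coeff n = 0
    · rw [hn, mul_zero]; exact zero_mem _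
    · have := hmax _ (Finset.mem_biUnion.mpr ⟨i, Finset.mem_univ i, coeff_mem_coeffs hn⟩)
      rwa [div_eq_inv_mul] at this
  choose P' hP' using fun i => exists_lift_poly V.A _ (hPc i)
  refine ⟨y⁻¹, P', inv_ne_zero hy0, hP', ?_⟩
  rw [Finset.mem_biUnion] at hy
  obtain ⟨i, -, hi⟩ := hy
  obtain ⟨n, hn, hn'⟩ := mem_coeffs_iff.mp hi
  refine ⟨i, fun h0 => ?_⟩
  have h3 : (P' i).coeff n = 1 := by
    apply Subtype.ext
    have h9 : (((P' i).coeff n : V.A) : K) = (C y⁻¹ * P i).coeff n := by
      rw [← hP', coeff_map]; rfl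
    rw [h9, coeff_C_mul, ← hn', inv_mul_cancel₀ hy0]
    rfl
  have h4 := congrArg (fun R : k[X] => R.coeff n) h0
  simp only [coeff_map, h3, map_one, coeff_zero] at h4
  exact one_ne_zero h4

theorem LI_K (t : LaurentSeries V.A) (b : ι → LaurentSeries V.A)
    (hLI : ∀ P : ι → k[X], ∑ i, evT (V.red t) (P i) * V.red (b i) = 0 → ∀ i, P i = 0) :
    ∀ P : ι → K[X], ∑ i, evT (V.inc t) (P i) * V.inc (b i) = 0 → ∀ i, P i = 0 := by
  intro P hP
  by_contra hcon
  push Not at hcon
  obtain ⟨c, P', hc, hP', ⟨i, hi⟩⟩ := V.exists_scale P hcon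
  have h1 : ∑ i, evT t (P' i) * b i = 0 := by
    apply V.inc_injective
    rw [map_sum, map_zero]
    have h2 : ∀ i, V.inc (evT t (P' i) * b i) =
        HahnSeries.C c * (evT (V.inc t) (P i) * V.inc (b i)) := by
      intro i
      rw [map_mul, coeffMap_evT, hP', map_mul, evT_C, mul_assoc]
    simp_rw [h2]
    rw [← Finset.mul_sum, hP, mul_zero]
  have h3 := congrArg V.red h1
  rw [map_sum, map_zero] at h3
  simp_rw [map_mul, coeffMap_evT] at h3
  exact hi (hLI _ h3 i)

end VCtx

theorem cst_jqModC (R : Type*) [CommRing R] : cst R (jqModC ℤ) = jqModC R := coeffMap_jqModC _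

section

variable {K k : Type*} [Field K] [Field k] (V : VCtx K k) (N : ℕ) [NeZero N]

/-- The modular function field with its integral basis. -/
def modBCtx (hNK : (N : K) ≠ 0) (z : Fin (dedekindPsi N) → LaurentSeries ℤ)
    (hz : ∀ i, z i ∈ Mono N)
    (hLI : ∀ P : Fin (dedekindPsi N) → k[X], ∑ i, evT (jqModC k) (P i) * cst k (z i) = 0 →
        ∀ i, P i = 0) : BCtx K k (EE K N) (FF K N) (Fin (dedekindPsi N)) where
  toVCtx := V
  ι := (FF K N).val
  t := jE K N
  tA := jqModC V.A
  map_t := by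
    rw [coeffMap_jqModC]
    exact Jc_one_one
  gen := gen_jE
  trans := by
    intro P hP
    rw [coeffMap_jqModC, evT_eq_aeval] at hP
    exact aeval_jqModC_injective (by rw [hP, map_zero])
  b i := ⟨cst K (z i), cst_mem_FF (hz i)⟩
  bA i := cst V.A (z i)
  map_b i := (coeffMap_cst V.A.subtype (z i)).symm
  LI := by
    intro P hP
    apply hLI
    rw [coeffMap_jqModC] at hP
    simpa only [coeffMap_cst] using hP
  span := by
    have h1 : LinearIndependent (EE K N)
        (fun i => (⟨cst K (z i), cst_mem_FF (hz i)⟩ : FF K N)) := by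
      rw [linearIndependent_FF_iff]
      have h2 := V.LI_K (jqModC V.A) (fun i => cst V.A (z i)) (by
        intro P hP
        apply hLI
        rw [coeffMap_jqModC] at hP
        simpa only [coeffMap_cst] using hP)
      simpa only [coeffMap_cst, coeffMap_jqModC] using h2
    haveI := finiteDimensional_E' hNK
    have h3 := h1.span_eq_top_of_card_eq_finrank' (by rw [finrank_E' hNK, Fintype.card_fin])
    intro x
    rw [h3]
    exact Submodule.mem_top

end

section reflect

variable {R : Type*} [CommRing R]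

theorem evT_inv_eq {t t' : LaurentSeries R} (h : t * t' = 1) (D : ℕ) (P : R[X])
    (hP : P.natDegree ≤ D) : evT t' P = evT t (reflect D P) * t' ^ D := by
  letI : Invertible t' := ⟨t, h, by rw [mul_comm]; exact h⟩
  have h1 := eval₂_reflect_mul_pow (HahnSeries.C : R →+* LaurentSeries R) t' D P hP
  have h2 : ⅟t' = t := rfl
  rw [h2] at h1
  rw [evT, evT, coe_eval₂RingHom, coe_eval₂RingHom, h1]

theorem LIP_inv {I : Type*} [Fintype I] {t t' : LaurentSeries R} (h : t * t' = 1)
    (f : I → LaurentSeries R)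
    (hLI : ∀ P : I → R[X], ∑ i, evT t (P i) * f i = 0 → ∀ i, P i = 0) :
    ∀ P : I → R[X], ∑ i, evT t' (P i) * f i = 0 → ∀ i, P i = 0 := by
  classical
  intro P hP i
  set D := ∑ i, (P i).natDegree with hD
  have hDi : ∀ i, (P i).natDegree ≤ D := fun i =>
    Finset.single_le_sum (f := fun i => (P i).natDegree) (fun _ _ => Nat.zero_le _)
      (Finset.mem_univ i)
  have h1 : ∑ i, evT t (reflect D (P i)) * f i = 0 := by
    have h2 : t ^ D * ∑ i, evT t' (P i) * f i = ∑ i, evT t (reflect D (P i)) * f i := by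
      rw [Finset.mul_sum]
      refine Finset.sum_congr rfl fun i _ => ?_
      rw [evT_inv_eq h D (P i) (hDi i)]
      have h3 : t ^ D * t' ^ D = 1 := by rw [← mul_pow, h, one_pow]
      calc t ^ D * (evT t (reflect D (P i)) * t' ^ D * f i) =
          (t ^ D * t' ^ D) * (evT t (reflect D (P i)) * f i) := by ring
        _ = _ := by rw [h3, one_mul]
    rw [← h2, hP, mul_zero]
  have h4 := hLI _ h1 i
  exact (reflect_eq_zero_iff).mp h4

end reflect

section

variable {K k E F I : Type*} [Field K] [Field k] [Field E] [Field F] [Algebra K E]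
    [Algebra K F] [Algebra E F] [IsScalarTower K E F] [Fintype I]

/-- the same context with `t` replaced by `t⁻¹`. -/
def BCtx.invT (V : BCtx K k E F I) (tA' : LaurentSeries V.A) (h : V.tA * tA' = 1) :
    BCtx K k E F I where
  toVCtx := V.toVCtx
  ι := V.ι
  t := V.t⁻¹
  tA := tA'
  map_t := by
    have h1 : V.inc V.tA * V.inc tA' = 1 := by rw [← map_mul, h, map_one]
    rw [map_inv₀, map_inv₀, V.map_t]
    exact (eq_inv_of_mul_eq_one_right h1).symm
  gen := by
    intro x
    have ht0 : V.t ≠ 0 := by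
      intro h0
      have h1 := V.map_t
      rw [h0, map_zero, map_zero] at h1
      have h2 : V.tA = 0 := V.inc_injective (by rw [← h1, map_zero])
      rw [h2, zero_mul] at h
      exact zero_ne_one h
    obtain ⟨P, Q, hQ, hPQ⟩ := V.gen x
    set D := P.natDegree + Q.natDegree with hD
    letI : Invertible V.t := ⟨V.t⁻¹, inv_mul_cancel₀ ht0, mul_inv_cancel₀ ht0⟩
    have h2 : ⅟V.t = V.t⁻¹ := rfl
    have hP := eval₂_reflect_mul_pow (algebraMap K E) V.t D P (by omega)
    have hQ' := eval₂_reflect_mul_pow (algebraMap K E) V.t D Q (by omega)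
    rw [h2] at hP hQ'
    refine ⟨reflect D P, reflect D Q, ?_, ?_⟩
    · intro h0
      rw [aeval_def] at h0
      rw [h0, zero_mul] at hQ'
      exact hQ hQ'.symm
    · apply mul_right_cancel₀ (pow_ne_zero D ht0)
      rw [aeval_def, aeval_def, mul_assoc, hP, hQ']
      exact hPQ
  trans := by
    intro P hP
    have h1 : V.red V.tA * V.red tA' = 1 := by rw [← map_mul, h, map_one]
    refine LIP_inv (I := Unit) h1 (fun _ => 1) ?_ (fun _ => P) (by simpa using hP) ()
    intro P' hP' i
    apply V.trans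
    simpa using hP'
  b := V.b
  bA := V.bA
  map_b := V.map_b
  LI := by
    have h1 : V.red V.tA * V.red tA' = 1 := by rw [← map_mul, h, map_one]
    exact LIP_inv h1 _ V.LI
  span := V.span

theorem exists_jinv : ∃ w : LaurentSeries ℤ, jqModC ℤ * w = 1 := by
  have h1 : (jqModC ℤ).order = -1 := by
    have h2 : (jqModC ℤ).coeff (-1) = 1 := coeff_jqModC_neg_one ℤ
    refine order_eq_of (by rw [h2]; exact one_ne_zero) ?_
    intro m hm
    exact coeff_jqModC_of_lt ℤ hm
  have h2 : IsUnit (jqModC ℤ) := by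
    rw [HahnSeries.isUnit_iff, HahnSeries.leadingCoeff_eq, h1, coeff_jqModC_neg_one]
    exact isUnit_one
  exact h2.exists_right_inv

end

end Fermat.Agent.ModPoly
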